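import Fermat.Agent.CFT.Density.IdealCount

/-!
# Additive valuations of a number field and their behaviour in Galois extensions

`plRamIdx_eq_one_of_inertia` and the transitivity on the primes over a prime; the vocabulary of
`CFT/Kummer` and `LT/Theta`.
-/

set_option autoImplicit false

noncomputable section

open NumberField IsDedekindDomain HeightOneSpectrum WithZero
open scoped Pointwise

namespace Fermat.CFT

/-- The finite primes of a number field. -/
abbrev Pl (K : Type*) [Field K] := HeightOneSpectrum (𝓞 K)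

variable {K : Type*} [Field K] [NumberField K]

/-- A prime number in a maximal ideal of a ring of integers. -/
theorem exists_prime_natCast_mem {F : Type*} [Field F] (w : Pl F) :
    ∃ ℓ : ℕ, ℓ.Prime ∧ (ℓ : 𝓞 F) ∈ w.asIdeal := by
  have hne : w.asIdeal.under ℤ ≠ ⊥ := fun h => w.ne_bot (Ideal.eq_bot_of_comap_eq_bot h)
  set n : ℤ := Submodule.IsPrincipal.generator (w.asIdeal.under ℤ) with hn
  have hspan : Ideal.span {n} = w.asIdeal.under ℤ := Ideal.span_singleton_generator _
  have hn0 : n ≠ 0 := fun h => hne (by rw [← hspan, h, Ideal.span_singleton_eq_bot.mpr rfl])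
  have hp : Prime n := by
    rw [← Ideal.span_singleton_prime hn0, hspan]
    exact Ideal.IsPrime.under ℤ w.asIdeal
  refine ⟨n.natAbs, Int.prime_iff_natAbs_prime.mp hp, ?_⟩
  have hm : n ∈ w.asIdeal.under ℤ := hspan ▸ Ideal.mem_span_singleton_self n
  have hm' : (algebraMap ℤ (𝓞 F) n) ∈ w.asIdeal := hm
  rcases n.natAbs_eq with e | e
  · rw [e] at hm'
    simpa using hm'
  · rw [e] at hm'
    simpa using hm'

/-- The additive valuation at `v`, with value `0` at `0`. -/
def ord (v : Pl K) (x : K) : ℤ := -WithZero.log (v.valuation K x)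

/-- The order of `0` is `0`, by convention. -/
@[simp] lemma ord_zero (v : Pl K) : ord v (0 : K) = 0 := by simp [ord]

/-- The valuation is the exponential of minus the order. -/
lemma valuation_eq_exp_neg_ord (v : Pl K) {x : K} (hx : x ≠ 0) :
    v.valuation K x = exp (-ord v x) := by
  rw [ord, neg_neg, exp_log ((Valuation.ne_zero_iff _).mpr hx)]

/-- The order is additive. -/
lemma ord_mul (v : Pl K) {x y : K} (hx : x ≠ 0) (hy : y ≠ 0) :
    ord v (x * y) = ord v x + ord v y := by
  rw [ord, ord, ord, map_mul,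
    log_mul ((v.valuation K).ne_zero_iff.mpr hx) ((v.valuation K).ne_zero_iff.mpr hy)]
  ring

/-- The order of `1` is `0`. -/
@[simp] lemma ord_one (v : Pl K) : ord v (1 : K) = 0 := by simp [ord]

/-- The order of an inverse. -/
lemma ord_inv (v : Pl K) (x : K) : ord v x⁻¹ = -ord v x := by
  rcases eq_or_ne x 0 with rfl | hx
  · simp
  · have := ord_mul v hx (inv_ne_zero hx)
    rw [mul_inv_cancel₀ hx, ord_one] at this
    omega

/-- The order of a quotient. -/
lemma ord_div (v : Pl K) {x y : K} (hx : x ≠ 0) (hy : y ≠ 0) :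
    ord v (x / y) = ord v x - ord v y := by
  rw [div_eq_mul_inv, ord_mul v hx (inv_ne_zero hy), ord_inv]; ring

/-- The order of a power. -/
lemma ord_pow (v : Pl K) (x : K) (n : ℕ) : ord v (x ^ n) = n * ord v x := by
  rcases eq_or_ne x 0 with rfl | hx
  · rcases n with - | n <;> simp
  induction n with
  | zero => simp
  | succ n ih => rw [pow_succ, ord_mul v (pow_ne_zero _ hx) hx, ih]; push_cast; ring

/-- The order of a product is the sum of the orders. -/
lemma ord_prod {ι : Type*} (v : Pl K) (s : Finset ι) (f : ι → K) (hf : ∀ i ∈ s, f i ≠ 0) :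
    ord v (∏ i ∈ s, f i) = ∑ i ∈ s, ord v (f i) := by
  classical
  induction s using Finset.induction with
  | empty => simp
  | insert i s hi ih =>
    have hf' : ∀ j ∈ s, f j ≠ 0 := fun j hj => hf j (Finset.mem_insert_of_mem hj)
    rw [Finset.prod_insert hi, Finset.sum_insert hi,
      ord_mul v (hf i (Finset.mem_insert_self _ _)) (Finset.prod_ne_zero_iff.mpr hf'), ih hf']

/-- The order ignores signs. -/
@[simp] lemma ord_neg (v : Pl K) (x : K) : ord v (-x) = ord v x := by simp [ord]

/-- The order is at least `n` exactly when the valuation is at most `exp (-n)`. -/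
lemma le_ord_iff (v : Pl K) {x : K} (hx : x ≠ 0) (n : ℤ) :
    n ≤ ord v x ↔ v.valuation K x ≤ exp (-n) := by
  rw [valuation_eq_exp_neg_ord v hx, exp_le_exp]; omega

/-- An integer has order at least `n` exactly when it lies in `vⁿ`. -/
lemma le_ord_algebraMap_iff (v : Pl K) {r : 𝓞 K} (hr : r ≠ 0) (n : ℕ) :
    (n : ℤ) ≤ ord v (r : K) ↔ r ∈ v.asIdeal ^ n := by
  rw [le_ord_iff v (by simpa using hr), valuation_of_algebraMap, intValuation_le_pow_iff_mem]

/-- Integers have nonnegative order. -/
lemma ord_algebraMap_nonneg (v : Pl K) (r : 𝓞 K) : 0 ≤ ord v (r : K) := by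
  rcases eq_or_ne r 0 with rfl | hr
  · simp
  · exact (le_ord_algebraMap_iff v hr 0).mpr (by simp)

/-- An integer has positive order exactly when it lies in `v`. -/
lemma ord_algebraMap_pos_iff (v : Pl K) {r : 𝓞 K} (hr : r ≠ 0) :
    0 < ord v (r : K) ↔ r ∈ v.asIdeal := by
  have := le_ord_algebraMap_iff v hr 1
  rw [pow_one] at this
  rw [← this]; rfl

/-- An integer has order zero exactly when it is outside `v`. -/
lemma ord_algebraMap_eq_zero_iff (v : Pl K) {r : 𝓞 K} (hr : r ≠ 0) :
    ord v (r : K) = 0 ↔ r ∉ v.asIdeal := by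
  rw [← ord_algebraMap_pos_iff v hr]
  have := ord_algebraMap_nonneg v r
  omega

/-- An integral element has nonnegative order. -/
lemma ord_nonneg_of_isIntegral (v : Pl K) {x : K} (hx : IsIntegral ℤ x) : 0 ≤ ord v x :=
  ord_algebraMap_nonneg v ⟨x, hx⟩

/-- The order of a quotient of integers. -/
lemma ord_eq_of_eq_div (v : Pl K) {a b : 𝓞 K} (ha : a ≠ 0) (hb : b ≠ 0) :
    ord v ((a : K) / b) = ord v (a : K) - ord v (b : K) :=
  ord_div v (by simpa using ha) (by simpa using hb)

/-- The order of a sum is at least the smaller of the orders. -/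
lemma ord_add_ge (v : Pl K) {x y : K} {n : ℤ} (hxy : x + y ≠ 0) (hx : x = 0 ∨ n ≤ ord v x)
    (hy : y = 0 ∨ n ≤ ord v y) : n ≤ ord v (x + y) := by
  rw [le_ord_iff v hxy]
  refine (Valuation.map_add _ x y).trans (max_le ?_ ?_)
  · rcases hx with rfl | hx
    · simp
    · rcases eq_or_ne x 0 with rfl | h0
      · simp
      · exact (le_ord_iff v h0 n).mp hx
  · rcases hy with rfl | hy
    · simp
    · rcases eq_or_ne y 0 with rfl | h0
      · simp
      · exact (le_ord_iff v h0 n).mp hy

/-- If `x` has smaller valuation than `y`, it determines that of the sum. -/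
lemma ord_add_eq_of_lt (v : Pl K) {x y : K} (hx : x ≠ 0) (hxy : y = 0 ∨ ord v x < ord v y) :
    ord v (x + y) = ord v x := by
  rcases hxy with rfl | hlt
  · simp
  rcases eq_or_ne y 0 with rfl | hy
  · simp
  have : v.valuation K y < v.valuation K x := by
    rw [valuation_eq_exp_neg_ord v hx, valuation_eq_exp_neg_ord v hy, exp_lt_exp]; omega
  rw [ord, ord, Valuation.map_add_eq_of_lt_left _ this]

/-- A nonzero element has finitely many nonzero orders. -/
lemma finite_ord_ne_zero (x : K) : {v : Pl K | ord v x ≠ 0}.Finite := by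
  rcases eq_or_ne x 0 with rfl | hx
  · simp
  obtain ⟨a, b, hb, rfl⟩ := IsFractionRing.div_surjective (A := 𝓞 K) x
  have hb0 := nonZeroDivisors.ne_zero hb
  have ha0 : a ≠ 0 := by rintro rfl; simp at hx
  have key : ∀ r : 𝓞 K, r ≠ 0 → {v : Pl K | ord v (r : K) ≠ 0}.Finite := by
    intro r hr
    refine (Ideal.finite_factors (I := Ideal.span {r}) (by simpa using hr)).subset ?_
    intro v hv
    rw [Set.mem_ofPred_eq, ne_eq, ord_algebraMap_eq_zero_iff v hr, not_not] at hv
    exact Ideal.dvd_iff_le.mpr ((Ideal.span_singleton_le_iff_mem _).mpr hv)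
  refine ((key a ha0).union (key b hb0)).subset fun v hv => ?_
  rw [Set.mem_ofPred_eq, ord_eq_of_eq_div v ha0 hb0] at hv
  rcases eq_or_ne (ord v (a : K)) 0 with h | h
  · exact Or.inr fun h' => hv (by omega)
  · exact Or.inl h

/-- An element with all valuations zero is a unit. -/
lemma exists_unit_of_ord_eq_zero {x : K} (hx : x ≠ 0) (h : ∀ v : Pl K, ord v x = 0) :
    ∃ u : (𝓞 K)ˣ, ((u : 𝓞 K) : K) = x := by
  have hle : ∀ y : K, y ≠ 0 → (∀ v : Pl K, ord v y = 0) → ∃ r : 𝓞 K, (r : K) = y := fun y hy hy' =>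
    mem_integers_of_valuation_le_one K y fun v => by simp [valuation_eq_exp_neg_ord v hy, hy' v]
  obtain ⟨a, ha⟩ := hle x hx h
  obtain ⟨b, hb⟩ := hle x⁻¹ (inv_ne_zero hx) fun v => by simp [ord_inv, h v]
  exact ⟨⟨a, b, RingOfIntegers.ext (by simp [ha, hb, hx]),
    RingOfIntegers.ext (by simp [ha, hb, hx])⟩, ha⟩

/-- A global unit has order zero. -/
@[simp] lemma ord_unit (v : Pl K) (u : (𝓞 K)ˣ) : ord v ((u : 𝓞 K) : K) = 0 := by
  rw [ord_algebraMap_eq_zero_iff v u.ne_zero]
  exact fun h => v.isPrime.ne_top (Ideal.eq_top_of_isUnit_mem _ h u.isUnit)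

/-- There is an element of order one. -/
lemma exists_ord_eq_one (v : Pl K) : ∃ π : K, π ≠ 0 ∧ ord v π = 1 := by
  obtain ⟨π, hπ⟩ := v.valuation_exists_uniformizer K
  refine ⟨π, fun h => ?_, by rw [ord, hπ]; rfl⟩
  rw [h, map_zero] at hπ
  exact exp_ne_zero hπ.symm

/-- `S` generates the class group: any divisor can be matched away from `S` by a principal one. -/
def GeneratesClassGroup (S : Set (Pl K)) : Prop :=
  ∀ n : Pl K → ℤ, {v | n v ≠ 0}.Finite → ∃ x : K, x ≠ 0 ∧ ∀ v, v ∉ S → ord v x = n v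

/-- A larger set still generates the class group. -/
lemma GeneratesClassGroup.mono {S T : Set (Pl K)} (h : GeneratesClassGroup S) (hST : S ⊆ T) :
    GeneratesClassGroup T := fun n hn =>
  let ⟨x, hx, hx'⟩ := h n hn
  ⟨x, hx, fun v hv => hx' v fun hv' => hv (hST hv')⟩

/-- A prime times a given ideal, if principal, gives an element with valuation concentrated
at the prime, away from that ideal. -/
lemma exists_ord_single (v : Pl K) (J : Ideal (𝓞 K)) (hJ : J ≠ ⊥)
    (hprin : (v.asIdeal * J).IsPrincipal) :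
    ∃ x : K, x ≠ 0 ∧ (∀ w : Pl K, w ≠ v → ¬ w.asIdeal ∣ J → ord w x = 0) ∧
      (¬ v.asIdeal ∣ J → ord v x = 1) := by
  obtain ⟨g, hg⟩ := hprin
  rw [Ideal.submodule_span_eq] at hg
  have hg0 : g ≠ 0 := by
    rintro rfl
    rw [Ideal.span_singleton_eq_bot.mpr rfl] at hg
    rcases Ideal.mul_eq_bot.mp hg with h | h
    · exact v.ne_bot h
    · exact hJ h
  have hmem : ∀ (w : Pl K) (k : ℕ), ¬ w.asIdeal ∣ J →
      (g ∈ w.asIdeal ^ k ↔ w.asIdeal ^ k ∣ v.asIdeal) := fun w k hw' => by
    rw [← Ideal.span_singleton_le_iff_mem, ← Ideal.dvd_iff_le, ← hg]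
    exact ⟨fun h => w.prime.pow_dvd_of_dvd_mul_right k hw' h, fun h => h.mul_right _⟩
  refine ⟨(g : K), by simpa using hg0, fun w hne hw' => ?_, fun hv' => ?_⟩
  · rw [ord_algebraMap_eq_zero_iff w hg0, ← pow_one w.asIdeal, hmem w 1 hw', pow_one]
    intro h'
    exact hne (HeightOneSpectrum.ext (v.isMaximal.eq_of_le w.isPrime.ne_top
      (Ideal.dvd_iff_le.mp h')).symm)
  · apply le_antisymm
    · by_contra hlt
      have h2 : ((2 : ℕ) : ℤ) ≤ ord v (g : K) := by push_cast; omega
      have h3 := Ideal.dvd_iff_le.mp ((hmem v 2 hv').mp ((le_ord_algebraMap_iff v hg0 2).mp h2))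
      exact (Ideal.pow_lt_self v.asIdeal v.ne_bot v.isPrime.ne_top 2 le_rfl).not_ge h3
    · exact (le_ord_algebraMap_iff v hg0 1).mpr ((hmem v 1 hv').mpr (pow_one v.asIdeal).dvd)

/-- The order of an integral power. -/
lemma ord_zpow (v : Pl K) (x : K) (k : ℤ) : ord v (x ^ k) = k * ord v x := by
  rcases k.eq_nat_or_neg with ⟨m, rfl | rfl⟩
  · rw [zpow_natCast, ord_pow]
  · rw [zpow_neg, zpow_natCast, ord_inv, ord_pow, neg_mul]

variable (K) in
/-- There is a finite set of primes generating the class group. -/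
theorem exists_finset_generatesClassGroup :
    ∃ S : Finset (Pl K), GeneratesClassGroup (S : Set (Pl K)) := by
  classical
  choose rep hrep using ClassGroup.mk0_surjective (R := 𝓞 K)
  have hfin : ∀ C : ClassGroup (𝓞 K), {v : Pl K | v.asIdeal ∣ (rep C : Ideal (𝓞 K))}.Finite :=
    fun C => Ideal.finite_factors (nonZeroDivisors.coe_ne_zero (rep C))
  refine ⟨Finset.univ.biUnion fun C => (hfin C).toFinset, fun n hn => ?_⟩
  have hP : ∀ v : Pl K, (v.asIdeal * (rep (ClassGroup.mk0 ⟨v.asIdeal,
      mem_nonZeroDivisors_iff_ne_zero.mpr v.ne_bot⟩)⁻¹ : Ideal (𝓞 K))).IsPrincipal := by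
    intro v
    refine (ClassGroup.mk0_eq_one_iff (mul_mem (mem_nonZeroDivisors_iff_ne_zero.mpr v.ne_bot)
      (SetLike.coe_mem _))).mp ?_
    have h : ClassGroup.mk0 (⟨v.asIdeal, mem_nonZeroDivisors_iff_ne_zero.mpr v.ne_bot⟩ *
        rep (ClassGroup.mk0 ⟨v.asIdeal, mem_nonZeroDivisors_iff_ne_zero.mpr v.ne_bot⟩)⁻¹) = 1 := by
      rw [map_mul, hrep, mul_inv_cancel]
    exact h
  choose g hg0 hg1 hg2 using fun v =>
    exists_ord_single v _ (nonZeroDivisors.coe_ne_zero _) (hP v)
  refine ⟨∏ v ∈ hn.toFinset, g v ^ n v,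
    Finset.prod_ne_zero_iff.mpr fun v _ => zpow_ne_zero _ (hg0 v), fun w hw => ?_⟩
  have hw' : ∀ C, ¬ w.asIdeal ∣ (rep C : Ideal (𝓞 K)) := fun C h =>
    hw (Finset.mem_biUnion.mpr ⟨C, Finset.mem_univ _, (hfin C).mem_toFinset.mpr h⟩)
  rw [ord_prod w _ _ fun v _ => zpow_ne_zero _ (hg0 v), Finset.sum_eq_single w]
  · rw [ord_zpow, hg2 w (hw' _), mul_one]
  · intro v _ hv
    rw [ord_zpow, hg1 v w (Ne.symm hv) (hw' _), mul_zero]
  · intro hwn
    have : n w = 0 := by simpa using hwn
    simp [this]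

/-! ### Galois action -/

section Galois

variable {G : Type*} [Group G] [MulSemiringAction G K]

/-- The image of a prime under an automorphism. -/
def plSMul (g : G) (v : Pl K) : Pl K where
  asIdeal := g • v.asIdeal
  isPrime := inferInstance
  ne_bot h := v.ne_bot (by
    have h' := congrArg (g⁻¹ • ·) h
    simpa using h')

/-- Automorphisms act on the primes. -/
instance plMulAction : MulAction G (Pl K) where
  smul := plSMul
  one_smul v := HeightOneSpectrum.ext (one_smul G v.asIdeal)
  mul_smul g h v := HeightOneSpectrum.ext (mul_smul g h v.asIdeal)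

omit [NumberField K] in
/-- The ideal of a translated prime. -/
lemma smul_asIdeal (g : G) (v : Pl K) : (g • v).asIdeal = g • v.asIdeal := rfl

/-- Orders are equivariant. -/
lemma ord_smul (g : G) (v : Pl K) (x : K) : ord (g • v) (g • x) = ord v x := by
  rcases eq_or_ne x 0 with rfl | hx
  · simp
  obtain ⟨a, b, hb, rfl⟩ := IsFractionRing.div_surjective (A := 𝓞 K) x
  have hb0 := nonZeroDivisors.ne_zero hb
  have ha0 : a ≠ 0 := by rintro rfl; simp at hx
  have key : ∀ r : 𝓞 K, r ≠ 0 → ord (g • v) ((g • r : 𝓞 K) : K) = ord v (r : K) := by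
    intro r hr
    have hr' : g • r ≠ 0 := (smul_ne_zero_iff_ne g).mpr hr
    have h : ∀ n : ℕ, (n : ℤ) ≤ ord (g • v) ((g • r : 𝓞 K) : K) ↔ (n : ℤ) ≤ ord v (r : K) := by
      intro n
      rw [le_ord_algebraMap_iff _ hr', le_ord_algebraMap_iff _ hr, smul_asIdeal, ← smul_pow',
        Ideal.smul_mem_pointwise_smul_iff]
    have h1 := ord_algebraMap_nonneg (g • v) (g • r)
    have h2 := ord_algebraMap_nonneg v r
    obtain ⟨n, hn⟩ := Int.eq_ofNat_of_zero_le h1
    obtain ⟨m, hm⟩ := Int.eq_ofNat_of_zero_le h2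
    have := (h n).mp hn.ge
    have := (h m).mpr hm.ge
    omega
  have hdiv : g • ((a : K) / b) = ((g • a : 𝓞 K) : K) / ((g • b : 𝓞 K) : K) :=
    map_div₀ (MulSemiringAction.toRingHom G K g) (a : K) b
  rw [hdiv, ord_eq_of_eq_div _ ((smul_ne_zero_iff_ne g).mpr ha0) ((smul_ne_zero_iff_ne g).mpr hb0),
    ord_eq_of_eq_div _ ha0 hb0, key a ha0, key b hb0]

end Galois

/-! ### Extensions -/

section Extension

variable {F : Type*} [Field F] [NumberField F] [Algebra K F]

variable (K) in
/-- The prime of `K` below a prime of `F`. -/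
def plUnder (w : Pl F) : Pl K := w.under (𝓞 K)

omit [NumberField K] [NumberField F] in
/-- The ideal of the prime below is the contraction. -/
lemma asIdeal_plUnder (w : Pl F) : (plUnder K w).asIdeal = w.asIdeal.under (𝓞 K) := rfl

/-- The ramification index of `w` over `K`. -/
def plRamIdx (K : Type*) [Field K] [NumberField K] [Algebra K F] (w : Pl F) : ℕ :=
  (plUnder K w).asIdeal.ramificationIdx' w.asIdeal

/-- A prime lies over the prime below it. -/
instance liesOver_plUnder (w : Pl F) : w.asIdeal.LiesOver (plUnder K w).asIdeal := ⟨rfl⟩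

/-- The ramification index in Mathlib's sense. -/
lemma plRamIdx_eq (w : Pl F) : plRamIdx K w = w.asIdeal.ramificationIdx (𝓞 K) :=
  Ideal.ramificationIdx'_eq_ramificationIdx _ _ (plUnder K w).ne_bot

/-- The ramification index is positive. -/
lemma plRamIdx_pos (w : Pl F) : 0 < plRamIdx K w := by
  rw [plRamIdx_eq]; exact Ideal.ramificationIdx_pos _ _

/-- The order above is the ramification index times the order below. -/
lemma ord_algebraMap_eq (w : Pl F) (x : K) :
    ord w (algebraMap K F x) = plRamIdx K w * ord (plUnder K w) x := by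
  rw [ord, ← valuation_liesOver F (plUnder K w) w x, log_pow, ord, plRamIdx]
  simp

/-- An element of `K` has order zero above exactly when it has order zero below. -/
lemma ord_algebraMap_eq_zero_iff' (w : Pl F) (x : K) :
    ord w (algebraMap K F x) = 0 ↔ ord (plUnder K w) x = 0 := by
  rw [ord_algebraMap_eq]
  simp [(plRamIdx_pos (K := K) w).ne']

omit [NumberField K] [NumberField F] in
/-- Every prime has a prime above it. -/
lemma exists_plUnder_eq (v : Pl K) : ∃ w : Pl F, plUnder K w = v := by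
  obtain ⟨⟨Q, hQ, hQv⟩⟩ := Ideal.nonempty_primesOver (S := 𝓞 F) v.asIdeal
  refine ⟨⟨Q, hQ, fun h => v.ne_bot ?_⟩, HeightOneSpectrum.ext hQv.over.symm⟩
  rw [hQv.over, h]
  exact Ideal.comap_bot_of_injective _ (FaithfulSMul.algebraMap_injective _ _)

/-- A prime has finitely many primes above it. -/
lemma finite_plUnder_preimage (v : Pl K) : {w : Pl F | plUnder K w = v}.Finite := by
  refine Set.Finite.of_finite_image (f := fun w : Pl F => w.asIdeal)
    ((IsDedekindDomain.primesOver_finite v.asIdeal (𝓞 F)).subset ?_) fun a _ b _ h =>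
      HeightOneSpectrum.ext h
  rintro _ ⟨w, hw, rfl⟩
  exact ⟨w.isPrime, ⟨(congrArg HeightOneSpectrum.asIdeal hw).symm⟩⟩

open Classical in
variable (F) in
/-- The primes of `F` above a finite set of primes of `K`. -/
def plAbove (S : Finset (Pl K)) : Finset (Pl F) :=
  S.biUnion fun v => (finite_plUnder_preimage (F := F) v).toFinset

/-- Membership in the primes above a set. -/
@[simp] lemma mem_plAbove {S : Finset (Pl K)} {w : Pl F} :
    w ∈ plAbove F S ↔ plUnder K w ∈ S := by
  classical
  simp [plAbove]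

/-- Automorphisms of `F/K` are linear over the integers of `K`. -/
instance smulCommClass_integers : SMulCommClass (F ≃ₐ[K] F) (𝓞 K) (𝓞 F) where
  smul_comm σ r x := by
    apply RingOfIntegers.ext
    change σ (algebraMap K F (r : K) * (x : F)) = algebraMap K F (r : K) * σ (x : F)
    rw [map_mul, σ.commutes]

omit [NumberField K] [NumberField F] in
/-- Conjugate primes lie over the same prime. -/
lemma plUnder_smul (σ : F ≃ₐ[K] F) (w : Pl F) : plUnder K (σ • w) = plUnder K w :=
  HeightOneSpectrum.ext (Ideal.under_smul (A := 𝓞 K) w.asIdeal σ)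

/-- The Galois group is transitive on the primes over a prime. -/
lemma exists_smul_eq_of_plUnder_eq [IsGalois K F] {w w' : Pl F}
    (h : plUnder K w = plUnder K w') : ∃ σ : F ≃ₐ[K] F, σ • w = w' := by
  have : w'.asIdeal.LiesOver (plUnder K w).asIdeal := ⟨by rw [h]; rfl⟩
  obtain ⟨σ, hσ⟩ := Ideal.exists_smul_eq_of_isGaloisGroup (plUnder K w).asIdeal w.asIdeal
    w'.asIdeal (F ≃ₐ[K] F)
  exact ⟨σ, HeightOneSpectrum.ext hσ⟩

/-- Trivial inertia means no ramification. -/
lemma plRamIdx_eq_one_of_inertia [IsGalois K F] (w : Pl F)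
    (h : ∀ σ : F ≃ₐ[K] F, (∀ x : 𝓞 F, σ • x - x ∈ w.asIdeal) → σ = 1) : plRamIdx K w = 1 := by
  have : Finite (𝓞 K ⧸ (plUnder K w).asIdeal) :=
    Ideal.finiteQuotientOfFreeOfNeBot _ (plUnder K w).ne_bot
  have := Ideal.card_inertia_eq_ramificationIdxIn (G := F ≃ₐ[K] F) (plUnder K w).asIdeal w.asIdeal
  rw [plRamIdx_eq, ← Ideal.ramificationIdxIn_eq_ramificationIdx (plUnder K w).asIdeal w.asIdeal
    (F ≃ₐ[K] F), ← this, Subgroup.card_eq_one]
  exact (Subgroup.eq_bot_iff_forall _).mpr fun σ hσ => h σ hσ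

end Extension

/-- A finite sum of small terms is small. -/
lemma ord_sum_ge {ι : Type*} (v : Pl K) {n : ℤ} (s : Finset ι) (f : ι → K)
    (hf : ∀ i ∈ s, f i = 0 ∨ n ≤ ord v (f i)) :
    ∑ i ∈ s, f i = 0 ∨ n ≤ ord v (∑ i ∈ s, f i) := by
  classical
  induction s using Finset.induction with
  | empty => exact Or.inl Finset.sum_empty
  | insert i s hi ih =>
    rw [Finset.sum_insert hi]
    rcases eq_or_ne (f i + ∑ j ∈ s, f j) 0 with h | h
    · exact Or.inl h
    · exact Or.inr (ord_add_ge v h (hf i (Finset.mem_insert_self _ _))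
        (ih fun j hj => hf j (Finset.mem_insert_of_mem hj)))

end Fermat.CFT
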