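import Fermat.Agent.CFT.Kummer.LocalPower
import Fermat.Agent.CFT.Density.Places

/-!
# Auxiliary primes for the norm theorem

`exists_split_not_localPower` and `mem_localPowers_of_norm`, the choice of the separating primes in
the proof of `Hasse`.
-/

set_option autoImplicit false

noncomputable section

open NumberField IsDedekindDomain HeightOneSpectrum
open scoped Pointwise

namespace Fermat.CFT

variable {K : Type} [Field K] [NumberField K] {p : ℕ} [hp : Fact p.Prime] {ζ : K}

omit [NumberField K] in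
/-- The prime below is transitive in towers. -/
lemma plUnder_plUnder {F N : Type} [Field F] [NumberField F] [Field N] [NumberField N]
    [Algebra K F] [Algebra K N] [Algebra F N] [IsScalarTower K F N] (w : Pl N) :
    plUnder K (plUnder F w) = plUnder K w := by
  refine HeightOneSpectrum.ext ?_
  simp only [asIdeal_plUnder]
  exact Ideal.under_under (A := 𝓞 K) (B := 𝓞 F) w.asIdeal

/-- At a prime with `zetaOrd = 0` an automorphism fixing a place above fixes the roots of local
`p`-th powers. -/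
theorem apply_eq_of_mem_localPowers {N : Type} [Field N] [NumberField N] [Algebra K N]
    (hζ : IsPrimitiveRoot ζ p) {v : Pl K} (h0 : zetaOrd ζ v = 0) {g : N ≃ₐ[K] N} {w : Pl N}
    (hw : plUnder K w = v) (hg : g • w = w) {β : N} {a : Kˣ}
    (hβ : β ^ p = algebraMap K N (a : K)) (ha : a ∈ localPowers p ζ v) : g β = β := by
  obtain ⟨y, hy⟩ := ha
  set u := β / algebraMap K N (y : K) with hu
  have hup : u ^ p = algebraMap K N ((a : K) / (y : K) ^ p) := by
    rw [hu, div_pow, hβ, map_div₀, map_pow]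
  -- `u = β / y` is congruent to a root of unity
  obtain ⟨huord, hu0, i, hi, hi'⟩ :=
    exists_close_root hζ hw (div_ne_zero a.ne_zero (pow_ne_zero _ y.ne_zero)) hy hup
  rw [h0, Nat.cast_zero, mul_zero] at hi'
  have hβ0 : β ≠ 0 := fun h => hu0 (by rw [hu, h, zero_div])
  have hζN : IsPrimitiveRoot (algebraMap K N ζ) p := hζ.map_of_injective (algebraMap K N).injective
  obtain ⟨j, hj, hj'⟩ := hζN.eq_pow_of_pow_eq_one (show (g β / β) ^ p = 1 by
    rw [div_pow, ← map_pow, hβ, AlgEquiv.commutes, div_self ((_root_.map_ne_zero _).mpr a.ne_zero)])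
  rw [eq_div_iff hβ0] at hj'
  by_contra hne
  -- if `g` moved `β`, it would move that root of unity modulo `w`
  have hj0 : j ≠ 0 := by rintro rfl; exact hne (by rw [← hj', pow_zero, one_mul])
  have hgu : g u = algebraMap K N ζ ^ j * u := by
    rw [hu, map_div₀, AlgEquiv.commutes, ← hj', mul_div_assoc]
  have hj1 : algebraMap K N ζ ^ j - 1 ≠ 0 :=
    sub_ne_zero.mpr (hζN.pow_ne_one_of_pos_of_lt hj0 hj)
  have hgi : g (u - algebraMap K N ζ ^ i) = algebraMap K N ζ ^ j * u - algebraMap K N ζ ^ i := by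
    rw [map_sub, map_pow, hgu, AlgEquiv.commutes]
  have hi'' : algebraMap K N ζ ^ j * u - algebraMap K N ζ ^ i = 0 ∨
      0 < ord w (algebraMap K N ζ ^ j * u - algebraMap K N ζ ^ i) := by
    rcases hi' with h | h
    · left; rw [← hgi, h, map_zero]
    · right
      have h3 := ord_smul g w (u - algebraMap K N ζ ^ i)
      rw [hg, AlgEquiv.smul_def, hgi] at h3
      omega
  have hd : ord w ((algebraMap K N ζ ^ j - 1) * u) = 0 := by
    rw [ord_mul w hj1 hu0, huord, add_zero, ← map_pow, ← map_one (algebraMap K N), ← map_sub,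
      ord_algebraMap_eq, hw, ← pow_zero ζ, ord_zeta_pow_sub hζ v hj hp.out.pos hj0, h0]
    simp
  have e1 : (algebraMap K N ζ ^ j - 1) * u =
      (algebraMap K N ζ ^ j * u - algebraMap K N ζ ^ i) + -(u - algebraMap K N ζ ^ i) := by ring
  have := ord_add_ge w (n := 1) (x := algebraMap K N ζ ^ j * u - algebraMap K N ζ ^ i)
    (y := -(u - algebraMap K N ζ ^ i)) (by rw [← e1]; exact mul_ne_zero hj1 hu0) ?_ ?_
  · rw [← e1, hd] at this; omega
  · exact hi''.imp id fun h => by omega
  · rcases hi' with h | h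
    · exact Or.inl (by rw [h, neg_zero])
    · exact Or.inr (by rw [ord_neg]; omega)

omit hp in
/-- Two different primes do not lie in one place. -/
private lemma ord_natCast_eq_zero_of_mem {q l : ℕ} (hq : q.Prime) (hl : l.Prime) (hne : q ≠ l)
    {v : Pl K} (hqv : (q : 𝓞 K) ∈ v.asIdeal) : ord v (l : K) = 0 := by
  rw [← map_natCast (algebraMap (𝓞 K) K)]
  refine (ord_algebraMap_eq_zero_iff v (Nat.cast_ne_zero.mpr hl.ne_zero)).mpr fun hpv => ?_
  obtain ⟨c, d, hcd⟩ := Nat.isCoprime_iff_coprime.mpr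
    ((Nat.coprime_primes hq hl).mpr hne)
  refine v.isPrime.ne_top ((Ideal.eq_top_iff_one _).mpr ?_)
  have := congrArg (fun z : ℤ => (z : 𝓞 K)) hcd
  push_cast at this
  rw [← this]
  exact add_mem (Ideal.mul_mem_left _ _ hqv) (Ideal.mul_mem_left _ _ hpv)

omit hp in
/-- The norm of a place over `q` has `q` as smallest prime factor. -/
private lemma minFac_absNorm_of_mem {q : ℕ} (hq : q.Prime) {v : Pl K}
    (hqv : (q : 𝓞 K) ∈ v.asIdeal) : (Ideal.absNorm v.asIdeal).minFac = q := by
  have hdvd : Ideal.absNorm v.asIdeal ∣ q ^ Module.finrank ℚ K := by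
    rw [← absNorm_span_natCast (K := K) q]
    exact Ideal.absNorm_dvd_absNorm_of_le ((Ideal.span_singleton_le_iff_mem _).mpr hqv)
  obtain ⟨i, -, hi⟩ := (Nat.dvd_prime_pow hq).mp hdvd
  rw [hi]
  refine hq.pow_minFac fun h0 => ?_
  rw [h0, pow_zero, Ideal.absNorm_eq_one_iff] at hi
  exact v.isPrime.ne_top hi

section CyclicExtension

variable {F : Type} [Field F] [NumberField F] [Algebra K F] [IsGalois K F]
  (hF : Module.finrank K F = p) {σ : F ≃ₐ[K] F} (hσ : σ ≠ 1) (hζ : IsPrimitiveRoot ζ p)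

include hF hσ hζ

omit hζ in
/-- If the stabiliser of a place above fixes `F`, the place below is not non-split. -/
private lemma not_isNonsplit_of_stabilizer {Ω : Type} [Field Ω] [NumberField Ω] [Algebra K Ω]
    [Algebra F Ω] [IsScalarTower K F Ω] [IsGalois K Ω] [IsGalois F Ω] (Qp : Pl Ω)
    (hfix : ∀ e : Ω ≃ₐ[K] Ω, e • Qp = Qp → ∀ x : F, e (algebraMap F Ω x) = algebraMap F Ω x) :
    ¬ IsNonsplit σ (plUnder K Qp) := by
  intro hns
  let τ' : Ω ≃ₐ[K] Ω := σ.liftNormal Ω
  set v := plUnder K Qp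
  have huniq : ∀ w w' : Pl F, plUnder K w = v → plUnder K w' = v → w = w' := by
    intro w w' hw hw'
    obtain ⟨i, -, rfl⟩ := (plUnder_eq_iff hF hσ w w').mp (hw.trans hw'.symm)
    rw [pow_smul_eq_self (hns w hw)]
  obtain ⟨h, hh⟩ := exists_smul_eq_of_plUnder_eq (K := F) (w := τ' • Qp) (w' := Qp)
    (huniq _ _ (by rw [plUnder_plUnder, plUnder_smul]) (plUnder_plUnder _))
  apply hσ
  ext x
  apply (algebraMap F Ω).injective
  have h1 : (h.restrictScalars K * τ') • Qp = Qp := by
    rw [mul_smul]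
    refine HeightOneSpectrum.ext ?_
    have h2 := congrArg HeightOneSpectrum.asIdeal hh
    rw [smul_asIdeal] at h2 ⊢
    exact h2
  have h4 := hfix _ h1 x
  have h5 : τ' (algebraMap F Ω x) = algebraMap F Ω (σ x) := σ.liftNormal_commutes Ω x
  rw [AlgEquiv.mul_apply, h5] at h4
  change h (algebraMap F Ω (σ x)) = _ at h4
  rw [h.commutes] at h4
  exact h4

/-- A prime splitting in `F` at which a given element is not a local `p`-th power. -/
theorem exists_split_not_localPower {b : Kˣ} (hb : ∀ x : F, x ^ p ≠ algebraMap K F (b : K))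
    (S : Finset (Pl K)) :
    ∃ v : Pl K, v ∉ S ∧ ord v (p : K) = 0 ∧ ¬ IsNonsplit σ v ∧ b ∉ localPowers p ζ v := by
  classical
  -- a finite Galois field `Ω` containing `F` and a root `β` of `b`
  let f : F →ₐ[ℚ] AlgebraicClosure ℚ := IsAlgClosed.lift
  obtain ⟨β₀, hβ₀⟩ := IsAlgClosed.exists_pow_nat_eq (f (algebraMap K F (b : K))) hp.out.pos
  let B := Module.finBasis ℚ F
  let s : Set (AlgebraicClosure ℚ) := insert β₀ (Set.range fun i => f (B i))
  have : Finite s := ((Set.finite_range _).insert _).to_subtype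
  let Ω : IntermediateField ℚ (AlgebraicClosure ℚ) :=
    (FiniteGaloisIntermediateField.adjoin ℚ s).toIntermediateField
  have hsΩ : s ⊆ Ω := FiniteGaloisIntermediateField.subset_adjoin ℚ s
  have : FiniteDimensional ℚ Ω :=
    (FiniteGaloisIntermediateField.adjoin ℚ s).finiteDimensional
  have : IsGalois ℚ Ω := (FiniteGaloisIntermediateField.adjoin ℚ s).isGalois
  have : NumberField Ω := NumberField.of_module_finite ℚ Ω
  have hfΩ : ∀ x, f x ∈ Ω := fun x => by
    rw [← B.sum_repr x, map_sum]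
    refine sum_mem fun i _ => ?_
    rw [Algebra.smul_def, map_mul, f.commutes, ← Algebra.smul_def]
    exact IntermediateField.smul_mem _ (hsΩ (Set.mem_insert_of_mem _ ⟨i, rfl⟩))
  let fΩ : F →ₐ[ℚ] Ω := f.codRestrict Ω.toSubalgebra hfΩ
  let algFΩ : Algebra F Ω := fΩ.toRingHom.toAlgebra
  let algKΩ : Algebra K Ω := (fΩ.toRingHom.comp (algebraMap K F)).toAlgebra
  have : IsScalarTower K F Ω := IsScalarTower.of_algebraMap_eq fun _ => rfl
  have : IsScalarTower ℚ F Ω := IsScalarTower.of_algebraMap_eq fun r => (fΩ.commutes r).symm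
  have : IsScalarTower ℚ K Ω := IsScalarTower.of_algebraMap_eq fun r => by
    change _ = fΩ (algebraMap K F (algebraMap ℚ K r))
    rw [← IsScalarTower.algebraMap_apply, fΩ.commutes]
  have : IsGalois F Ω := IsGalois.tower_top_of_isGalois ℚ F Ω
  have : IsGalois K Ω := IsGalois.tower_top_of_isGalois ℚ K Ω
  let β : Ω := ⟨β₀, hsΩ (Set.mem_insert _ _)⟩
  have hβp : β ^ p = algebraMap F Ω (algebraMap K F (b : K)) := Subtype.ext hβ₀
  obtain ⟨τ, hτ⟩ : ∃ τ : Ω ≃ₐ[F] Ω, τ β ≠ β := by
    by_contra hno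
    push Not at hno
    obtain ⟨x, hx⟩ := (IsGalois.mem_range_algebraMap_iff_fixed β).mpr hno
    refine hb x ((algebraMap F Ω).injective ?_)
    rw [map_pow, hx, hβp]
  let res : (Ω ≃ₐ[F] Ω) →* (Ω ≃ₐ[ℚ] Ω) :=
    MonoidHom.mk' (fun e => e.restrictScalars ℚ) fun _ _ => rfl
  -- a prime whose Frobenius generates the same group as some `τ` moving `β`
  obtain ⟨q, hq, hqT, hqgood, Q, g, hQ, hqQ, hfrob, hgen⟩ :=
    exists_frobenius_generating (res τ)
      (insert p (S.image fun v => (Ideal.absNorm v.asIdeal).minFac))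
  obtain ⟨k, hk⟩ : g ∈ Subgroup.zpowers (res τ) := hgen ▸ Subgroup.mem_zpowers g
  change res τ ^ k = g at hk
  rw [← map_zpow] at hk
  have hgβ : (τ ^ k) β ≠ β := by
    intro h
    obtain ⟨m, hm⟩ : res τ ∈ Subgroup.zpowers g := hgen ▸ Subgroup.mem_zpowers (res τ)
    change g ^ m = res τ at hm
    rw [← hk, ← map_zpow] at hm
    have hfix : (τ ^ k) ^ m ∈ MulAction.stabilizer (Ω ≃ₐ[F] Ω) β := zpow_mem h m
    exact hτ (show res τ β = β from hm ▸ hfix)
  let Qp : Pl Ω := ⟨Q, hQ, ne_bot_of_natCast_mem hq hqQ⟩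
  set gK : Ω ≃ₐ[K] Ω := (τ ^ k).restrictScalars K
  have hgQ : gK • Qp = Qp := by
    refine HeightOneSpectrum.ext ?_
    rw [smul_asIdeal]
    conv_rhs => rw [show Qp.asIdeal = Q from rfl, ← hfrob.smul_eq hQ, ← hk]
    rfl
  set v := plUnder K Qp
  have hqv : (q : 𝓞 K) ∈ v.asIdeal := by
    rw [asIdeal_plUnder, Ideal.mem_comap, map_natCast]
    exact hqQ
  simp only [Finset.mem_insert, Finset.mem_image, not_or, not_exists, not_and] at hqT
  have hvp : ord v (p : K) = 0 := ord_natCast_eq_zero_of_mem hq hp.out hqT.1 hqv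
  refine ⟨v, fun hvS => hqT.2 v hvS (minFac_absNorm_of_mem hq hqv), hvp,
    not_isNonsplit_of_stabilizer hF hσ Qp fun e he x => ?_, fun hbv => ?_⟩
  · have he' : e.restrictScalars ℚ • Q = Q := by
      have h3 := congrArg HeightOneSpectrum.asIdeal he
      rw [smul_asIdeal] at h3
      exact h3
    obtain ⟨m, hm⟩ := hfrob.mem_zpowers hq hqgood hQ hqQ he'
    change g ^ m = _ at hm
    rw [← hk, ← map_zpow] at hm
    rw [← AlgEquiv.restrictScalars_apply ℚ e, ← hm]
    exact ((τ ^ k) ^ m).commutes x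
  · exact hgβ (apply_eq_of_mem_localPowers (N := Ω) hζ (zetaOrd_eq_zero_of_ord hζ v hvp) rfl hgQ
      (a := b) hβp hbv)

end CyclicExtension

/-- A product of elements close to one is close to one. -/
lemma CloseOne.prod {ι : Type*} {v : Pl K} {n : ℤ} (hn : 0 < n) (s : Finset ι) (f : ι → K)
    (h0 : ∀ i ∈ s, f i ≠ 0) (hf : ∀ i ∈ s, CloseOne v n (f i)) : CloseOne v n (∏ i ∈ s, f i) := by
  classical
  induction s using Finset.induction with
  | empty => exact Or.inl Finset.prod_empty
  | insert i s hi ih =>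
    rw [Finset.prod_insert hi]
    exact (hf i (Finset.mem_insert_self _ _)).mul hn
      (ih (fun j hj => h0 j (Finset.mem_insert_of_mem hj))
        fun j hj => hf j (Finset.mem_insert_of_mem hj))
      (Finset.prod_ne_zero_iff.mpr fun j hj => h0 j (Finset.mem_insert_of_mem hj))

section Ramified

variable {F : Type} [Field F] [NumberField F] [Algebra K F] [IsGalois K F]
  (hF : Module.finrank K F = p) {σ : F ≃ₐ[K] F} (hσ : σ ≠ 1)

include hF hσ

/-- At a ramified prime not over `p`, a norm of order zero is a local `p`-th power. -/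
theorem mem_localPowers_of_norm {w : Pl F} (hram : plRamIdx K w ≠ 1) (hζ : IsPrimitiveRoot ζ p)
    (hp' : ord (plUnder K w) (p : K) = 0) {y : F} {e : Kˣ} (hy : Algebra.norm K y = (e : K))
    (he : ord (plUnder K w) (e : K) = 0) : e ∈ localPowers p ζ (plUnder K w) := by
  have hσI : ∀ x : 𝓞 F, σ • x - x ∈ w.asIdeal := by
    by_contra hno
    refine hram (plRamIdx_eq_one_of_inertia w fun τ hτ => ?_)
    by_contra hne
    exact hno ((Subgroup.zpowers_le.mpr (show τ ∈ w.asIdeal.inertia (F ≃ₐ[K] F) from hτ))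
      (mem_zpowers_generator hF hne σ))
  have hmem : ∀ x : 𝓞 F, σ • x ∈ w.asIdeal ↔ x ∈ w.asIdeal := fun x =>
    ⟨fun h => by simpa using sub_mem h (hσI x), fun h => by simpa using add_mem (hσI x) h⟩
  have hσw : σ • w = w := by
    refine HeightOneSpectrum.ext ?_
    rw [smul_asIdeal]
    ext x
    rw [Ideal.mem_pointwise_smul_iff_inv_smul_mem, ← hmem (σ⁻¹ • x), smul_inv_smul]
  have hprod : algebraMap K F (e : K) = ∏ i ∈ Finset.range p, (σ ^ i) y := by
    rw [← hy, algebraMap_norm_eq_prod_pow hF hσ]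
  have hy0 : y ≠ 0 := fun h => e.ne_zero (by rw [← hy, h, Algebra.norm_zero])
  have hσy : ∀ i, ord w ((σ ^ i) y) = ord w y := fun i => by
    have h := ord_smul (σ ^ i) w y
    rwa [pow_smul_eq_self hσw, AlgEquiv.smul_def] at h
  have hne : ∀ i ∈ Finset.range p, (σ ^ i) y ≠ 0 := fun i _ => (_root_.map_ne_zero _).mpr hy0
  have hyord : ord w y = 0 := by
    have h := congrArg (ord w) hprod
    rw [ord_algebraMap_eq, he, mul_zero, ord_prod w _ _ hne, Finset.sum_congr rfl fun i _ => hσy i,
      Finset.sum_const, Finset.card_range, nsmul_eq_mul] at h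
    rcases mul_eq_zero.mp h.symm with h | h
    · exact absurd h (by exact_mod_cast hp.out.ne_zero)
    · exact h
  -- inertia: all conjugates of `y` are congruent to `y`
  have hclose : ∀ i ∈ Finset.range p, CloseOne w 1 ((σ ^ i) y / y) := by
    intro i _
    have hI : ∀ x : 𝓞 F, (σ ^ i) • x - x ∈ w.asIdeal :=
      (pow_mem (show σ ∈ w.asIdeal.inertia (F ≃ₐ[K] F) from hσI) i :)
    rcases ord_sub_pos_of_inertia hI hy0 hyord with h | h
    · exact Or.inl (by rw [h, div_self hy0])
    · refine Or.inr ?_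
      have hsub : (σ ^ i) y - y ≠ 0 := fun h' => by rw [h', ord_zero] at h; omega
      rw [div_sub_one hy0, ord_div w hsub hy0, hyord]
      omega
  have hpF : (p : F) ≠ 0 := Nat.cast_ne_zero.mpr hp.out.ne_zero
  have hfix : σ (∑ i ∈ Finset.range p, (σ ^ i) y) = ∑ i ∈ Finset.range p, (σ ^ i) y := by
    rw [map_sum]
    have h1 : ∀ i, σ ((σ ^ i) y) = (σ ^ (i + 1)) y := fun i => by
      rw [pow_succ', AlgEquiv.mul_apply]
    rw [Finset.sum_congr rfl fun i _ => h1 i]
    have h2 := Finset.sum_range_succ (fun i => (σ ^ i) y) p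
    rw [Finset.sum_range_succ', ← orderOf_generator hF hσ, pow_orderOf_eq_one, pow_zero,
      orderOf_generator hF hσ] at h2
    exact add_right_cancel h2
  obtain ⟨t, ht⟩ : ∑ i ∈ Finset.range p, (σ ^ i) y ∈ Set.range (algebraMap K F) := by
    refine (IsGalois.mem_range_algebraMap_iff_fixed _).mpr fun τ => ?_
    obtain ⟨i, -, rfl⟩ := exists_eq_generator_pow hF hσ τ
    induction i with
    | zero => rfl
    | succ i ih => rw [pow_succ, AlgEquiv.mul_apply, hfix, ih]
  -- `y` is congruent to an element of `K`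
  have hquot : CloseOne w 1 (algebraMap K F (t / p) / y) := by
    have e1 : algebraMap K F (t / p) / y - 1 =
        (∑ i ∈ Finset.range p, ((σ ^ i) y / y - 1)) / p := by
      rw [Finset.sum_sub_distrib, ← Finset.sum_div, ← ht, Finset.sum_const, Finset.card_range,
        nsmul_one, map_div₀, map_natCast]
      field_simp
    rcases ord_sum_ge w (n := 1) (Finset.range p) (fun i => (σ ^ i) y / y - 1)
      (fun i hi => (hclose i hi).imp (fun h => sub_eq_zero.mpr h) id) with h | h
    · exact Or.inl (sub_eq_zero.mp (by rw [e1, h, zero_div]))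
    · refine Or.inr ?_
      rw [e1, ord_div w (fun h' => by rw [h', ord_zero] at h; omega) hpF, ← map_natCast
        (algebraMap K F) p, ord_algebraMap_eq, hp', mul_zero, sub_zero]
      exact h
  have ht0 : t / p ≠ 0 := by
    intro h
    rw [h, map_zero, zero_div] at hquot
    rcases hquot with h' | h'
    · exact zero_ne_one h'
    · rw [zero_sub, ord_neg, ord_one] at h'
      omega
  have hz0 : algebraMap K F (t / p) / y ≠ 0 := div_ne_zero ((_root_.map_ne_zero _).mpr ht0) hy0
  have hP : CloseOne w 1 ((algebraMap K F (t / p) / y) ^ p) := by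
    have := CloseOne.prod one_pos (Finset.range p) (fun _ => algebraMap K F (t / p) / y)
      (fun _ _ => hz0) (fun _ _ => hquot)
    rwa [Finset.prod_const, Finset.card_range] at this
  have hR := (CloseOne.prod one_pos (Finset.range p) _
    (fun i hi => div_ne_zero (hne i hi) hy0) hclose).mul one_pos
      (hP.inv one_pos (pow_ne_zero _ hz0))
    (inv_ne_zero (pow_ne_zero _ hz0))
  rw [Finset.prod_div_distrib, ← hprod, Finset.prod_const, Finset.card_range] at hR
  -- hence `e / (t / p) ^ p` is close to `1`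
  refine ⟨Units.mk0 _ ht0, ?_⟩
  rw [show (localLevel p ζ (plUnder K w) : ℤ) = 1 by
    simp [localLevel, zetaOrd_eq_zero_of_ord hζ _ hp'], Units.val_mk0]
  have e2 : algebraMap K F (e : K) / y ^ p * ((algebraMap K F (t / p) / y) ^ p)⁻¹ =
      algebraMap K F ((e : K) / (t / p) ^ p) := by
    rw [map_div₀ _ (e : K), map_pow, div_pow, inv_div, div_mul_div_comm]
    field_simp
  rw [e2] at hR
  rcases hR with h | h
  · exact Or.inl ((algebraMap K F).injective (by rw [h, map_one]))
  · refine Or.inr ?_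
    rw [← map_one (algebraMap K F), ← map_sub, ord_algebraMap_eq] at h
    have : (0 : ℤ) ≤ plRamIdx K w := Int.natCast_nonneg _
    nlinarith

end Ramified

end Fermat.CFT
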