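import Fermat.Agent.CFT.Kummer.Auxiliary

/-!
# The norm theorem for unramified cyclic extensions of prime degree

If `F/K` is cyclic of odd prime degree `p`, `K` contains a primitive `p`-th root of unity and
every prime is unramified, then a local norm everywhere is a global norm.
-/

set_option autoImplicit false

noncomputable section

open NumberField Polynomial
open scoped Pointwise

namespace Fermat.CFT

variable {K : Type} [Field K] [NumberField K] {p : ℕ} [hp : Fact p.Prime] {ζ : K}

omit [NumberField K] in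
/-- A Galois extension containing a root of a non-power has an automorphism multiplying it by
`ζ`. -/
lemma exists_aut_mul_root {L : Type} [Field L] [Algebra K L] [IsGalois K L] [FiniteDimensional K L]
    (hζ : IsPrimitiveRoot ζ p) {β : L} {a : K} (hβ : β ^ p = algebraMap K L a)
    (ha : ∀ x : K, x ^ p ≠ a) : ∃ σ : L ≃ₐ[K] L, σ ≠ 1 ∧ σ β = algebraMap K L ζ * β := by
  have ha0 : a ≠ 0 := fun h => ha 0 (by rw [h, zero_pow hp.out.ne_zero])
  have hβ0 : β ≠ 0 := fun h => by
    rw [h, zero_pow hp.out.ne_zero, eq_comm, map_eq_zero] at hβ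
    exact ha0 hβ
  have hζL : IsPrimitiveRoot (algebraMap K L ζ) p := hζ.map_of_injective (algebraMap K L).injective
  -- some `τ` moves `β`, since `a` is not a `p`th power in `K`
  obtain ⟨τ, hτ⟩ : ∃ τ : L ≃ₐ[K] L, τ β ≠ β := by
    by_contra hno
    push Not at hno
    obtain ⟨x, hx⟩ := (IsGalois.mem_range_algebraMap_iff_fixed β).mpr hno
    exact ha x ((algebraMap K L).injective (by rw [map_pow, hx, hβ]))
  -- it multiplies `β` by `ζ ^ j` with `j` prime to `p`
  obtain ⟨j, hj, hj'⟩ := hζL.eq_pow_of_pow_eq_one (show (τ β / β) ^ p = 1 by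
    rw [div_pow, ← map_pow, hβ, AlgEquiv.commutes, div_self ((_root_.map_ne_zero _).mpr ha0)])
  rw [eq_div_iff hβ0] at hj'
  have hj0 : (j : ZMod p) ≠ 0 := by
    rw [Ne, ZMod.natCast_eq_zero_iff]
    intro h
    obtain rfl := Nat.eq_zero_of_dvd_of_lt h hj
    exact hτ (by rw [← hj', pow_zero, one_mul])
  have hpow : ∀ m : ℕ, (τ ^ m) β = algebraMap K L ζ ^ (j * m) * β := by
    intro m
    induction m with
    | zero => simp
    | succ m ih =>
      rw [pow_succ', AlgEquiv.mul_apply, ih, map_mul, map_pow, AlgEquiv.commutes, ← hj', mul_add,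
        mul_one, pow_add]
      ring
  -- the power `τ ^ m` with `m = j⁻¹` modulo `p` works
  set m := ((j : ZMod p)⁻¹).val
  have hjm : (((j * m : ℕ)) : ZMod p) = 1 := by
    rw [Nat.cast_mul, ZMod.natCast_val, ZMod.cast_id', id_eq, mul_inv_cancel₀ hj0]
  have hjm' : algebraMap K L ζ ^ (j * m) = algebraMap K L ζ := by
    rw [← pow_mod_orderOf, ← hζL.eq_orderOf]
    rw [show (j * m) % p = 1 by
      have h1 : ((j * m : ℕ) : ZMod p) = ((1 : ℕ) : ZMod p) := by rw [hjm, Nat.cast_one]
      rw [ZMod.natCast_eq_natCast_iff'] at h1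
      rwa [Nat.one_mod_eq_one.mpr hp.out.ne_one] at h1, pow_one]
  refine ⟨τ ^ m, fun h => ?_, by rw [hpow, hjm']⟩
  have := hpow m
  rw [h, AlgEquiv.one_apply, hjm', eq_comm, mul_eq_right₀ hβ0] at this
  exact hζL.ne_one hp.out.one_lt this

section LocalKer

variable (p ζ) (S : Finset (Pl K))

/-- `S`-units which are local `p`-th powers at `v`. -/
def localAt (v : Pl K) : AddSubgroup (Additive (sUnits K (S : Set (Pl K)))) :=
  Subgroup.toAddSubgroup ((localPowers p ζ v).comap (sUnits K (S : Set (Pl K))).subtype)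

/-- `S`-units which are local `p`-th powers on `T`. -/
def localKer (T : Finset (Pl K)) : AddSubgroup (Additive (sUnits K (S : Set (Pl K)))) :=
  T.inf (localAt p ζ S)

variable {p ζ S}

variable (hζ : IsPrimitiveRoot ζ p) (hSp : ∀ v : Pl K, v ∉ S → ord v (p : K) = 0)

include hζ hSp

/-- Outside `S` the local `p`-th powers cut the `S`-units in index dividing `p`. -/
lemma index_localAt_dvd {v : Pl K} (hv : v ∉ S) : (localAt p ζ S v).index ∣ p := by
  have hle : sUnits K (S : Set (Pl K)) ≤ localUnits v := fun x hx => hx v (by simpa using hv)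
  have h1 : (localPowers p ζ v).comap (sUnits K (S : Set (Pl K))).subtype =
      ((localPowers p ζ v).subgroupOf (localUnits v)).comap (Subgroup.inclusion hle) := rfl
  rw [localAt, Subgroup.index_toAddSubgroup, h1, Subgroup.index_comap]
  refine (Subgroup.relIndex_dvd_index_of_normal _ _).trans (dvd_of_eq ?_)
  change (localPowers p ζ v).relIndex (localUnits v) = p
  rw [relIndex_localPowers_localUnits hζ, zetaOrd_eq_zero_of_ord hζ v (hSp v hv), mul_zero,
    pow_zero, mul_one]

/-- Each further prime outside `S` multiplies the index by a divisor of `p`. -/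
lemma index_localKer_union_dvd [DecidableEq (Pl K)] (T U : Finset (Pl K)) (hU : ∀ v ∈ U, v ∉ S) :
    (localKer p ζ S (T ∪ U)).index ∣ (localKer p ζ S T).index * p ^ U.card := by
  induction U using Finset.induction with
  | empty => simp
  | insert v U hv ih =>
    rw [Finset.union_insert, localKer, Finset.inf_insert, ← localKer,
      ← AddSubgroup.relIndex_mul_index (inf_le_right (a := localAt p ζ S v)),
      AddSubgroup.inf_relIndex_right, Finset.card_insert_of_notMem hv, pow_succ]
    refine (mul_dvd_mul ((AddSubgroup.relIndex_dvd_index_of_normal _ _).trans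
      (index_localAt_dvd hζ hSp (hU v (Finset.mem_insert_self _ _))))
      (ih fun w hw => hU w (Finset.mem_insert_of_mem hw))).trans (dvd_of_eq ?_)
    ring

end LocalKer

section Cyclic

variable {F : Type} [Field F] [NumberField F] [Algebra K F] [IsGalois K F]
  (hF : Module.finrank K F = p) {σ : F ≃ₐ[K] F} (hσ : σ ≠ 1) (hζ : IsPrimitiveRoot ζ p)

include hF hσ hζ

/-- A cyclic extension of degree `p` of a field with the roots of unity has a Kummer generator. -/
lemma exists_kummer_generator :
    ∃ (α : F) (a : Kˣ), α ≠ 0 ∧ α ^ p = algebraMap K F (a : K) ∧ σ α = algebraMap K F ζ * α := by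
  have hg : ∀ τ : F ≃ₐ[K] F, τ ∈ Subgroup.zpowers σ := mem_zpowers_generator hF hσ
  have : IsCyclic (F ≃ₐ[K] F) := ⟨σ, hg⟩
  have hnorm : Algebra.norm K (algebraMap K F ζ⁻¹) = 1 := by
    rw [Algebra.norm_algebraMap, hF, inv_pow, hζ.pow_eq_one, inv_one]
  obtain ⟨c, hc⟩ := groupCohomology.exists_div_of_norm_eq_one hg hnorm
  have hσc : σ (c : F) = algebraMap K F ζ * c := by
    rw [map_inv₀, div_eq_iff ((_root_.map_ne_zero σ).mpr c.ne_zero)] at hc
    conv_rhs => rw [hc]
    rw [← mul_assoc, mul_inv_cancel₀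
      ((_root_.map_ne_zero _).mpr (hζ.ne_zero hp.out.ne_zero)), one_mul]
  have hfix : σ ((c : F) ^ p) = (c : F) ^ p := by
    rw [map_pow, hσc, mul_pow, ← map_pow, hζ.pow_eq_one, map_one, one_mul]
  obtain ⟨a, ha⟩ : (c : F) ^ p ∈ Set.range (algebraMap K F) := by
    refine (IsGalois.mem_range_algebraMap_iff_fixed _).mpr fun τ => ?_
    obtain ⟨i, -, rfl⟩ := exists_eq_generator_pow hF hσ τ
    induction i with
    | zero => rfl
    | succ i ih => rw [pow_succ, AlgEquiv.mul_apply, hfix, ih]
  have ha0 : a ≠ 0 := by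
    rintro rfl
    rw [map_zero] at ha
    exact pow_ne_zero _ c.ne_zero ha.symm
  exact ⟨c, Units.mk0 a ha0, c.ne_zero, ha.symm, hσc⟩

omit hζ in
/-- At an unramified prime which does not split, norms have valuation divisible by `p`. -/
lemma dvd_ord_norm {w : Pl F} (hns : IsNonsplit σ (plUnder K w)) (hw : plRamIdx K w = 1)
    {y : F} (hy : y ≠ 0) : (p : ℤ) ∣ ord (plUnder K w) (Algebra.norm K y) := by
  have hσw := hns w rfl
  have hne : ∀ i ∈ Finset.range p, (σ ^ i) y ≠ 0 := fun i _ => (_root_.map_ne_zero _).mpr hy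
  have h := congrArg (ord w) (algebraMap_norm_eq_prod_pow hF hσ y)
  have hσy : ∀ i, ord w ((σ ^ i) y) = ord w y := fun i => by
    have h' := ord_smul (σ ^ i) w y
    rwa [pow_smul_eq_self hσw, AlgEquiv.smul_def] at h'
  rw [ord_algebraMap_eq, hw, ord_prod w _ _ hne, Finset.sum_congr rfl fun i _ => hσy i,
    Finset.sum_const, Finset.card_range, nsmul_eq_mul, Nat.cast_one, one_mul] at h
  exact ⟨_, h⟩

variable (h2 : 2 < p) {S : Finset (Pl K)} (hSp : ∀ v : Pl K, v ∉ S → ord v (p : K) = 0)
  (hgen : GeneratesClassGroup (S : Set (Pl K)))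

include hSp

/-- A set of split primes separating the `S`-units modulo `⟨a₀⟩`. -/
theorem exists_separating_primes {α : F} {a₀ : Additive (sUnits K (S : Set (Pl K)))}
    (hα : α ^ p = algebraMap K F (sVal a₀)) (hσα : σ α = algebraMap K F ζ * α) (k : ℕ)
    (hk : k < Fintype.card (InfinitePlace K) + S.card) :
    ∃ T : Finset (Pl K), T.card = k ∧ (∀ v ∈ T, v ∉ S ∧ ¬ IsNonsplit σ v) ∧
      (localKer p ζ S T).index = p ^ k := by
  classical
  set n := Fintype.card (InfinitePlace K) + S.card
  have hnE : (nsmulAddMonoidHom p : Additive (sUnits K (S : Set (Pl K))) →+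
      _).range.index = p ^ n :=
    index_range_nsmul_sUnits S hζ
  set P := AddSubgroup.zmultiples a₀ ⊔
    (nsmulAddMonoidHom p : Additive (sUnits K (S : Set (Pl K))) →+ _).range
  -- `⟨a₀⟩` together with the `p`-th powers has index at least `p ^ (n - 1)`
  have hP : p ^ n ∣ p * P.index := by
    rw [← hnE, ← AddSubgroup.relIndex_mul_index
      (le_sup_right : (nsmulAddMonoidHom p : Additive (sUnits K (S : Set (Pl K))) →+ _).range ≤ P)]
    refine mul_dvd_mul ?_ dvd_rfl
    rw [AddSubgroup.relIndex_sup_right, ← AddSubgroup.range_zmultiplesHom,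
      ← AddSubgroup.index_comap]
    have hle : AddSubgroup.zmultiples (p : ℤ) ≤
        (nsmulAddMonoidHom p : Additive (sUnits K (S : Set (Pl K))) →+ _).range.comap
          (zmultiplesHom (Additive (sUnits K (S : Set (Pl K)))) a₀) := by
      rw [AddSubgroup.zmultiples_le]
      exact ⟨a₀, by simp⟩
    exact (AddSubgroup.index_dvd_of_le hle).trans (by simp [Int.index_zmultiples])
  induction k with
  | zero => exact ⟨∅, rfl, by simp, by simp [localKer]⟩
  | succ k ih =>
    obtain ⟨T, hTc, hT, hTi⟩ := ih (by omega)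
    -- a unit `b` outside `⟨a₀⟩` that is a local power on `T` is not a `p`-th power in `F`, so
    -- some split prime detects it
    obtain ⟨b, hbT, hbP⟩ : ∃ b, b ∈ localKer p ζ S T ∧ b ∉ P := by
      by_contra hno
      push Not at hno
      have h1 : P.index ∣ p ^ k := hTi ▸ AddSubgroup.index_dvd_of_le hno
      have h3 := Nat.le_of_dvd (mul_pos hp.out.pos (pow_pos hp.out.pos _))
        (hP.trans (mul_dvd_mul_left p h1))
      rw [← pow_succ'] at h3
      exact absurd ((Nat.pow_le_pow_iff_right hp.out.one_lt).mp h3) (by omega)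
    have hb : ∀ x : F, x ^ p ≠ algebraMap K F (((Additive.toMul b).1 : Kˣ) : K) := by
      intro x hx
      apply hbP
      have hx0 : x ≠ 0 := fun h => by
        rw [h, zero_pow hp.out.ne_zero, eq_comm, map_eq_zero] at hx
        exact Units.ne_zero _ hx
      have hα0 : α ≠ 0 := fun h => by
        rw [h, zero_pow hp.out.ne_zero, eq_comm, map_eq_zero] at hα
        exact Units.ne_zero _ hα
      have hζF : IsPrimitiveRoot (algebraMap K F ζ) p :=
        hζ.map_of_injective (algebraMap K F).injective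
      obtain ⟨i, -, hi⟩ := hζF.eq_pow_of_pow_eq_one (show (σ x / x) ^ p = 1 by
        rw [div_pow, ← map_pow, hx, AlgEquiv.commutes,
          div_self ((_root_.map_ne_zero _).mpr (Units.ne_zero _))])
      rw [eq_div_iff hx0] at hi
      have hfix : σ (x / α ^ i) = x / α ^ i := by
        rw [map_div₀, map_pow, hσα, ← hi, mul_pow,
          mul_div_mul_left _ _ (pow_ne_zero _ (hζF.ne_zero hp.out.ne_zero))]
      obtain ⟨y, hy⟩ : x / α ^ i ∈ Set.range (algebraMap K F) := by
        refine (IsGalois.mem_range_algebraMap_iff_fixed _).mpr fun τ => ?_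
        obtain ⟨l, -, rfl⟩ := exists_eq_generator_pow hF hσ τ
        induction l with
        | zero => rfl
        | succ l ihl => rw [pow_succ, AlgEquiv.mul_apply, hfix, ihl]
      have heq : (sVal b : K) = sVal a₀ ^ i * y ^ p := by
        apply (algebraMap K F).injective
        rw [map_mul, map_pow, map_pow, hy, ← hα, div_pow, ← pow_mul, ← pow_mul, mul_comm p i,
          mul_div_cancel₀ _ (pow_ne_zero _ hα0)]
        exact hx.symm
      have hy0 : y ≠ 0 := fun h => by
        rw [h, zero_pow hp.out.ne_zero, mul_zero] at heq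
        exact Units.ne_zero _ heq
      have hyS : Units.mk0 y hy0 ∈ sUnits K (S : Set (Pl K)) := fun v hv => by
        have h := congrArg (ord v) heq
        rw [ord_mul v (pow_ne_zero _ (Units.ne_zero _)) (pow_ne_zero _ hy0), ord_pow, ord_pow,
          (Additive.toMul b).2 v hv, (Additive.toMul a₀).2 v hv, mul_zero, zero_add] at h
        rcases mul_eq_zero.mp h.symm with h | h
        · exact absurd h (by exact_mod_cast hp.out.ne_zero)
        · exact h
      have : b = i • a₀ + p • Additive.ofMul (⟨_, hyS⟩ : sUnits K (S : Set (Pl K))) := by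
        refine sVal_injective ?_
        rw [heq]; rfl
      rw [this]
      exact add_mem (AddSubgroup.mem_sup_left (nsmul_mem (AddSubgroup.mem_zmultiples _) i))
        (AddSubgroup.mem_sup_right ⟨_, rfl⟩)
    obtain ⟨v, hv, hvp, hvs, hvb⟩ := exists_split_not_localPower hF hσ hζ hb (S ∪ T)
    rw [Finset.mem_union, not_or] at hv
    refine ⟨insert v T, by rw [Finset.card_insert_of_notMem hv.2, hTc], fun w hw => ?_, ?_⟩
    · rcases Finset.mem_insert.mp hw with rfl | hw
      · exact ⟨hv.1, hvs⟩
      · exact hT w hw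
    · rw [localKer, Finset.inf_insert, ← localKer,
        ← AddSubgroup.relIndex_mul_index (inf_le_right (a := localAt p ζ S v)),
        AddSubgroup.inf_relIndex_right, hTi, pow_succ']
      congr 1
      refine ((Nat.dvd_prime hp.out).mp ((AddSubgroup.relIndex_dvd_index_of_normal _ _).trans
        (index_localAt_dvd hζ hSp hv.1))).resolve_left fun h1 => hvb ?_
      exact AddSubgroup.relIndex_eq_one.mp h1 hbT

end Cyclic

include hp in
/-- An `S ∪ T`-unit which is a local `p`-th power on `S` is a global one, if the primes of `T`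
separate the `S`-units. -/
theorem exists_pow_eq_of_localPowers' [DecidableEq (Pl K)] [IsTotallyComplex K]
    (hζ : IsPrimitiveRoot ζ p)
    {S T : Finset (Pl K)} (hSp : ∀ v : Pl K, v ∉ S → ord v (p : K) = 0)
    (hgen : GeneratesClassGroup (S : Set (Pl K))) (hTS : ∀ v ∈ T, v ∉ S)
    (hT : (localKer p ζ S T).index = p ^ T.card) {a : Kˣ}
    (haS : a ∈ sUnits K ((S ∪ T : Finset (Pl K)) : Set (Pl K)))
    (ha : ∀ v ∈ S, a ∈ localPowers p ζ v) : ∃ y : K, y ^ p = (a : K) := by
  classical
  by_contra hno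
  push Not at hno
  have : NeZero p := ⟨hp.out.ne_zero⟩
  have hirr : Irreducible (X ^ p - C (a : K)) := X_pow_sub_C_irreducible_of_prime hp.out hno
  have hne : (primitiveRoots p K).Nonempty := ⟨ζ, (mem_primitiveRoots hp.out.pos).mpr hζ⟩
  let L := (X ^ p - C (a : K)).SplittingField
  have hLrank : Module.finrank K L = p := finrank_of_isSplittingField_X_pow_sub_C hne hirr L
  have : IsGalois K L := isGalois_of_isSplittingField_X_pow_sub_C hne hirr L
  have : NumberField L := NumberField.of_module_finite K L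
  obtain ⟨β, hβ⟩ : ∃ β : L, β ^ p = algebraMap K L (a : K) :=
    ⟨_, rootOfSplitsXPowSubC_pow (a : K) L⟩
  obtain ⟨τ, hτ, hτβ⟩ := exists_aut_mul_root hζ hβ hno
  -- count in `L = K(a^(1/p))`, ramified at most at `T' ⊆ T` outside `S`
  set T' := T.filter fun t => ∃ w : Pl L, plUnder K w = t ∧ plRamIdx K w ≠ 1
  have hT'T : T' ⊆ T := Finset.filter_subset _ _
  have hunr : ∀ w : Pl L, plUnder K w ∉ S ∪ T' → plRamIdx K w = 1 := by
    intro w hw
    rw [Finset.mem_union, not_or] at hw
    by_cases hwT : plUnder K w ∈ T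
    · by_contra hne
      exact hw.2 (Finset.mem_filter.mpr ⟨hwT, w, rfl, hne⟩)
    · refine plRamIdx_eq_one_of_dvd hLrank hζ hβ hτβ (hSp _ hw.1) ?_
      rw [haS _ (by simp [hw.1, hwT])]
      exact dvd_zero _
  -- the index of the norms is `p ^ (number of non-split primes) / p`
  have key := index_normSubgroup_mul' (F := L) (σ := τ) (S ∪ T') hLrank hτ
    (hgen.mono (by simp)) hunr
  have hns : ((S ∪ T').filter (IsNonsplit τ)).card ≤ T'.card := by
    refine Finset.card_le_card fun v hv => ?_
    rw [Finset.mem_filter, Finset.mem_union] at hv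
    exact hv.1.resolve_left fun h =>
      not_isNonsplit_of_mem_localPowers hζ hβ hτβ (ha v h) hv.2
  let ι : Additive (sUnits K (S : Set (Pl K))) →+
      Additive (sUnits K ((S ∪ T' : Finset (Pl K)) : Set (Pl K))) :=
    MonoidHom.toAdditive (Subgroup.inclusion (sUnits_mono (by simp)))
  have hle : (normSubgroup L (S ∪ T')).comap ι ≤ localKer p ζ S T' := by
    rintro e ⟨y, hy⟩
    refine (Finset.le_inf fun t ht => ?_ : (AddSubgroup.closure {e}) ≤ localKer p ζ S T')
      (AddSubgroup.subset_closure rfl)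
    rw [AddSubgroup.closure_le, Set.singleton_subset_iff]
    obtain ⟨htT, w, rfl, hram⟩ := Finset.mem_filter.mp ht
    exact mem_localPowers_of_norm hLrank hτ hram hζ
      (hSp _ (hTS _ htT)) (e := (Additive.toMul e).1) hy
      ((Additive.toMul e).2 _ (by simpa using hTS _ htT))
  -- but norms are local powers at `T'`, so the index is at least `p ^ #T'`
  have h1 : (localKer p ζ S T').index ∣ (normSubgroup L (S ∪ T')).index :=
    (AddSubgroup.index_dvd_of_le hle).trans (by
      rw [AddSubgroup.index_comap]; exact AddSubgroup.relIndex_dvd_index_of_normal _ _)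
  have h3 : p ^ T'.card ∣ (localKer p ζ S T').index := by
    have h4 := index_localKer_union_dvd hζ hSp T' (T \ T')
      fun v hv => hTS v (Finset.mem_sdiff.mp hv).1
    rw [Finset.union_sdiff_of_subset hT'T, hT, ← Finset.card_sdiff_add_card_eq_card hT'T, pow_add,
      mul_comm] at h4
    exact Nat.dvd_of_mul_dvd_mul_right (pow_pos hp.out.pos _) h4
  have h5 := mul_dvd_mul_right (h3.trans h1) p
  rw [key, ← pow_succ] at h5
  exact absurd (Nat.le_of_dvd (pow_pos hp.out.pos _) h5)
    (not_le.mpr (Nat.pow_lt_pow_right hp.out.one_lt (by omega)))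

include hp in
/-- The same for odd `p`. -/
theorem exists_pow_eq_of_localPowers [DecidableEq (Pl K)] (hζ : IsPrimitiveRoot ζ p) (h2 : 2 < p)
    {S T : Finset (Pl K)} (hSp : ∀ v : Pl K, v ∉ S → ord v (p : K) = 0)
    (hgen : GeneratesClassGroup (S : Set (Pl K))) (hTS : ∀ v ∈ T, v ∉ S)
    (hT : (localKer p ζ S T).index = p ^ T.card) {a : Kˣ}
    (haS : a ∈ sUnits K ((S ∪ T : Finset (Pl K)) : Set (Pl K)))
    (ha : ∀ v ∈ S, a ∈ localPowers p ζ v) : ∃ y : K, y ^ p = (a : K) :=
  have := isTotallyComplex_of_primitiveRoot hζ h2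
  exists_pow_eq_of_localPowers' hζ hSp hgen hTS hT haS ha

section Main

variable {F : Type} [Field F] [NumberField F] [Algebra K F] [IsGalois K F]

/-- The valuation modulo `p` on local units classes. -/
def ordModP (p : ℕ) [Fact p.Prime] (ζ : K) (v : Pl K) :
    Additive (Kˣ ⧸ localPowers p ζ v) →+ ZMod p :=
  MonoidHom.toAdditiveLeft (QuotientGroup.lift (localPowers p ζ v)
    (MonoidHom.mk' (fun x => Multiplicative.ofAdd ((ord v (x : K) : ℤ) : ZMod p)) fun a b => by
      rw [← ofAdd_add, ← Int.cast_add, ← ord_mul v a.ne_zero b.ne_zero, Units.val_mul])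
    fun x hx => by
      change Multiplicative.ofAdd _ = 1
      rw [(ZMod.intCast_zmod_eq_zero_iff_dvd _ p).mpr (dvd_ord_of_mem_localPowers hx), ofAdd_zero])

/-- The valuation modulo `p` of the class of an element. -/
lemma ordModP_mk (v : Pl K) (x : Kˣ) :
    ordModP p ζ v (Additive.ofMul (QuotientGroup.mk x)) = ((ord v (x : K) : ℤ) : ZMod p) := rfl

/-- The product of the local class groups modulo `p`-th powers. -/
def LocQ (p : ℕ) [Fact p.Prime] (ζ : K) (S : Finset (Pl K)) : Type :=
  (v : S) → Additive (Kˣ ⧸ localPowers p ζ v.1)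

/-- The product of the local class groups modulo `p`-th powers is a group. -/
instance LocQ.instAddCommGroup (p : ℕ) [Fact p.Prime] (ζ : K) (S : Finset (Pl K)) :
    AddCommGroup (LocQ p ζ S) :=
  inferInstanceAs (AddCommGroup ((v : S) → Additive (Kˣ ⧸ localPowers p ζ v.1)))

/-- The classes at `S` of the `U`-units. -/
def sUnitsLocQ (p : ℕ) [Fact p.Prime] (ζ : K) (S U : Finset (Pl K)) :
    Additive (sUnits K (U : Set (Pl K))) →+ LocQ p ζ S where
  toFun e _ := Additive.ofMul (QuotientGroup.mk (Additive.toMul e).1)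
  map_zero' := rfl
  map_add' _ _ := rfl

/-- The order of a local class group modulo `p`-th powers. -/
theorem card_locQ_factor (hζ : IsPrimitiveRoot ζ p) (v : Pl K) :
    Nat.card (Additive (Kˣ ⧸ localPowers p ζ v)) =
      p * p * Ideal.absNorm v.asIdeal ^ ((p - 1) * zetaOrd ζ v) := by
  rw [Nat.card_congr Additive.toMul, ← Subgroup.index_eq_card, index_localPowers hζ]

/-- The local class groups modulo `p`-th powers are finite. -/
theorem finite_locQ_factor (hζ : IsPrimitiveRoot ζ p) (v : Pl K) :
    Finite (Additive (Kˣ ⧸ localPowers p ζ v)) :=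
  Nat.finite_of_card_ne_zero (by
    rw [card_locQ_factor hζ v]
    exact mul_ne_zero (mul_ne_zero hp.out.ne_zero hp.out.ne_zero)
      (pow_ne_zero _ (Ideal.absNorm_eq_zero_iff.not.mpr v.ne_bot)))

/-- With separating primes `T`, one fewer than the rank, the classes at `S` of the units outside
`S ∪ T` have index dividing `p`. -/
theorem index_range_sUnitsLocQ_dvd [DecidableEq (Pl K)] [IsTotallyComplex K]
    (hζ : IsPrimitiveRoot ζ p) {S T : Finset (Pl K)}
    (hSp : ∀ v : Pl K, v ∉ S → ord v (p : K) = 0) (hgen : GeneratesClassGroup (S : Set (Pl K)))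
    (hTS : ∀ v ∈ T, v ∉ S) (hTi : (localKer p ζ S T).index = p ^ T.card)
    (hTc : T.card + 1 = Fintype.card (InfinitePlace K) + S.card) :
    (sUnitsLocQ p ζ S (S ∪ T)).range.index ∣ p := by
  set n := Fintype.card (InfinitePlace K) + S.card with hn
  set U := S ∪ T with hU
  set E := Additive (sUnits K (U : Set (Pl K)))
  set Λ : E →+ LocQ p ζ S := sUnitsLocQ p ζ S U
  -- `U`-units that are local powers at `S` are powers.
  have hker : Λ.ker ≤ (nsmulAddMonoidHom p : E →+ E).range := by
    intro e he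
    have hloc : ∀ v ∈ S, (Additive.toMul e).1 ∈ localPowers p ζ v := fun v hv =>
      (QuotientGroup.eq_one_iff _).mp (congrFun (AddMonoidHom.mem_ker.mp he) ⟨v, hv⟩ :)
    obtain ⟨y, hy⟩ := exists_pow_eq_of_localPowers' hζ hSp hgen hTS hTi
      (Additive.toMul e).2 hloc
    have hy0 : y ≠ 0 := fun h => by
      rw [h, zero_pow hp.out.ne_zero] at hy
      exact Units.ne_zero _ hy.symm
    have hyU : Units.mk0 y hy0 ∈ sUnits K (U : Set (Pl K)) := fun v hv => by
      have h := congrArg (ord v) hy
      rw [ord_pow, (Additive.toMul e).2 v hv] at h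
      rcases mul_eq_zero.mp h with h | h
      · exact absurd h (by exact_mod_cast hp.out.ne_zero)
      · exact h
    exact ⟨Additive.ofMul ⟨_, hyU⟩, sVal_injective hy⟩
  -- The local classes number `p ^ (2 n)`,
  have hLoc : Nat.card (LocQ p ζ S) = p ^ (2 * n) := by
    rw [show Nat.card (LocQ p ζ S) = _ from Nat.card_pi,
      Finset.prod_congr rfl fun (v : S) _ => card_locQ_factor hζ v.1,
      Finset.prod_coe_sort S fun v : Pl K =>
        p * p * Ideal.absNorm v.asIdeal ^ ((p - 1) * zetaOrd ζ v),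
      Finset.prod_mul_distrib, Finset.prod_const, prod_absNorm_zetaOrd hζ S hSp,
      ← two_mul_card_infinitePlace (K := K), hn, mul_add, pow_add, ← sq, ← pow_mul]
    ring
  -- and the image at least `p ^ (2 n - 1)`.
  have h1 : p ^ (2 * n - 1) ∣ Nat.card Λ.range := by
    rw [← AddSubgroup.index_ker]
    refine dvd_trans (dvd_of_eq ?_) (AddSubgroup.index_dvd_of_le hker)
    rw [index_range_nsmul_sUnits U hζ, hU, Finset.card_union_of_disjoint
      (Finset.disjoint_left.mpr fun v hv hv' => hTS v hv' hv)]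
    congr 1
    omega
  obtain ⟨c, hc⟩ := h1
  have h3 := AddSubgroup.card_mul_index Λ.range
  rw [hLoc, hc, show 2 * n = 2 * n - 1 + 1 by omega, pow_succ,
    show 2 * n - 1 + 1 - 1 = 2 * n - 1 by omega, mul_assoc] at h3
  exact Dvd.intro_left c (Nat.eq_of_mul_eq_mul_left (pow_pos hp.out.pos _) h3)

/-- The valuations modulo `p` at some of the primes. -/
private def ordModPAt (p : ℕ) [Fact p.Prime] (ζ : K) {S A : Finset (Pl K)} (hA : A ⊆ S) :
    LocQ p ζ S →+ (A → ZMod p) where
  toFun f u := ordModP p ζ u.1 (f ⟨u.1, hA u.2⟩)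
  map_zero' := funext fun u => map_zero (ordModP p ζ u.1)
  map_add' _ _ := funext fun u => map_add (ordModP p ζ u.1) _ _

/-- The valuations modulo `p` at some of the primes take all values. -/
private lemma surjective_ordModPAt {S A : Finset (Pl K)} (hA : A ⊆ S) :
    Function.Surjective (ordModPAt p ζ hA) := by
  classical
  intro g
  choose ϖ hϖ0 hϖ using fun v : Pl K => exists_ord_eq_one v
  refine ⟨fun v => if h : v.1 ∈ A then (g ⟨v.1, h⟩).val •
    Additive.ofMul (QuotientGroup.mk (Units.mk0 (ϖ v.1) (hϖ0 v.1))) else 0, funext fun u => ?_⟩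
  change ordModP p ζ u.1 _ = _
  rw [show (fun v : S => _) ⟨u.1, hA u.2⟩ = _ from dif_pos u.2, map_nsmul,
    ordModP_mk, Units.val_mk0, hϖ]
  simp

/-- A subgroup of the kernel of index `p ^ (k - 1)` is the kernel, when the range of the map to
`(ZMod p) ^ k` has index at most `p`. -/
private lemma ker_le_of_index {E ι : Type} [AddCommGroup E] [Fintype ι] {θ : E →+ (ι → ZMod p)}
    (hθ : θ.range.index ≤ p) {N : AddSubgroup E} (hN : N ≤ θ.ker)
    (key : N.index * p = p ^ Fintype.card ι) : θ.ker ≤ N := by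
  have hNi : N.index ≠ 0 := fun h => by
    rw [h, zero_mul] at key
    exact pow_ne_zero _ hp.out.ne_zero key.symm
  have hcard : N.index ≤ θ.ker.index := by
    have h3 := AddSubgroup.card_mul_index θ.range
    rw [Nat.card_pi, Finset.prod_congr rfl fun _ _ => Nat.card_zmod p, Finset.prod_const,
      Finset.card_univ, ← key] at h3
    rw [AddSubgroup.index_ker]
    exact Nat.le_of_mul_le_mul_right (h3.symm.le.trans (Nat.mul_le_mul_left _ hθ)) hp.out.pos
  rw [← AddSubgroup.relIndex_eq_one]
  have h5 := AddSubgroup.relIndex_mul_index hN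
  have hk : 0 < θ.ker.index := Nat.pos_of_ne_zero fun h => by
    rw [h, mul_zero] at h5; exact hNi h5.symm
  have hr : N.relIndex θ.ker ≠ 0 := fun h => by
    rw [h, zero_mul] at h5; exact hNi h5.symm
  nlinarith [Nat.one_le_iff_ne_zero.mpr hr]

/-- **The norm theorem.** In an unramified extension of degree `p`, an element of order divisible by
`p` at every nonsplit prime is a norm. -/
theorem exists_norm_eq (hF : Module.finrank K F = p) {σ : F ≃ₐ[K] F} (hσ : σ ≠ 1)
    (hζ : IsPrimitiveRoot ζ p) (h2 : 2 < p) (hunr : ∀ w : Pl F, plRamIdx K w = 1)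
    {x : K} (hx0 : x ≠ 0) (hx : ∀ v : Pl K, IsNonsplit σ v → (p : ℤ) ∣ ord v x) :
    ∃ y : F, Algebra.norm K y = x := by
  classical
  obtain ⟨α, a₀, -, hα, hσα⟩ := exists_kummer_generator hF hσ hζ
  obtain ⟨S₀, hS₀⟩ := exists_finset_generatesClassGroup K
  set S := S₀ ∪ (finite_ord_ne_zero (p : K)).toFinset ∪ (finite_ord_ne_zero (a₀ : K)).toFinset ∪
    (finite_ord_ne_zero x).toFinset with hSdef
  have hgen : GeneratesClassGroup (S : Set (Pl K)) := hS₀.mono (by intro v hv; simp [hSdef]; tauto)
  have hSp : ∀ v : Pl K, v ∉ S → ord v (p : K) = 0 := fun v hv => by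
    simp [hSdef] at hv; tauto
  have hSa : a₀ ∈ sUnits K (S : Set (Pl K)) := fun v hv => by
    simp [hSdef] at hv; tauto
  set n := Fintype.card (InfinitePlace K) + S.card with hn
  have hnpos : 0 < n := Nat.add_pos_left Fintype.card_pos _
  obtain ⟨T, hTc, hT, hTi⟩ := exists_separating_primes hF hσ hζ hSp
    (a₀ := Additive.ofMul (⟨a₀, hSa⟩ : sUnits K (S : Set (Pl K)))) hα hσα (n - 1) (by omega)
  set U := S ∪ T with hU
  have hxU : Units.mk0 x hx0 ∈ sUnits K (U : Set (Pl K)) := fun v hv => by
    simp [hU, hSdef] at hv ⊢; tauto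
  have := finite_locQ_factor (K := K) hζ
  have : Finite (LocQ p ζ S) :=
    inferInstanceAs (Finite ((v : S) → Additive (Kˣ ⧸ localPowers p ζ v.1)))
  have := isTotallyComplex_of_primitiveRoot hζ h2
  have hΛ := index_range_sUnitsLocQ_dvd hζ hSp hgen (fun v hv => (hT v hv).1) (hTc ▸ hTi) (by omega)
  -- the valuations at the non-split primes
  set ns := S.filter (IsNonsplit σ)
  have hns : ns ⊆ S := Finset.filter_subset _ _
  let θ : Additive (sUnits K (U : Set (Pl K))) →+ (ns → ZMod p) :=
    (ordModPAt p ζ hns).comp (sUnitsLocQ p ζ S U)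
  have hθ : θ.range.index ≤ p := by
    rw [show θ.range = (sUnitsLocQ p ζ S U).range.map (ordModPAt p ζ hns) from
      (AddMonoidHom.map_range (ordModPAt p ζ hns) (sUnitsLocQ p ζ S U)).symm]
    exact Nat.le_of_dvd hp.out.pos
      ((AddSubgroup.index_map_dvd _ (surjective_ordModPAt hns)).trans hΛ)
  have hN : normSubgroup F U ≤ θ.ker := by
    rintro e ⟨y, hy⟩
    refine AddMonoidHom.mem_ker.mpr (funext fun u => ?_)
    change ordModP p ζ u.1 (Additive.ofMul (QuotientGroup.mk (Additive.toMul e).1)) = 0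
    obtain ⟨w, hw⟩ := exists_plUnder_eq (F := F) u.1
    rw [ordModP_mk, ZMod.intCast_zmod_eq_zero_iff_dvd]
    change (p : ℤ) ∣ ord u.1 (sVal e)
    rw [← hy, ← hw]
    exact dvd_ord_norm hF hσ (hw.symm ▸ (Finset.mem_filter.mp u.2).2) (hunr w) (Units.ne_zero _)
  have key := index_normSubgroup_mul (F := F) (σ := σ) U hF hσ hζ h2 (hgen.mono (by simp [hU]))
    fun w _ => hunr w
  have hnsU : U.filter (IsNonsplit σ) = ns := by
    rw [hU, Finset.filter_union, Finset.filter_eq_empty_iff.mpr fun v hv => (hT v hv).2,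
      Finset.union_empty]
  rw [hnsU] at key
  obtain ⟨y, hy⟩ := ker_le_of_index hθ hN (by rwa [Fintype.card_coe])
    (show Additive.ofMul (⟨_, hxU⟩ : sUnits K (U : Set (Pl K))) ∈ θ.ker from
    AddMonoidHom.mem_ker.mpr (funext fun u => by
      change ordModP p ζ u.1 (Additive.ofMul (QuotientGroup.mk (Units.mk0 x hx0))) = 0
      rw [ordModP_mk, ZMod.intCast_zmod_eq_zero_iff_dvd]
      exact hx u.1 (Finset.mem_filter.mp u.2).2))
  exact ⟨_, hy⟩

end Main

end Fermat.CFT
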