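import Fermat.Agent.CFT.Kummer.SUnits

/-!
# The unit norm index of a cyclic extension of prime degree

`index_normSubgroup_mul`, from the Herbrand quotient of the `S`-units; it is the global half of the
norm theorem (`Hasse`, `NormTheorem`).
-/

set_option autoImplicit false

noncomputable section

open NumberField
open scoped Pointwise

namespace Fermat.CFT

variable {K F : Type} [Field K] [NumberField K] [Field F] [NumberField F] [Algebra K F]
  [IsGalois K F] {p : ℕ} [hp : Fact p.Prime]

section Generator

variable (hF : Module.finrank K F = p) {σ : F ≃ₐ[K] F} (hσ : σ ≠ 1)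

include hF

omit hp in
/-- The Galois group has order `p`. -/
lemma card_aut_eq : Nat.card (F ≃ₐ[K] F) = p := by
  rw [IsGalois.card_aut_eq_finrank, hF]

include hσ

/-- A nontrivial automorphism generates the Galois group. -/
lemma mem_zpowers_generator (τ : F ≃ₐ[K] F) : τ ∈ Subgroup.zpowers σ :=
  mem_zpowers_of_prime_card (card_aut_eq hF) hσ

/-- A nontrivial automorphism has order `p`. -/
lemma orderOf_generator : orderOf σ = p :=
  orderOf_eq_prime (by rw [← card_aut_eq hF]; exact pow_card_eq_one') hσ

/-- Every automorphism is `σ ^ i` with `i < p`. -/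
lemma exists_eq_generator_pow (τ : F ≃ₐ[K] F) : ∃ i < p, σ ^ i = τ := by
  have h := mem_zpowers_generator hF hσ τ
  rw [← mem_powers_iff_mem_zpowers] at h
  obtain ⟨i, rfl⟩ := h
  exact ⟨i % p, Nat.mod_lt _ hp.out.pos, by
    rw [← orderOf_generator hF hσ, pow_mod_orderOf]⟩

/-- The powers `σ ^ i`, `i < p`, are distinct. -/
lemma generator_pow_injOn : Set.InjOn (fun i : ℕ => σ ^ i) (Set.Iio p) := by
  have := pow_injOn_Iio_orderOf (x := σ)
  rwa [orderOf_generator hF hσ] at this

/-- The norm is the product of the conjugates by powers of `σ`. -/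
lemma algebraMap_norm_eq_prod_pow (y : F) :
    algebraMap K F (Algebra.norm K y) = ∏ i ∈ Finset.range p, (σ ^ i) y := by
  classical
  rw [Algebra.norm_eq_prod_automorphisms]
  refine (Finset.prod_bij (fun i _ => σ ^ i) (fun _ _ => Finset.mem_univ _)
    (fun a ha b hb h => generator_pow_injOn hF hσ (Finset.mem_range.mp ha)
      (Finset.mem_range.mp hb) h)
    (fun τ _ => ?_) (fun _ _ => rfl)).symm
  obtain ⟨i, hi, rfl⟩ := exists_eq_generator_pow hF hσ τ
  exact ⟨i, Finset.mem_range.mpr hi, rfl⟩

omit hσ in
/-- A prime fixed by a nontrivial automorphism is fixed by `σ`. -/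
lemma smul_eq_self_of_ne_one {w : Pl F} {τ : F ≃ₐ[K] F} (hτ : τ ≠ 1) (h : τ • w = w) :
    σ • w = w := by
  have hmem : σ ∈ MulAction.stabilizer (F ≃ₐ[K] F) w := by
    have h1 := mem_zpowers_generator hF hτ σ
    exact (Subgroup.zpowers_le.mpr h) h1
  exact hmem

/-- Two primes lie over the same prime exactly when a power of `σ` exchanges them. -/
lemma plUnder_eq_iff (w w' : Pl F) :
    plUnder K w = plUnder K w' ↔ ∃ i < p, (σ ^ i) • w = w' := by
  constructor
  · intro h
    obtain ⟨τ, hτ⟩ := exists_smul_eq_of_plUnder_eq h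
    obtain ⟨i, hi, rfl⟩ := exists_eq_generator_pow hF hσ τ
    exact ⟨i, hi, hτ⟩
  · rintro ⟨i, -, rfl⟩
    rw [plUnder_smul]

end Generator

/-- `v` does not split in `F`, whose group is generated by `σ`. -/
def IsNonsplit (σ : F ≃ₐ[K] F) (v : Pl K) : Prop := ∀ w : Pl F, plUnder K w = v → σ • w = w

omit [IsGalois K F] [NumberField K] [NumberField F] in
/-- A prime fixed by `σ` is fixed by its powers. -/
lemma pow_smul_eq_self {σ : F ≃ₐ[K] F} {w : Pl F} (h : σ • w = w) (i : ℕ) : (σ ^ i) • w = w := by
  induction i with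
  | zero => simp
  | succ i ih => rw [pow_succ, mul_smul, h, ih]

section Counting

variable (hF : Module.finrank K F = p) {σ : F ≃ₐ[K] F} (hσ : σ ≠ 1)

include hF hσ

/-- The prime below a fixed prime is non-split. -/
lemma IsNonsplit.of_smul_eq {w : Pl F} (h : σ • w = w) : IsNonsplit σ (plUnder K w) := by
  intro w' hw'
  obtain ⟨i, -, rfl⟩ := (plUnder_eq_iff hF hσ w w').mp hw'.symm
  rw [pow_smul_eq_self h, h]

/-- A non-split prime has one prime above it. -/
lemma card_fibre_of_nonsplit {v : Pl K} (h : IsNonsplit σ v) :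
    (finite_plUnder_preimage (F := F) v).toFinset.card = 1 := by
  obtain ⟨w, hw⟩ := exists_plUnder_eq (F := F) v
  rw [Finset.card_eq_one]
  refine ⟨w, Finset.eq_singleton_iff_unique_mem.mpr ⟨by simpa using hw, fun w' hw' => ?_⟩⟩
  obtain ⟨i, -, rfl⟩ := (plUnder_eq_iff hF hσ w w').mp (by simp_all)
  rw [pow_smul_eq_self (h w hw)]

/-- A prime which splits has `p` primes above it. -/
lemma card_fibre_of_split {v : Pl K} (h : ¬ IsNonsplit σ v) :
    (finite_plUnder_preimage (F := F) v).toFinset.card = p := by
  classical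
  obtain ⟨w, hw⟩ := exists_plUnder_eq (F := F) v
  have hne : σ • w ≠ w := fun h' => h (hw ▸ IsNonsplit.of_smul_eq hF hσ h')
  have himage : (finite_plUnder_preimage (F := F) v).toFinset =
      (Finset.range p).image fun i => (σ ^ i) • w := by
    ext w'
    simp only [Set.Finite.mem_toFinset, Set.mem_ofPred_eq, Finset.mem_image, Finset.mem_range]
    rw [← hw, eq_comm, plUnder_eq_iff hF hσ]
  rw [himage, Finset.card_image_of_injOn, Finset.card_range]
  intro a ha b hb hab
  apply generator_pow_injOn hF hσ (Finset.mem_range.mp ha) (Finset.mem_range.mp hb)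
  by_contra hab'
  exact hne (smul_eq_self_of_ne_one hF (τ := (σ ^ b)⁻¹ * σ ^ a)
    (fun h1 => hab' (inv_mul_eq_one.mp h1).symm) (by
      rw [mul_smul, show (σ ^ a) • w = (σ ^ b) • w from hab, inv_smul_smul]))

open Classical in
/-- The number of primes above `S`: a prime of `S` which splits has `p` of them, any other one. -/
lemma card_plAbove (S : Finset (Pl K)) :
    (plAbove F S).card + (p - 1) * (S.filter (IsNonsplit σ)).card = p * S.card := by
  have hcard : (plAbove F S).card = ∑ v ∈ S,
      (finite_plUnder_preimage (F := F) v).toFinset.card := by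
    rw [Finset.card_eq_sum_card_fiberwise (f := plUnder K) (t := S) fun w hw => mem_plAbove.mp hw]
    refine Finset.sum_congr rfl fun v hv => congrArg Finset.card ?_
    ext w
    simp only [Finset.mem_filter, mem_plAbove, Set.Finite.mem_toFinset, Set.mem_ofPred_eq]
    exact ⟨fun h => h.2, fun h => ⟨h ▸ hv, h⟩⟩
  rw [hcard, ← Finset.sum_filter_add_sum_filter_not S (IsNonsplit σ),
    Finset.sum_congr rfl fun v hv => card_fibre_of_nonsplit hF hσ (Finset.mem_filter.mp hv).2,
    Finset.sum_congr rfl fun v hv => card_fibre_of_split hF hσ (Finset.mem_filter.mp hv).2]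
  simp only [Finset.sum_const, smul_eq_mul, mul_one]
  rw [← Finset.card_filter_add_card_filter_not (s := S) (IsNonsplit σ)]
  have := hp.out.one_lt
  zify [this.le]
  ring

end Counting

/-! ### The Galois module of `S`-units -/

section Units

variable (S : Finset (Pl K))

omit [IsGalois K F] in
/-- An `S`-unit of `K` is a unit outside the primes over `S`. -/
lemma algebraMap_mem_sUnits {x : Kˣ} (hx : x ∈ sUnits K (S : Set (Pl K))) :
    Units.map (algebraMap K F : K →* F) x ∈ sUnits F (plAbove F S : Set (Pl F)) := by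
  intro w hw
  change ord w (algebraMap K F (x : K)) = 0
  rw [ord_algebraMap_eq, hx _ fun h => hw (mem_plAbove.mpr h), mul_zero]

omit [IsGalois K F] in
/-- Automorphisms preserve the units outside the primes over `S`. -/
lemma smul_mem_sUnits (τ : F ≃ₐ[K] F) {y : Fˣ} (hy : y ∈ sUnits F (plAbove F S : Set (Pl F))) :
    Units.map (τ : F →* F) y ∈ sUnits F (plAbove F S : Set (Pl F)) := by
  intro w hw
  change ord w (τ (y : F)) = 0
  have h := ord_smul τ (τ⁻¹ • w) (y : F)
  rw [smul_inv_smul] at h
  rw [show τ (y : F) = τ • (y : F) from rfl, h]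
  refine hy _ fun h' => hw ?_
  rw [Finset.mem_coe, mem_plAbove] at h' ⊢
  rwa [plUnder_smul] at h'

/-- The inclusion `E_S(K) → E_S(F)`. -/
def sUnitsMap : Additive (sUnits K (S : Set (Pl K))) →ₗ[ℤ]
    Additive (sUnits F (plAbove F S : Set (Pl F))) :=
  (MonoidHom.toAdditive (((Units.map (algebraMap K F : K →* F)).comp
    (sUnits K (S : Set (Pl K))).subtype).codRestrict _
      fun x => algebraMap_mem_sUnits S x.2)).toIntLinearMap

/-- The automorphism of `E_S(F)` given by a Galois automorphism. -/
def sUnitsAct (τ : F ≃ₐ[K] F) : Module.End ℤ (Additive (sUnits F (plAbove F S : Set (Pl F)))) :=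
  (MonoidHom.toAdditive (((Units.map (τ : F →* F)).comp
    (sUnits F (plAbove F S : Set (Pl F))).subtype).codRestrict _
      fun x => smul_mem_sUnits S τ x.2)).toIntLinearMap

/-- The underlying field element of an element of the additive unit group. -/
abbrev sVal {L : Type} [Field L] [NumberField L] {T : Set (Pl L)}
    (x : Additive (sUnits L T)) : L := ((Additive.toMul x).1 : L)

omit [IsGalois K F] in
/-- An `S`-unit is determined by its value. -/
lemma sVal_injective {L : Type} [Field L] [NumberField L] {T : Set (Pl L)} :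
    Function.Injective (sVal (L := L) (T := T)) := fun _ _ h =>
  Additive.toMul.injective (Subtype.ext (Units.ext h))

omit [IsGalois K F] in
/-- The iterated action on `S`-units is the action of the power on values. -/
lemma sVal_sUnitsAct_pow (τ : F ≃ₐ[K] F) (i : ℕ)
    (x : Additive (sUnits F (plAbove F S : Set (Pl F)))) :
    sVal ((sUnitsAct S τ ^ i) x) = (τ ^ i) (sVal x) := by
  induction i generalizing x with
  | zero => rfl
  | succ i ih => rw [pow_succ, pow_succ, Module.End.mul_apply, ih]; rfl

omit [IsGalois K F] in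
/-- The value of a sum of `S`-units is the product of the values. -/
lemma sVal_sum {L : Type} [Field L] [NumberField L] {T : Set (Pl L)} {ι : Type*} (t : Finset ι)
    (f : ι → Additive (sUnits L T)) : sVal (∑ i ∈ t, f i) = ∏ i ∈ t, sVal (f i) := by
  classical
  induction t using Finset.induction with
  | empty => rfl
  | insert i t hi ih => rw [Finset.sum_insert hi, Finset.prod_insert hi, ← ih]; rfl

variable (F) in
/-- The norms of `S`-units of `F`, as a subgroup of the `S`-units of `K`. -/
def normSubgroup : AddSubgroup (Additive (sUnits K (S : Set (Pl K)))) where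
  carrier := {x | ∃ y : Additive (sUnits F (plAbove F S : Set (Pl F))),
    Algebra.norm K (sVal y) = sVal x}
  zero_mem' := ⟨0, by simp [sVal]⟩
  add_mem' := fun {a b} ⟨y, hy⟩ ⟨z, hz⟩ => ⟨y + z, by
    change Algebra.norm K (sVal y * sVal z) = sVal a * sVal b
    rw [map_mul, hy, hz]⟩
  neg_mem' := fun {a} ⟨y, hy⟩ => ⟨-y, by
    have h1 : sVal (-y) = (sVal y)⁻¹ := Units.val_inv_eq_inv_val _
    have h2 : sVal (-a) = (sVal a)⁻¹ := Units.val_inv_eq_inv_val _
    rw [h1, h2, Algebra.norm_inv, hy]⟩

variable (hF : Module.finrank K F = p) {σ : F ≃ₐ[K] F} (hσ : σ ≠ 1) {ζ : K}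
  (hζ : IsPrimitiveRoot ζ p) (h2 : 2 < p) (hgen : GeneratesClassGroup (S : Set (Pl K)))
  (hunr : ∀ w : Pl F, plUnder K w ∉ S → plRamIdx K w = 1)

omit [NumberField K] [IsGalois K F] hp in
/-- The value of a difference. -/
private lemma sVal_sub {L : Type} [Field L] [NumberField L] {T : Set (Pl L)}
    (x y : Additive (sUnits L T)) : sVal (x - y) = sVal x / sVal y :=
  Units.val_div_eq_div_val _ _

include hF hσ in
/-- The group ring norm is the norm of `F/K`. -/
private lemma sVal_sum_pow (y : Additive (sUnits F (plAbove F S : Set (Pl F)))) :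
    sVal ((∑ i ∈ Finset.range p, sUnitsAct S σ ^ i) y) =
      algebraMap K F (Algebra.norm K (sVal y)) := by
  rw [LinearMap.sum_apply, sVal_sum, algebraMap_norm_eq_prod_pow hF hσ]
  exact Finset.prod_congr rfl fun i _ => sVal_sUnitsAct_pow S σ i y

include hF hσ hgen hunr in
/-- Vanishing of the first cohomology of the `S`-units. -/
private lemma exists_eq_sub_one_apply {m : Additive (sUnits F (plAbove F S : Set (Pl F)))}
    (hm : (∑ i ∈ Finset.range p, sUnitsAct S σ ^ i) m = 0) :
    ∃ a, m = (sUnitsAct S σ - 1) a := by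
  let E := Additive (sUnits F (plAbove F S : Set (Pl F)))
  set s : Module.End ℤ E := sUnitsAct S σ with hs_def
  have hnorm : Algebra.norm K (sVal m) = 1 := by
    apply (algebraMap K F).injective
    rw [← sVal_sum_pow S hF hσ, hm, map_one]; rfl
  have hg : ∀ τ : F ≃ₐ[K] F, τ ∈ Subgroup.zpowers σ := mem_zpowers_generator hF hσ
  have : IsCyclic (F ≃ₐ[K] F) := ⟨σ, hg⟩
  obtain ⟨c, hc⟩ := groupCohomology.exists_div_of_norm_eq_one hg hnorm
  -- `m = c / σ c`; adjust `c` by an element of `K`
  have hfix : ∀ w : Pl F, w ∉ plAbove F S → ord (σ • w) (c : F) = ord w (c : F) := by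
    intro w hw
    have hw' : σ • w ∉ plAbove F S := by rwa [mem_plAbove, plUnder_smul, ← mem_plAbove (F := F)]
    have h0 := (Additive.toMul m).2 (σ • w) (Finset.mem_coe.not.mpr hw')
    change ord (σ • w) (sVal m) = 0 at h0
    rw [← hc] at h0
    change ord (σ • w) ((c : F) / σ (c : F)) = 0 at h0
    rw [ord_div _ c.ne_zero ((map_ne_zero σ).mpr c.ne_zero),
      show σ (c : F) = σ • (c : F) from rfl, ord_smul] at h0
    omega
  choose wsec hwsec using exists_plUnder_eq (K := K) (F := F)
  have hconst : ∀ w : Pl F, w ∉ plAbove F S → ord w (c : F) = ord (wsec (plUnder K w)) (c : F) := by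
    intro w hw
    obtain ⟨i, -, hi⟩ := (plUnder_eq_iff hF hσ w (wsec (plUnder K w))).mp (hwsec _).symm
    rw [← hi]
    clear hi
    induction i with
    | zero => simp
    | succ i ih =>
      rw [pow_succ', mul_smul, hfix _ (by rwa [mem_plAbove, plUnder_smul, ← mem_plAbove (F := F)])]
      exact ih
  classical
  obtain ⟨k, hk0, hk⟩ := hgen
    (fun v => if v ∈ S then 0 else ord (wsec v) (c : F)) (by
      refine ((finite_ord_ne_zero (c : F)).image (plUnder K)).subset fun v hv => ?_
      simp only [Set.mem_ofPred_eq] at hv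
      split_ifs at hv with h
      · exact absurd rfl hv
      · exact ⟨wsec v, hv, hwsec v⟩)
  have ha : Units.mk0 ((c : F) / algebraMap K F k) (div_ne_zero c.ne_zero ((map_ne_zero _).mpr hk0))
      ∈ sUnits F (plAbove F S : Set (Pl F)) := by
    intro w hw
    have hw' : plUnder K w ∉ S := fun h => hw (mem_plAbove.mpr h)
    rw [Units.val_mk0, ord_div _ c.ne_zero ((map_ne_zero _).mpr hk0), ord_algebraMap_eq,
      hunr w hw', hk _ hw', if_neg hw', ← hconst w (Finset.mem_coe.not.mp hw)]
    simp
  refine ⟨-Additive.ofMul ⟨_, ha⟩, sVal_injective ?_⟩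
  rw [LinearMap.sub_apply, Module.End.one_apply, sVal_sub, ← hc]
  have h1 : sVal (-Additive.ofMul (⟨_, ha⟩ : sUnits F (plAbove F S : Set (Pl F))) : E) =
      ((c : F) / algebraMap K F k)⁻¹ := Units.val_inv_eq_inv_val _
  have h2 : sVal (s (-Additive.ofMul ⟨_, ha⟩ : E)) = σ ((c : F) / algebraMap K F k)⁻¹ := by
    rw [← h1]; rfl
  rw [h2, h1, map_inv₀, map_div₀, AlgEquiv.commutes]
  have := (map_ne_zero σ).mpr c.ne_zero
  have := (map_ne_zero (algebraMap K F)).mpr hk0
  field_simp

include hF hσ in
/-- The fixed `S`-units come from `K`. -/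
private lemma ker_sub_one_eq_range :
    LinearMap.ker (sUnitsAct S σ - 1) = LinearMap.range (sUnitsMap (F := F) S) := by
  set s := sUnitsAct S σ
  ext y
  rw [LinearMap.mem_ker, LinearMap.sub_apply, Module.End.one_apply, sub_eq_zero]
  constructor
  · intro hy
    have hy' : σ (sVal y) = sVal y := congrArg sVal hy
    obtain ⟨x, hx⟩ : sVal y ∈ Set.range (algebraMap K F) := by
      refine (IsGalois.mem_range_algebraMap_iff_fixed _).mpr fun τ => ?_
      obtain ⟨i, -, rfl⟩ := exists_eq_generator_pow hF hσ τ
      induction i with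
      | zero => rfl
      | succ i ih => rw [pow_succ, AlgEquiv.mul_apply, hy', ih]
    have hx0 : x ≠ 0 := by
      rintro rfl
      rw [map_zero] at hx
      exact Units.ne_zero _ hx.symm
    refine ⟨Additive.ofMul ⟨Units.mk0 x hx0, fun v hv => ?_⟩, sVal_injective hx⟩
    obtain ⟨w, rfl⟩ := exists_plUnder_eq (F := F) v
    have h := (Additive.toMul y).2 w fun h => hv (mem_plAbove.mp h)
    change ord w (sVal y) = 0 at h
    rw [← hx] at h
    exact (ord_algebraMap_eq_zero_iff' w x).mp h
  · rintro ⟨x, rfl⟩
    exact sVal_injective (AlgEquiv.commutes σ _)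

include hF hσ in
/-- The index of the norms among the fixed `S`-units. -/
private lemma relIndex_range_sum_pow (hsp : sUnitsAct S σ ^ p = 1)
    (hinj : Function.Injective (sUnitsMap (F := F) S)) :
    (LinearMap.range (∑ i ∈ Finset.range p, sUnitsAct S σ ^ i)).toAddSubgroup.relIndex
      (LinearMap.ker (sUnitsAct S σ - 1)).toAddSubgroup = (normSubgroup F S).index := by
  set s := sUnitsAct S σ
  have hN := sVal_sum_pow S hF hσ
  have hker := ker_sub_one_eq_range S hF hσ
  rw [hker, ← AddSubgroup.relIndex_top_right]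
  have e1 : (LinearMap.range (∑ i ∈ Finset.range p, s ^ i)).toAddSubgroup =
      (normSubgroup F S).map (sUnitsMap (F := F) S).toAddMonoidHom := by
    ext z
    constructor
    · rintro ⟨y, rfl⟩
      have hy : (∑ i ∈ Finset.range p, s ^ i) y ∈ LinearMap.ker (s - 1) := by
        rw [LinearMap.mem_ker, ← Module.End.mul_apply, mul_geom_sum, hsp, sub_self,
          LinearMap.zero_apply]
      rw [hker] at hy
      obtain ⟨x, hx⟩ := hy
      exact ⟨x, ⟨y, (algebraMap K F).injective ((hN y).symm.trans (congrArg sVal hx.symm) :)⟩, hx⟩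
    · rintro ⟨x, ⟨y, hy⟩, rfl⟩
      exact ⟨y, sVal_injective ((hN y).trans (congrArg (algebraMap K F) hy))⟩
  have e2 : (LinearMap.range (sUnitsMap (F := F) S)).toAddSubgroup =
      (⊤ : AddSubgroup _).map (sUnitsMap (F := F) S).toAddMonoidHom := by
    rw [← AddMonoidHom.range_eq_map]; rfl
  rw [e1, e2]
  exact AddSubgroup.relIndex_map_map_of_injective _ _ hinj

include hF hσ in
open Classical in
/-- The ranks of the `S`-units of `F` and of `K`. -/
private lemma finrank_sUnits_relation [IsTotallyComplex K] :
    Module.finrank ℤ (Additive (sUnits F (plAbove F S : Set (Pl F)))) +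
        (p - 1) * (S.filter (IsNonsplit σ)).card =
      p * Module.finrank ℤ (Additive (sUnits K (S : Set (Pl K)))) + (p - 1) := by
  have : IsTotallyComplex F := isTotallyComplex_of_algebra (F := K) (K := F)
  set ns := (S.filter (IsNonsplit σ)).card
  set rF := Module.finrank ℤ (Additive (sUnits F (plAbove F S : Set (Pl F)))) with hrF
  set rK := Module.finrank ℤ (Additive (sUnits K (S : Set (Pl K))))
  have hK := finrank_sUnits S
  have hF' : rF + 1 = _ := finrank_sUnits (plAbove F S)
  have hS := card_plAbove hF hσ S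
  have hinf : Fintype.card (InfinitePlace F) = p * Fintype.card (InfinitePlace K) := by
    have h1 := two_mul_card_infinitePlace (K := K)
    have h2 := two_mul_card_infinitePlace (K := F)
    have h3 := Module.finrank_mul_finrank ℚ K F
    rw [hF, ← h1] at h3
    rw [← h3] at h2
    apply Nat.eq_of_mul_eq_mul_left two_pos
    rw [h2]; ring
  obtain ⟨q, hq⟩ : ∃ q, p = q + 1 := ⟨p - 1, (Nat.sub_add_cancel hp.out.pos).symm⟩
  subst hq
  simp only [Nat.add_sub_cancel] at hS ⊢
  have hK' : (q + 1) * (rK + 1) = (q + 1) * (Fintype.card (InfinitePlace K) + S.card) := by rw [hK]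
  nlinarith

include hF hσ hgen hunr

open Classical in
/-- **The norm index of `S`-units** in a cyclic extension of degree `p`, `K` totally complex. -/
theorem index_normSubgroup_mul' [IsTotallyComplex K] :
    (normSubgroup F S).index * p = p ^ (S.filter (IsNonsplit σ)).card := by
  set E := Additive (sUnits F (plAbove F S : Set (Pl F)))
  set s : Module.End ℤ E := sUnitsAct S σ with hs_def
  have hsp : s ^ p = 1 := by
    refine LinearMap.ext fun x => sVal_injective ?_
    rw [hs_def, sVal_sUnitsAct_pow, ← orderOf_generator hF hσ, pow_orderOf_eq_one]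
    rfl
  have hinj : Function.Injective (sUnitsMap (F := F) S) := fun a b h =>
    sVal_injective ((algebraMap K F).injective (congrArg sVal h :))
  have hcard := card_fixed_mul_pow s hsp fun m hm =>
    exists_eq_sub_one_apply S hF hσ hgen hunr hm
  rw [relIndex_range_sum_pow S hF hσ hsp hinj, ker_sub_one_eq_range S hF hσ,
    LinearMap.finrank_range_of_inj hinj] at hcard
  set ns := (S.filter (IsNonsplit σ)).card
  set rF := Module.finrank ℤ E with hrF
  set rK := Module.finrank ℤ (Additive (sUnits K (S : Set (Pl K))))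
  have hexp : rF + (p - 1) * ns = p * rK + (p - 1) := finrank_sUnits_relation S hF hσ
  have key : ((normSubgroup F S).index * p) ^ (p - 1) = (p ^ ns) ^ (p - 1) := by
    refine Nat.eq_of_mul_eq_mul_right (pow_pos hp.out.pos rF) ?_
    calc ((normSubgroup F S).index * p) ^ (p - 1) * p ^ rF
        = ((normSubgroup F S).index ^ (p - 1) * p ^ rF) * p ^ (p - 1) := by rw [mul_pow]; ring
      _ = p ^ (p * rK) * p ^ (p - 1) := by rw [hcard]
      _ = p ^ (rF + (p - 1) * ns) := by rw [hexp, pow_add]
      _ = _ := by rw [← pow_mul, mul_comm ns, pow_add]; ring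
  exact Nat.pow_left_injective (by have := hp.out.one_lt; omega) key

include hζ h2

open Classical in
/-- The norm index of `S`-units when `p` is odd and `K` contains a primitive `p`-th root of
unity. -/
theorem index_normSubgroup_mul :
    (normSubgroup F S).index * p = p ^ (S.filter (IsNonsplit σ)).card :=
  have := isTotallyComplex_of_primitiveRoot hζ h2
  index_normSubgroup_mul' S hF hσ hgen hunr

end Units

end Fermat.CFT
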