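import Mathlib

/-!
# The Herbrand quotient of a finitely generated module with an automorphism of prime order

`card_fixed_mul_pow`, applied to `S`-units in `Cyclic`.
-/

set_option autoImplicit false

noncomputable section

open Polynomial

namespace Fermat.CFT

section Counting

variable {A : Type*} [AddCommGroup A]

/-- Multiplicativity of `#coker / #ker`. -/
lemma index_comp_mul_card_ker (f g : A →+ A) :
    (f.comp g).range.index * Nat.card f.ker * Nat.card g.ker =
      f.range.index * g.range.index * Nat.card (f.comp g).ker := by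
  have h1 : (f.comp g).range.index = (g.range ⊔ f.ker).index * f.range.index := by
    rw [← AddSubgroup.index_map, AddMonoidHom.range_comp]
  have h2 : g.range.relIndex f.ker * (g.range ⊔ f.ker).index = g.range.index := by
    rw [← AddSubgroup.relIndex_mul_index (le_sup_left : g.range ≤ g.range ⊔ f.ker),
      sup_comm, AddSubgroup.relIndex_sup_right]
  have h3 : Nat.card f.ker =
      g.range.relIndex f.ker * Nat.card (g.range ⊓ f.ker : AddSubgroup A) := by
    rw [← AddSubgroup.inf_relIndex_right, AddSubgroup.relIndex, mul_comm,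
      ← Nat.card_congr (AddSubgroup.addSubgroupOfEquivOfLe
        (inf_le_right : g.range ⊓ f.ker ≤ f.ker)).toEquiv,
      AddSubgroup.card_mul_index]
  have h4 : Nat.card (f.comp g).ker =
      Nat.card g.ker * Nat.card (g.range ⊓ f.ker : AddSubgroup A) := by
    have hle : g.ker ≤ (f.comp g).ker := fun x hx => by
      rw [AddMonoidHom.mem_ker] at hx ⊢; rw [AddMonoidHom.comp_apply, hx, map_zero]
    have hmap : (f.comp g).ker.map g = g.range ⊓ f.ker := by
      ext x
      simp only [AddSubgroup.mem_map, AddMonoidHom.mem_ker, AddMonoidHom.comp_apply,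
        AddSubgroup.mem_inf, AddMonoidHom.mem_range]
      exact ⟨fun ⟨y, h, e⟩ => ⟨⟨y, e⟩, e ▸ h⟩, fun ⟨⟨y, e⟩, h⟩ => ⟨y, by rw [e]; exact h, e⟩⟩
    rw [← hmap, ← AddSubgroup.relIndex_ker, AddSubgroup.relIndex,
      ← Nat.card_congr (AddSubgroup.addSubgroupOfEquivOfLe hle).toEquiv,
      AddSubgroup.card_mul_index]
  rw [h1, h3, h4, ← h2]
  ring

/-- For an endomorphism with finite kernel, the ratio of the index to the kernel order of its `k`-th
power is the `k`-th power of that ratio. -/
lemma index_pow_mul_card_ker (f : Module.End ℤ A) (hf : Finite f.toAddMonoidHom.ker) :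
    ∀ k : ℕ, Finite (f ^ k).toAddMonoidHom.ker ∧
      (f ^ k).toAddMonoidHom.range.index * Nat.card f.toAddMonoidHom.ker ^ k =
        f.toAddMonoidHom.range.index ^ k * Nat.card (f ^ k).toAddMonoidHom.ker
  | 0 => by
    have h : (f ^ 0).toAddMonoidHom.ker = (⊥ : AddSubgroup A) := by
      rw [pow_zero]; exact AddMonoidHom.ker_id
    have h' : (f ^ 0).toAddMonoidHom.range = (⊤ : AddSubgroup A) := by
      rw [pow_zero]; exact AddMonoidHom.range_eq_top.mpr Function.surjective_id
    rw [h, h']
    exact ⟨inferInstance, by simp⟩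
  | k + 1 => by
    obtain ⟨hk, ih⟩ := index_pow_mul_card_ker f hf k
    have hcomp : (f ^ (k + 1)).toAddMonoidHom = (f ^ k).toAddMonoidHom.comp f.toAddMonoidHom := by
      rw [pow_succ]; rfl
    have key := index_comp_mul_card_ker (A := A) (f ^ k).toAddMonoidHom f.toAddMonoidHom
    rw [← hcomp] at key
    have hpos : 0 < Nat.card (f ^ k).toAddMonoidHom.ker := Nat.card_pos
    refine ⟨?_, ?_⟩
    · let φ : (f ^ (k + 1)).toAddMonoidHom.ker →+ (f ^ k).toAddMonoidHom.ker :=
        (f.toAddMonoidHom.comp (f ^ (k + 1)).toAddMonoidHom.ker.subtype).codRestrict _ fun x =>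
          AddMonoidHom.mem_ker.mpr (by
            have := DFunLike.congr_fun hcomp x.1
            exact this.symm.trans (AddMonoidHom.mem_ker.mp x.2))
      have : Finite φ.ker := Finite.of_injective
        (fun x => (⟨(x.1 : A), congrArg Subtype.val x.2⟩ : f.toAddMonoidHom.ker))
        fun x y h => Subtype.ext (Subtype.ext (congrArg Subtype.val h :))
      have : Finite ((f ^ (k + 1)).toAddMonoidHom.ker ⧸ φ.ker) :=
        Finite.of_equiv _ (QuotientAddGroup.quotientKerEquivRange φ).toEquiv.symm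
      exact Finite.of_addSubgroup_quotient φ.ker
    · refine Nat.eq_of_mul_eq_mul_left hpos ?_
      calc _ = ((f ^ (k + 1)).toAddMonoidHom.range.index * Nat.card (f ^ k).toAddMonoidHom.ker *
            Nat.card f.toAddMonoidHom.ker) * Nat.card f.toAddMonoidHom.ker ^ k := by ring
        _ = ((f ^ k).toAddMonoidHom.range.index * Nat.card f.toAddMonoidHom.ker ^ k) *
            f.toAddMonoidHom.range.index * Nat.card (f ^ (k + 1)).toAddMonoidHom.ker := by
          rw [key]; ring
        _ = _ := by rw [ih]; ring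

/-- Index of multiples in a finitely generated abelian group. -/
lemma index_range_nsmul [Module.Finite ℤ A] (n : ℕ) (hn : n ≠ 0) :
    (nsmulAddMonoidHom n : A →+ A).range.index =
      n ^ Module.finrank ℤ A * Nat.card (nsmulAddMonoidHom n : A →+ A).ker := by
  set T0 := Submodule.torsion ℤ A
  have : Finite T0 := Module.finite_of_fg_torsion _ Submodule.torsion_isTorsion
  let B := Module.Free.chooseBasis ℤ (A ⧸ T0)
  have hrank : Module.finrank ℤ (A ⧸ T0) = Module.finrank ℤ A := by
    have h1 : Module.finrank ℤ T0 = 0 := Module.finrank_eq_zero_iff_isTorsion.mpr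
      Submodule.torsion_isTorsion
    have := Submodule.finrank_quotient_add_finrank T0
    omega
  -- the index splits along the torsion subgroup
  set P := (nsmulAddMonoidHom n : A →+ A).range
  have hsplit : P.index = P.relIndex T0.toAddSubgroup * (P ⊔ T0.toAddSubgroup).index := by
    rw [← AddSubgroup.relIndex_mul_index (le_sup_left : P ≤ P ⊔ T0.toAddSubgroup), sup_comm,
      AddSubgroup.relIndex_sup_right]
  have hfree : (P ⊔ T0.toAddSubgroup).index = n ^ Module.finrank ℤ A := by
    let ψ : A →+ (Module.Free.ChooseBasisIndex ℤ (A ⧸ T0) → ZMod n) :=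
      (AddMonoidHom.mk' (fun v i => ((v i : ℤ) : ZMod n)) fun v w => by ext; simp).comp
        (B.equivFun.toLinearMap.comp T0.mkQ).toAddMonoidHom
    have hsurj : Function.Surjective ψ := fun y => by
      obtain ⟨a, ha⟩ := Submodule.mkQ_surjective T0
        (B.equivFun.symm fun i => ((y i).cast : ℤ))
      refine ⟨a, funext fun i => ?_⟩
      change ((B.equivFun (T0.mkQ a) i : ℤ) : ZMod n) = y i
      rw [ha, LinearEquiv.apply_symm_apply, ZMod.intCast_zmod_cast]
    have hker : ψ.ker = P ⊔ T0.toAddSubgroup := by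
      apply le_antisymm
      · intro a ha
        have hdvd : ∀ i, (n : ℤ) ∣ B.equivFun (T0.mkQ a) i := fun i =>
          (ZMod.intCast_zmod_eq_zero_iff_dvd _ n).mp (congrFun ha i)
        choose c hc using hdvd
        obtain ⟨b, hb⟩ := Submodule.mkQ_surjective T0 (B.equivFun.symm c)
        have : a - n • b ∈ T0 := by
          rw [← Submodule.Quotient.mk_eq_zero]
          apply B.equivFun.injective
          ext i
          rw [show Submodule.Quotient.mk (a - n • b) = T0.mkQ (a - n • b) from rfl, map_sub,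
            map_nsmul, hb, map_sub, map_nsmul, LinearEquiv.apply_symm_apply, map_zero]
          change B.equivFun (T0.mkQ a) i - (n • c) i = 0
          rw [hc i, Pi.smul_apply, nsmul_eq_mul, sub_self]
        have h : n • b + (a - n • b) ∈ P ⊔ T0.toAddSubgroup :=
          add_mem (AddSubgroup.mem_sup_left ⟨b, rfl⟩) (AddSubgroup.mem_sup_right this)
        rwa [add_sub_cancel] at h
      · refine sup_le ?_ fun a ha => ?_
        · rintro _ ⟨b, rfl⟩
          ext i; simp [ψ]
        · ext i
          have : T0.mkQ a = 0 := (Submodule.Quotient.mk_eq_zero T0).mpr ha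
          simp [ψ, this]
    rw [← hker, AddSubgroup.index_ker, AddMonoidHom.range_eq_top.mpr hsurj,
      Nat.card_congr AddSubgroup.topEquiv.toEquiv, Nat.card_fun, Nat.card_zmod,
      ← Module.finrank_eq_card_chooseBasisIndex ℤ (A ⧸ T0) |>.trans Nat.card_eq_fintype_card.symm,
      hrank]
  have htors : P.relIndex T0.toAddSubgroup = Nat.card (nsmulAddMonoidHom n : A →+ A).ker := by
    let g : T0 →+ T0 := nsmulAddMonoidHom n
    have h1 : P.addSubgroupOf T0.toAddSubgroup = g.range := by
      ext x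
      constructor
      · rintro ⟨b, hb⟩
        have hbT : b ∈ T0 := by
          obtain ⟨⟨r, hr⟩, hrx⟩ := (Submodule.mem_torsion_iff _).mp x.2
          refine (Submodule.mem_torsion_iff _).mpr
            ⟨⟨r * n, mul_mem hr (mem_nonZeroDivisors_of_ne_zero (by exact_mod_cast hn))⟩, ?_⟩
          have hb' : (n : ℕ) • b = (x : A) := hb
          change (r * (n : ℤ)) • b = 0
          rw [mul_smul, natCast_zsmul, hb']
          exact hrx
        exact ⟨⟨b, hbT⟩, Subtype.ext hb⟩
      · rintro ⟨b, rfl⟩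
        exact ⟨b, rfl⟩
    rw [AddSubgroup.relIndex, h1]
    have h2 := AddSubgroup.card_mul_index g.range
    have h3 := AddSubgroup.card_mul_index g.ker
    rw [AddSubgroup.index_ker] at h3
    have h4 : g.range.index = Nat.card g.ker := by
      refine Nat.eq_of_mul_eq_mul_left (Nat.card_pos (α := g.range)) ?_
      rw [h2, ← h3, mul_comm]
    rw [h4]
    refine Nat.card_congr ⟨fun x => ⟨x.1.1, congrArg Subtype.val x.2⟩,
      fun x => ⟨⟨x.1, (Submodule.mem_torsion_iff _).mpr ⟨⟨n, mem_nonZeroDivisors_of_ne_zero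
        (by exact_mod_cast hn)⟩, ?_⟩⟩, Subtype.ext x.2⟩, fun x => rfl, fun x => rfl⟩
    change (n : ℤ) • (x : A) = 0
    rw [natCast_zsmul]; exact x.2
  rw [hsplit, hfree, htors, mul_comm]

end Counting

/-! ### Automorphisms of prime order -/

/-- An integral polynomial identity at a primitive `p`-th root of unity holds for every element
killed by the cyclotomic polynomial. -/
lemma aeval_eq_zero_of_root {R : Type*} [Ring R] {p : ℕ} [hp : Fact p.Prime] {s : R}
    (hs : ∑ i ∈ Finset.range p, s ^ i = 0) {P : ℤ[X]}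
    (hP : ∀ ζ : ℂ, IsPrimitiveRoot ζ p → aeval ζ P = 0) : aeval s P = 0 := by
  have hζ := Complex.isPrimitiveRoot_exp p hp.out.ne_zero
  obtain ⟨Q, hQ⟩ : cyclotomic p ℤ ∣ P := by
    rw [Polynomial.cyclotomic_eq_minpoly hζ hp.out.pos]
    exact minpoly.isIntegrallyClosed_dvd (hζ.isIntegral hp.out.pos) (hP _ hζ)
  rw [hQ, map_mul, cyclotomic_prime, map_sum]
  simp [hs]

/-- The product of `1 - ζ ^ i` over the nontrivial powers of a primitive `p`-th root of unity. -/
lemma prod_Ico_one_sub_pow {p : ℕ} (hp0 : p ≠ 0) {ζ : ℂ} (hζ : IsPrimitiveRoot ζ p) :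
    ∏ i ∈ Finset.Ico 1 p, (1 - ζ ^ i) = (p : ℂ) := by
  obtain ⟨n, rfl⟩ := Nat.exists_eq_succ_of_ne_zero hp0
  rw [Finset.prod_Ico_eq_prod_range, Nat.succ_sub_one, Nat.cast_succ,
    ← hζ.prod_one_sub_pow_eq_order]
  exact Finset.prod_congr rfl fun k _ => by rw [add_comm]

/-- If `s` is killed by the `p`-th cyclotomic polynomial, `p` is `(s - 1) ^ (p - 1)` times a
unit. -/
lemma exists_unit_mul_eq_prime {R : Type*} [Ring R] {p : ℕ} [hp : Fact p.Prime] {s : R}
    (hs : ∑ i ∈ Finset.range p, s ^ i = 0) :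
    ∃ U V : R, (s - 1) ^ (p - 1) * U = (p : R) ∧ U * V = 1 ∧ V * U = 1 := by
  set j : ℕ → ℕ := fun i => ((i : ZMod p)⁻¹).val
  -- At a primitive root `(ζ - 1) ^ (p - 1) * P ζ = p`, with `P ζ` a unit of inverse `Q ζ`.
  set P : ℤ[X] := (-1) ^ (p - 1) * ∏ i ∈ Finset.Ico 1 p, ∑ k ∈ Finset.range i, X ^ k with hP
  set Q : ℤ[X] :=
    (-1) ^ (p - 1) * ∏ i ∈ Finset.Ico 1 p, ∑ k ∈ Finset.range (j i), (X ^ i) ^ k with hQ
  have e1 : ∀ ζ : ℂ, IsPrimitiveRoot ζ p →
      aeval ζ ((X - 1) ^ (p - 1) * P - C (p : ℤ)) = 0 := by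
    intro ζ hζ
    have h1 := prod_Ico_one_sub_pow hp.out.ne_zero hζ
    have h3 : ∀ i : ℕ, (1 - ζ ^ i) = (1 - ζ) * ∑ k ∈ Finset.range i, ζ ^ k := fun i =>
      (mul_neg_geom_sum ζ i).symm
    simp_rw [h3, Finset.prod_mul_distrib, Finset.prod_const, Nat.card_Ico] at h1
    simp only [hP, map_sub, map_mul, map_pow, map_neg, map_one, aeval_X, map_prod, map_sum,
        eq_intCast, Int.cast_natCast]
    rw [← mul_assoc, ← mul_pow, mul_neg_one, neg_sub, h1, map_natCast, sub_self]
  have e2 : ∀ ζ : ℂ, IsPrimitiveRoot ζ p → aeval ζ (P * Q - 1) = 0 := by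
    intro ζ hζ
    have hone : ζ ≠ 1 := hζ.ne_one hp.out.one_lt
    have key : ∀ i ∈ Finset.Ico 1 p,
        (∑ k ∈ Finset.range i, ζ ^ k) * ∑ k ∈ Finset.range (j i), (ζ ^ i) ^ k = 1 := by
      intro i hi
      rw [Finset.mem_Ico] at hi
      have hi0 : (i : ZMod p) ≠ 0 := by
        rw [Ne, ZMod.natCast_eq_zero_iff]
        intro h
        have := Nat.le_of_dvd (by omega) h; omega
      have hmod : ζ ^ (i * j i) = ζ := by
        have : ((i * j i : ℕ) : ZMod p) = ((1 : ℕ) : ZMod p) := by
          simp [j, mul_inv_cancel₀ hi0]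
        rw [ZMod.natCast_eq_natCast_iff'] at this
        have ho := hζ.eq_orderOf
        rw [← pow_mod_orderOf ζ (i * j i), ← ho, this, ho, pow_mod_orderOf, pow_one]
      apply mul_left_cancel₀ (sub_ne_zero.mpr (Ne.symm hone))
      rw [← mul_assoc, mul_neg_geom_sum, mul_neg_geom_sum, ← pow_mul, hmod, mul_one]
    simp only [hP, hQ, map_sub, map_mul, map_pow, map_neg, map_one, map_prod, map_sum, aeval_X]
    rw [mul_mul_mul_comm, ← Finset.prod_mul_distrib, Finset.prod_congr rfl key,
      Finset.prod_const_one, mul_one, ← mul_pow, neg_one_mul, neg_neg, one_pow, sub_self]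
  -- These identities pass to `s`, a root of the cyclotomic polynomial.
  have f1 := aeval_eq_zero_of_root hs e1
  have f2 := aeval_eq_zero_of_root hs e2
  have f3 : aeval s (Q * P - 1) = 0 := aeval_eq_zero_of_root hs fun ζ hζ => by
    rw [mul_comm Q P]; exact e2 ζ hζ
  simp only [map_sub, map_mul, map_pow, aeval_X, map_one, eq_intCast,
    Int.cast_natCast, sub_eq_zero] at f1 f2 f3
  rw [map_natCast] at f1
  exact ⟨_, _, f1, f2, f3⟩

section Fixed

variable {M : Type*} [AddCommGroup M]

/-- The norm element multiplies a fixed vector by `p`. -/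
lemma geom_sum_apply_of_fixed (σ : Module.End ℤ M) (p : ℕ) {m : M} (hm : (σ - 1) m = 0) :
    (∑ i ∈ Finset.range p, σ ^ i) m = p • m := by
  have h1 : ∀ i : ℕ, (σ ^ i) m = m := by
    intro i
    induction i with
    | zero => rfl
    | succ i ih =>
      rw [pow_succ, Module.End.mul_apply, sub_eq_zero.mp (show σ m - m = 0 from hm), ih]
  simp [LinearMap.sum_apply, h1]

/-- The kernel of multiplication by `n` on a finitely generated abelian group is finite. -/
lemma finite_ker_nsmul [Module.Finite ℤ M] {n : ℕ} (hn : n ≠ 0) :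
    Finite (nsmulAddMonoidHom n : M →+ M).ker := by
  have : Finite (Submodule.torsion ℤ M) :=
    Module.finite_of_fg_torsion _ Submodule.torsion_isTorsion
  let g : (nsmulAddMonoidHom n : M →+ M).ker → Submodule.torsion ℤ M := fun x =>
    ⟨x.1, (Submodule.mem_torsion_iff _).mpr
      ⟨⟨n, mem_nonZeroDivisors_of_ne_zero (by exact_mod_cast hn)⟩,
        (natCast_zsmul (x.1 : M) n).trans x.2⟩⟩
  exact Finite.of_injective g fun a b h => Subtype.ext (congrArg Subtype.val h :)

/-- The Herbrand quotient of a module killed by the norm element. -/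
lemma index_range_sub_one_pow [Module.Finite ℤ M] {p : ℕ} [hp : Fact p.Prime] {s : Module.End ℤ M}
    (hs : ∑ i ∈ Finset.range p, s ^ i = 0) :
    Finite (s - 1).toAddMonoidHom.ker ∧
      (s - 1).toAddMonoidHom.range.index ^ (p - 1) =
        p ^ Module.finrank ℤ M * Nat.card (s - 1).toAddMonoidHom.ker ^ (p - 1) := by
  have := finite_ker_nsmul (M := M) hp.out.ne_zero
  set t : Module.End ℤ M := s - 1
  have hfint : Finite t.toAddMonoidHom.ker := Finite.of_injective
    (β := (nsmulAddMonoidHom p : M →+ M).ker) (fun x => ⟨x.1, AddMonoidHom.mem_ker.mpr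
      (((geom_sum_apply_of_fixed s p x.2).symm.trans (LinearMap.congr_fun hs x.1)) :)⟩)
    fun a b h => Subtype.ext (congrArg Subtype.val h :)
  refine ⟨hfint, ?_⟩
  obtain ⟨U, V, hU, hUV, hVU⟩ := exists_unit_mul_eq_prime hs
  obtain ⟨hfin', hiter⟩ := index_pow_mul_card_ker t hfint (p - 1)
  have hcomp : (t ^ (p - 1)).toAddMonoidHom.comp U.toAddMonoidHom = nsmulAddMonoidHom p := by
    ext1 x
    exact (LinearMap.congr_fun hU x).trans (Module.End.natCast_apply p x)
  have hUr : U.toAddMonoidHom.range = ⊤ :=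
    AddMonoidHom.range_eq_top.mpr fun x => ⟨V x, LinearMap.congr_fun hUV x⟩
  have hUk : U.toAddMonoidHom.ker = ⊥ := by
    refine (AddSubgroup.eq_bot_iff_forall _).mpr fun x hx => ?_
    rw [← show V (U x) = x from LinearMap.congr_fun hVU x,
      show U x = 0 from AddMonoidHom.mem_ker.mp hx, map_zero]
  have key := index_comp_mul_card_ker (t ^ (p - 1)).toAddMonoidHom U.toAddMonoidHom
  rw [hcomp, hUr, hUk, AddSubgroup.index_top, AddSubgroup.card_bot, mul_one, mul_one,
    index_range_nsmul p hp.out.ne_zero] at key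
  set kp := (nsmulAddMonoidHom p : M →+ M).ker
  set k₁ := Nat.card t.toAddMonoidHom.ker
  refine Nat.eq_of_mul_eq_mul_right (Nat.mul_pos (Nat.card_pos (α := kp))
    (Nat.card_pos (α := (t ^ (p - 1)).toAddMonoidHom.ker))) ?_
  calc t.toAddMonoidHom.range.index ^ (p - 1) *
        (Nat.card kp * Nat.card ((t ^ (p - 1)).toAddMonoidHom.ker))
      = ((t ^ (p - 1)).toAddMonoidHom.range).index * k₁ ^ (p - 1) * Nat.card kp := by
        rw [hiter]; ring
    _ = k₁ ^ (p - 1) * (((t ^ (p - 1)).toAddMonoidHom.range).index * Nat.card kp) := by ring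
    _ = _ := by rw [← key]; ring

/-- Comparison of the indices on `M`, on the fixed module `ker T` and on `ker N = range T`. -/
lemma index_range_mul_relIndex [Module.Finite ℤ M] {N T : Module.End ℤ M} {n : ℕ} (hn : n ≠ 0)
    (hTN : T * N = 0) (hker : LinearMap.ker N = LinearMap.range T)
    (hfix : ∀ m, T m = 0 → N m = n • m) (t : Module.End ℤ (LinearMap.ker N))
    (ht : ∀ x : LinearMap.ker N, (t x : M) = T x) :
    t.toAddMonoidHom.range.index *
        (LinearMap.range N).toAddSubgroup.relIndex (LinearMap.ker T).toAddSubgroup =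
      n ^ Module.finrank ℤ (LinearMap.ker T) * Nat.card t.toAddMonoidHom.ker := by
  set F₀ := LinearMap.ker T
  set K₁A := (LinearMap.ker N).toAddSubgroup with hK₁A
  set FA := F₀.toAddSubgroup
  set NA : M →+ M := N.toAddMonoidHom
  set TA : M →+ M := T.toAddMonoidHom
  have hrangeN : (LinearMap.range N).toAddSubgroup = (⊤ : AddSubgroup M).map NA := by
    rw [← AddMonoidHom.range_eq_map]; rfl
  have hNle : (LinearMap.range N).toAddSubgroup ≤ FA := by
    rintro _ ⟨m, rfl⟩
    exact LinearMap.congr_fun hTN m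
  have hNkerA : NA.ker = K₁A := rfl
  have hTkerA : TA.ker = FA := rfl
  have hTrangeA : (⊤ : AddSubgroup M).map TA = K₁A := by
    rw [← AddMonoidHom.range_eq_map, hK₁A, hker]; rfl
  -- `[N M : N F] = [M : K + F]`, with `F = ker T` and `K = ker N`
  have h2 : (FA.map NA).relIndex (LinearMap.range N).toAddSubgroup = (K₁A ⊔ FA).index := by
    rw [hrangeN, AddSubgroup.relIndex_map_map, hNkerA, top_sup_eq, AddSubgroup.relIndex_top_right,
      sup_comm]
  -- the cokernel of `t` has the same order, as `T M = K`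
  have h3 : t.toAddMonoidHom.range.index = (K₁A ⊔ FA).index := by
    have hmap : (t.toAddMonoidHom.range).map K₁A.subtype = K₁A.map TA := by
      ext y
      constructor
      · rintro ⟨_, ⟨z, rfl⟩, rfl⟩
        exact ⟨z.1, z.2, (ht z).symm⟩
      · rintro ⟨z, hz, rfl⟩
        exact ⟨_, ⟨⟨z, hz⟩, rfl⟩, ht _⟩
    have : t.toAddMonoidHom.range.index = (K₁A.map TA).relIndex K₁A := by
      rw [← hmap, AddSubgroup.relIndex, AddSubgroup.addSubgroupOf,
        AddSubgroup.comap_map_eq_self_of_injective Subtype.val_injective]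
    rw [this]
    nth_rw 2 [← hTrangeA]
    rw [AddSubgroup.relIndex_map_map, hTkerA, top_sup_eq, AddSubgroup.relIndex_top_right]
  -- `N` is multiplication by `n` on `F`, giving `[F : N F]`
  have hk : Nat.card (nsmulAddMonoidHom n : F₀ →+ F₀).ker = Nat.card t.toAddMonoidHom.ker := by
    have hkert : ∀ x, x ∈ t.toAddMonoidHom.ker ↔ (x : M) ∈ F₀ := fun x => by
      rw [AddMonoidHom.mem_ker, ← Subtype.coe_inj]
      exact (ht x).symm ▸ Iff.rfl
    refine Nat.card_congr ⟨fun y => ⟨⟨y.1.1, ?_⟩, (hkert _).mpr y.1.2⟩,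
      fun y => ⟨⟨y.1.1, (hkert _).mp y.2⟩, ?_⟩, fun y => rfl, fun y => rfl⟩
    · change N (y.1 : M) = 0
      rw [hfix _ y.1.2, ← AddSubmonoidClass.coe_nsmul]
      exact congrArg Subtype.val y.2
    · exact Subtype.ext (((hfix _ ((hkert _).mp y.2)).symm.trans y.1.2) :)
  have h1 : (FA.map NA).relIndex FA =
      n ^ Module.finrank ℤ F₀ * Nat.card t.toAddMonoidHom.ker := by
    rw [← hk, ← index_range_nsmul n hn, AddSubgroup.relIndex]
    congr 1
    ext y
    constructor
    · rintro ⟨m, hm, h⟩
      exact ⟨⟨m, hm⟩, Subtype.ext ((hfix m hm).symm.trans h :)⟩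
    · rintro ⟨m, rfl⟩
      exact ⟨m.1, m.2, (hfix _ m.2).trans rfl⟩
  rw [h3, ← h2, ← h1]
  exact AddSubgroup.relIndex_mul_relIndex _ _ _ (hrangeN ▸ AddSubgroup.map_mono le_top) hNle

end Fixed

/-- The Herbrand quotient formula for the fixed points of an automorphism of order `p` without
first cohomology. -/
theorem card_fixed_mul_pow {M : Type*} [AddCommGroup M] [Module.Finite ℤ M] {p : ℕ}
    [hp : Fact p.Prime] (σ : Module.End ℤ M) (hσ : σ ^ p = 1)
    (hH1 : ∀ m : M, (∑ i ∈ Finset.range p, σ ^ i) m = 0 → ∃ a, m = (σ - 1) a) :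
    ((LinearMap.range (∑ i ∈ Finset.range p, σ ^ i)).toAddSubgroup.relIndex
        (LinearMap.ker (σ - 1)).toAddSubgroup) ^ (p - 1) * p ^ Module.finrank ℤ M =
      p ^ (p * Module.finrank ℤ (LinearMap.ker (σ - 1))) := by
  set N : Module.End ℤ M := ∑ i ∈ Finset.range p, σ ^ i with hN
  set T : Module.End ℤ M := σ - 1 with hT
  have hTN : T * N = 0 := by rw [hT, hN, mul_geom_sum, hσ, sub_self]
  have hNT : N * T = 0 := by rw [hT, hN, geom_sum_mul, hσ, sub_self]
  have hker : LinearMap.ker N = LinearMap.range T := by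
    ext m
    constructor
    · intro hm
      obtain ⟨a, ha⟩ := hH1 m hm
      exact ⟨a, ha.symm⟩
    · rintro ⟨a, rfl⟩
      exact LinearMap.congr_fun hNT a
  -- the restriction of `σ` to `ker N`
  have hres : ∀ m ∈ LinearMap.ker N, σ m ∈ LinearMap.ker N := by
    intro m hm
    have hc : Commute N σ := by
      rw [hN]; exact Commute.sum_left _ _ _ fun i _ => Commute.pow_self σ i
    change N (σ m) = 0
    rw [← Module.End.mul_apply, hc.eq, Module.End.mul_apply, show N m = 0 from hm, map_zero]
  set s : Module.End ℤ (LinearMap.ker N) := σ.restrict hres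
  have hs : ∑ i ∈ Finset.range p, s ^ i = 0 := by
    ext m
    simp only [LinearMap.sum_apply, LinearMap.zero_apply, ZeroMemClass.coe_zero,
      AddSubmonoidClass.coe_finsetSum]
    refine (Finset.sum_congr rfl fun i _ => ?_).trans
      ((LinearMap.sum_apply (Finset.range p) (fun i => σ ^ i) (m : M)).symm.trans
        (LinearMap.mem_ker.mp m.2))
    rw [Module.End.pow_restrict]; rfl
  obtain ⟨hfin, hxk⟩ := index_range_sub_one_pow hs
  have hc := index_range_mul_relIndex hp.out.ne_zero hTN hker
    (fun m hm => geom_sum_apply_of_fixed σ p hm) (s - 1) fun x => rfl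
  have hrank : Module.finrank ℤ (LinearMap.ker N) + Module.finrank ℤ (LinearMap.ker T) =
      Module.finrank ℤ M := by
    rw [← Submodule.finrank_quotient_add_finrank (LinearMap.ker T), hker,
      T.quotKerEquivRange.finrank_eq]
  set r' := Module.finrank ℤ (LinearMap.ker N)
  set c := (LinearMap.range N).toAddSubgroup.relIndex (LinearMap.ker T).toAddSubgroup
  set a := Module.finrank ℤ (LinearMap.ker T)
  set x := (s - 1).toAddMonoidHom.range.index
  set k₁ := Nat.card (s - 1).toAddMonoidHom.ker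
  refine Nat.eq_of_mul_eq_mul_right (pow_pos (Nat.card_pos : 0 < k₁) (p - 1)) ?_
  calc c ^ (p - 1) * p ^ Module.finrank ℤ M * k₁ ^ (p - 1)
      = c ^ (p - 1) * p ^ a * (p ^ r' * k₁ ^ (p - 1)) := by rw [← hrank, pow_add]; ring
    _ = (x * c) ^ (p - 1) * p ^ a := by rw [← hxk, mul_pow]; ring
    _ = p ^ (a * (p - 1) + a) * k₁ ^ (p - 1) := by rw [hc, mul_pow, ← pow_mul, pow_add]; ring
    _ = _ := by
      congr 2
      conv_rhs => rw [show p = p - 1 + 1 from (Nat.sub_add_cancel hp.out.pos).symm]
      ring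

end Fermat.CFT
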