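import Fermat.Agent.CFT.Kummer.Hasse

/-!
# Local norms in cyclic extensions of prime degree, without completions

At a prime which does not split, norms and local `p`-th powers do not exhaust the multiplicative
group.  In the ramified case this is the triviality of the Herbrand quotient of the local units:
units congruent to `1` modulo a small multiple of a normal basis form a cohomologically trivial
subgroup, expressed here by successive approximation.
-/

set_option autoImplicit false

noncomputable section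

open NumberField
open scoped Pointwise

namespace Fermat.CFT

variable {K : Type} [Field K] [NumberField K] {p : ℕ} [hp : Fact p.Prime] {ζ : K}

/-- A unit close to `1` is a `p`-th power up to any precision. -/
theorem exists_pow_close (hζ : IsPrimitiveRoot ζ p) (v : Pl K) {x : K} (hx0 : x ≠ 0)
    (hx : CloseOne v (localLevel p ζ v) x) (n : ℕ) :
    ∃ y : K, y ≠ 0 ∧ CloseOne v (localLevel p ζ v + n) (x / y ^ p) := by
  induction n with
  | zero => exact ⟨1, one_ne_zero, by simpa using hx⟩
  | succ n ih =>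
    obtain ⟨y, hy0, hy⟩ := ih
    set c := zetaOrd ζ v
    set m : ℤ := (localLevel p ζ v : ℤ) + n
    have hm : (p : ℤ) * c + 1 ≤ m := by simp only [m, localLevel, c]; push_cast; omega
    have hp1 : (1 : ℤ) ≤ p - 1 := by have := hp.out.two_le; omega
    have he : ord v (p : K) = (p - 1) * c := by
      rw [ord_natCast_prime hζ, Nat.cast_sub hp.out.one_lt.le]; rfl
    have hpK : (p : K) ≠ 0 := Nat.cast_ne_zero.mpr hp.out.ne_zero
    have hw0 : x / y ^ p ≠ 0 := div_ne_zero hx0 (pow_ne_zero _ hy0)
    rcases eq_or_ne (x / y ^ p) 1 with h1 | h1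
    · exact ⟨y, hy0, Or.inl h1⟩
    set z := x / y ^ p - 1 with hz
    have hz0 : z ≠ 0 := sub_ne_zero.mpr h1
    have hzm : m ≤ ord v z := hy.resolve_left h1
    -- correct `y` by `1 + t`, `t = (x / y ^ p - 1) / p`
    set t := z / p with ht
    have ht0 : t ≠ 0 := div_ne_zero hz0 hpK
    have htm : m - (p - 1) * c ≤ ord v t := by
      rw [ht, ord_div v hz0 hpK, he]; omega
    have htpos : 0 < ord v t := by nlinarith
    have ht1 : ord v (1 + t) = 0 := by
      rw [ord_add_eq_of_lt v one_ne_zero (Or.inr (by rw [ord_one]; exact htpos)), ord_one]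
    have h1t : (1 + t) ≠ 0 := fun h => by
      rw [add_eq_zero_iff_eq_neg'] at h
      rw [h, ord_neg, ord_one] at htpos
      exact lt_irrefl _ htpos
    refine ⟨y * (1 + t), mul_ne_zero hy0 h1t, ?_⟩
    rcases eq_or_ne (x / (y * (1 + t)) ^ p) 1 with h2 | h2
    · exact Or.inl h2
    refine Or.inr ?_
    -- the higher binomial terms are smaller
    have hrest : (∑ i ∈ Finset.Ico 2 (p + 1), t ^ i * (p.choose i : K)) = 0 ∨
        m + 1 ≤ ord v (∑ i ∈ Finset.Ico 2 (p + 1), t ^ i * (p.choose i : K)) := by
      refine ord_sum_ge v _ _ fun i hi => Or.inr ?_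
      rw [Finset.mem_Ico] at hi
      have hi2 : (2 : ℤ) ≤ i := by exact_mod_cast hi.1
      rcases eq_or_ne i p with rfl | hip
      · rw [Nat.choose_self, Nat.cast_one, mul_one, ord_pow]
        nlinarith
      · obtain ⟨a, ha⟩ := hp.out.dvd_choose_self (by omega : i ≠ 0) (by omega : i < p)
        have ha0 : a ≠ 0 := fun h => by
          have := Nat.choose_pos (show i ≤ p by omega)
          rw [ha, h, mul_zero] at this
          omega
        rw [ha, Nat.cast_mul, ord_mul v (pow_ne_zero _ ht0)
          (mul_ne_zero hpK (Nat.cast_ne_zero.mpr ha0)), ord_mul v hpK (Nat.cast_ne_zero.mpr ha0),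
          ord_pow, he]
        have : 0 ≤ ord v (a : K) := by
          rw [← map_natCast (algebraMap (𝓞 K) K)]; exact ord_algebraMap_nonneg v _
        nlinarith
    have hexp : (1 + t) ^ p =
        x / y ^ p + ∑ i ∈ Finset.Ico 2 (p + 1), t ^ i * (p.choose i : K) := by
      have h := add_pow t 1 p
      simp only [one_pow, mul_one] at h
      rw [add_comm, h, Finset.range_eq_Ico,
        ← Finset.sum_Ico_consecutive _ (Nat.zero_le 2)
          (by have := hp.out.two_le; omega : 2 ≤ p + 1)]
      have : x / y ^ p = 1 + z := by rw [hz]; ring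
      rw [this, Finset.sum_Ico_succ_top (Nat.zero_le 1), Finset.sum_Ico_succ_top le_rfl,
        Finset.Ico_self, Finset.sum_empty, zero_add, pow_zero, pow_one, Nat.choose_zero_right,
        Nat.choose_one_right, Nat.cast_one, one_mul, ht, div_mul_cancel₀ _ hpK]
    set r := ∑ i ∈ Finset.Ico 2 (p + 1), t ^ i * (p.choose i : K)
    have hq : x / (y * (1 + t)) ^ p - 1 = -r / (1 + t) ^ p := by
      rw [mul_pow, ← div_div, sub_eq_iff_eq_add, div_add_one (pow_ne_zero _ h1t)]
      congr 1
      rw [hexp]; ring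
    have hr0 : r ≠ 0 := fun h => h2 (by rw [← sub_eq_zero, hq, h, neg_zero, zero_div])
    rw [hq, ord_div v (neg_ne_zero.mpr hr0) (pow_ne_zero _ h1t), ord_neg, ord_pow, ht1, mul_zero,
      sub_zero]
    have := hrest.resolve_left hr0
    push_cast
    omega

variable {F : Type} [Field F] [NumberField F] [Algebra K F] [IsGalois K F]

variable (p ζ F) in
/-- Norms from `F`, up to local `p`-th powers at `v`. -/
def localNorms (v : Pl K) : Subgroup Kˣ :=
  (Units.map (Algebra.norm K : F →* K)).range ⊔ localPowers p ζ v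

omit [IsGalois K F] hp [NumberField F] in
/-- A local norm is a norm times a local `p`-th power. -/
lemma mem_localNorms {v : Pl K} {x : Kˣ} :
    x ∈ localNorms p ζ F v ↔
      ∃ (y : Fˣ) (l : Kˣ), l ∈ localPowers p ζ v ∧ (x : K) = Algebra.norm K (y : F) * (l : K) := by
  rw [localNorms, Subgroup.mem_sup]
  constructor
  · rintro ⟨-, ⟨y, rfl⟩, l, hl, rfl⟩
    exact ⟨y, l, hl, by simp⟩
  · rintro ⟨y, l, hl, h⟩
    exact ⟨_, ⟨y, rfl⟩, l, hl, Units.ext (by simp [h])⟩

omit [IsGalois K F] hp [NumberField F] in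
/-- A norm is a local norm. -/
lemma norm_mem_localNorms {v : Pl K} {x : Kˣ} {y : Fˣ} (h : (x : K) = Algebra.norm K (y : F)) :
    x ∈ localNorms p ζ F v :=
  mem_localNorms.mpr ⟨y, 1, one_mem _, by simpa using h⟩

section Lattice

variable (K F) in
/-- The lattice of elements with all normal basis coordinates divisible by `πⁿ` at `v`. -/
def nLattice (v : Pl K) (n : ℤ) : Set F :=
  {y | ∀ g, (IsGalois.normalBasis K F).repr y g = 0 ∨
    n ≤ ord v ((IsGalois.normalBasis K F).repr y g)}

variable {v : Pl K} {m n : ℤ}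

/-- The lattices decrease with the level. -/
lemma nLattice_mono (h : m ≤ n) : nLattice K F v n ⊆ nLattice K F v m :=
  fun _ hy g => (hy g).imp id fun h' => h.trans h'

/-- The lattices contain `0`. -/
lemma zero_mem_nLattice : (0 : F) ∈ nLattice K F v n := fun g => Or.inl (by simp)

/-- The lattices are closed under addition. -/
lemma add_mem_nLattice {x y : F} (hx : x ∈ nLattice K F v n) (hy : y ∈ nLattice K F v n) :
    x + y ∈ nLattice K F v n := by
  intro g
  rw [map_add, Finsupp.add_apply]
  rcases eq_or_ne ((IsGalois.normalBasis K F).repr x g + (IsGalois.normalBasis K F).repr y g) 0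
    with h | h
  · exact Or.inl h
  · exact Or.inr (ord_add_ge v h (hx g) (hy g))

/-- The lattices are closed under negation. -/
lemma neg_mem_nLattice {x : F} (hx : x ∈ nLattice K F v n) : -x ∈ nLattice K F v n := by
  intro g
  rw [map_neg, Finsupp.neg_apply, neg_eq_zero, ord_neg]
  exact hx g

/-- The lattices are closed under finite sums. -/
lemma sum_mem_nLattice {ι : Type*} (s : Finset ι) (f : ι → F)
    (hf : ∀ i ∈ s, f i ∈ nLattice K F v n) : ∑ i ∈ s, f i ∈ nLattice K F v n := by
  classical
  induction s using Finset.induction with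
  | empty => simpa using zero_mem_nLattice
  | insert i s hi ih =>
    rw [Finset.sum_insert hi]
    exact add_mem_nLattice (hf i (Finset.mem_insert_self _ _))
      (ih fun j hj => hf j (Finset.mem_insert_of_mem hj))

/-- A small multiple of a basis vector lies in the lattice. -/
lemma smul_basis_mem_nLattice {c : K} (g : F ≃ₐ[K] F) (hc : c = 0 ∨ n ≤ ord v c) :
    c • (IsGalois.normalBasis K F g) ∈ nLattice K F v n := by
  classical
  intro h
  rw [map_smul, Module.Basis.repr_self, Finsupp.smul_single, smul_eq_mul, mul_one,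
    Finsupp.single_apply]
  split
  · exact hc
  · exact Or.inl rfl

omit [NumberField K] [NumberField F] [IsGalois K F] in
/-- An automorphism over `K` commutes with scalars from `K`. -/
lemma algEquiv_map_smul (g : F ≃ₐ[K] F) (c : K) (x : F) : g (c • x) = c • g x :=
  g.toLinearEquiv.map_smul c x

/-- Automorphisms permute the normal basis. -/
lemma apply_normalBasis (g h : F ≃ₐ[K] F) :
    g (IsGalois.normalBasis K F h) = IsGalois.normalBasis K F (g * h) := by
  rw [IsGalois.normalBasis_apply h, IsGalois.normalBasis_apply (g * h), AlgEquiv.mul_apply]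

/-- The lattices are stable under automorphisms. -/
lemma map_mem_nLattice (g : F ≃ₐ[K] F) {x : F} (hx : x ∈ nLattice K F v n) :
    g x ∈ nLattice K F v n := by
  rw [← (IsGalois.normalBasis K F).sum_repr x, map_sum]
  refine sum_mem_nLattice _ _ fun h _ => ?_
  rw [algEquiv_map_smul, apply_normalBasis]
  exact smul_basis_mem_nLattice _ (hx h)

variable (K F) in
/-- The bound relating the lattices to the valuation at `w`. -/
def IsLatticeBound (w : Pl F) (C : ℤ) : Prop :=
  0 ≤ C ∧ (∀ (n : ℤ) (y : F), (y = 0 ∨ plRamIdx K w * n + C ≤ ord w y) →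
      y ∈ nLattice K F (plUnder K w) n) ∧
    (∀ (n : ℤ) (y : F), y ∈ nLattice K F (plUnder K w) n →
      y = 0 ∨ plRamIdx K w * n - C ≤ ord w y)

/-- A normal basis lattice bound exists at a place fixed by the Galois group. -/
lemma exists_isLatticeBound (w : Pl F) (hw : ∀ g : F ≃ₐ[K] F, g • w = w) :
    ∃ C, IsLatticeBound K F w C := by
  classical
  set B := IsGalois.normalBasis K F
  have hnd := traceForm_nondegenerate K F
  -- The dual basis gives the coordinates as traces.
  let d : (F ≃ₐ[K] F) → F := fun g => ((Algebra.traceForm K F).toDual hnd).symm (B.coord g)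
  have hd : ∀ g y, B.repr y g = Algebra.trace K F (d g * y) := fun g y => by
    rw [← Algebra.traceForm_apply, LinearMap.BilinForm.apply_toDual_symm_apply]
    rfl
  refine ⟨∑ g, (|ord w (d g)| + |ord w (B g)|), Finset.sum_nonneg fun g _ => by positivity,
    fun n y hy g => ?_, fun n y hy => ?_⟩
  · rcases eq_or_ne (B.repr y g) 0 with h | h
    · exact Or.inl h
    refine Or.inr ?_
    have hy0 : y ≠ 0 := fun h0 => h (by simp [h0])
    have hd0 : d g ≠ 0 := fun h0 => h (by rw [hd, h0, zero_mul, map_zero])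
    -- A coordinate is bounded below by the trace of terms of bounded order;
    have hterm : ∀ τ ∈ (Finset.univ : Finset (F ≃ₐ[K] F)), τ (d g * y) = 0 ∨
        (plRamIdx K w : ℤ) * n ≤ ord w (τ (d g * y)) := fun τ _ => Or.inr (by
      have h1 : ord w (τ (d g * y)) = ord w (d g * y) := by
        have := ord_smul τ w (d g * y)
        rwa [hw τ, AlgEquiv.smul_def] at this
      have h2 : |ord w (d g)| + |ord w (B g)| ≤ ∑ g, (|ord w (d g)| + |ord w (B g)|) :=
        Finset.single_le_sum (f := fun g => |ord w (d g)| + |ord w (B g)|)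
          (fun g _ => by positivity) (Finset.mem_univ g)
      have := hy.resolve_left hy0
      have := abs_nonneg (ord w (B g))
      have := neg_abs_le (ord w (d g))
      rw [h1, ord_mul w hd0 hy0]
      omega)
    have h4 := ord_sum_ge w _ _ hterm
    rw [← trace_eq_sum_automorphisms, ← hd, ord_algebraMap_eq, map_eq_zero] at h4
    refine le_of_mul_le_mul_left (h4.resolve_left h) ?_
    exact Int.natCast_pos.mpr (plRamIdx_pos w)
  -- conversely `y` is bounded below by its coordinates.
  · rw [← B.sum_repr y]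
    refine ord_sum_ge w _ _ fun g _ => ?_
    rcases eq_or_ne (B.repr y g) 0 with h | h
    · exact Or.inl (by rw [h, zero_smul])
    refine Or.inr ?_
    have h2 : |ord w (d g)| + |ord w (B g)| ≤ ∑ g, (|ord w (d g)| + |ord w (B g)|) :=
      Finset.single_le_sum (f := fun g => |ord w (d g)| + |ord w (B g)|)
        (fun g _ => by positivity) (Finset.mem_univ g)
    have := abs_nonneg (ord w (d g))
    have := neg_abs_le (ord w (B g))
    rw [Algebra.smul_def, ord_mul w ((_root_.map_ne_zero _).mpr h) (B.ne_zero g), ord_algebraMap_eq]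
    have h5 : (plRamIdx K w : ℤ) * n ≤ plRamIdx K w * ord (plUnder K w) (B.repr y g) :=
      mul_le_mul_of_nonneg_left ((hy g).resolve_left h) (Int.natCast_nonneg _)
    omega

variable {w : Pl F} {C : ℤ} (hC : IsLatticeBound K F w C)

include hC

/-- A product with an element of valuation above the bound rises one level. -/
lemma IsLatticeBound.mul_mem (hm : 3 * C + 1 ≤ m) {x : F}
    (hx : x ∈ nLattice K F (plUnder K w) m) {y : F}
    (hy : y = 0 ∨ plRamIdx K w * m - C ≤ ord w y) :
    x * y ∈ nLattice K F (plUnder K w) (m + 1) := by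
  rcases eq_or_ne x 0 with rfl | hx0
  · simpa using zero_mem_nLattice
  rcases eq_or_ne y 0 with rfl | hy0
  · simpa using zero_mem_nLattice
  refine hC.2.1 _ _ (Or.inr ?_)
  have h1 := (hC.2.2 _ _ hx).resolve_left hx0
  have h2 := hy.resolve_left hy0
  have he : (1 : ℤ) ≤ plRamIdx K w := by exact_mod_cast plRamIdx_pos (K := K) w
  have := hC.1
  rw [ord_mul w hx0 hy0]
  nlinarith

/-- High lattices consist of elements of positive valuation. -/
lemma IsLatticeBound.pos (hm : 3 * C + 1 ≤ m) {x : F}
    (hx : x ∈ nLattice K F (plUnder K w) m) : x = 0 ∨ 0 < ord w x := by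
  refine (hC.2.2 _ _ hx).imp id fun h => ?_
  have he : (1 : ℤ) ≤ plRamIdx K w := by exact_mod_cast plRamIdx_pos (K := K) w
  have := hC.1
  nlinarith

/-- `1 + x` is a unit for `x` in a high lattice. -/
lemma IsLatticeBound.ord_one_add (hm : 3 * C + 1 ≤ m) {x : F}
    (hx : x ∈ nLattice K F (plUnder K w) m) : 1 + x ≠ 0 ∧ ord w (1 + x) = 0 := by
  rcases hC.pos hm hx with rfl | h
  · simp
  refine ⟨fun h0 => ?_, ?_⟩
  · rw [add_eq_zero_iff_eq_neg'] at h0
    simp [h0] at h
  · rw [ord_add_eq_of_lt w one_ne_zero (Or.inr (by rw [ord_one]; exact h)), ord_one]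

/-- High lattices are stable under division by `1 + a`. -/
lemma IsLatticeBound.div_mem (hm : 3 * C + 1 ≤ m) {z a : F}
    (hz : z ∈ nLattice K F (plUnder K w) (m + 1)) (ha : a ∈ nLattice K F (plUnder K w) m) :
    z / (1 + a) ∈ nLattice K F (plUnder K w) (m + 1) := by
  obtain ⟨h1, h2⟩ := hC.ord_one_add hm ha
  have : z / (1 + a) = z + -(z * (a / (1 + a))) := by field_simp; ring
  rw [this]
  refine add_mem_nLattice hz (neg_mem_nLattice (hC.mul_mem hm
    (nLattice_mono (by omega) hz) ?_))
  rcases eq_or_ne a 0 with rfl | ha0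
  · simp
  refine Or.inr ?_
  rw [ord_div w ha0 h1, h2, sub_zero]
  exact (hC.2.2 _ _ ha).resolve_left ha0

/-- Modulo the next lattice a product of `1 + f i` is `1` plus the sum. -/
lemma IsLatticeBound.prod_one_add (hm : 3 * C + 1 ≤ m) (f : ℕ → F)
    (hf : ∀ i, f i ∈ nLattice K F (plUnder K w) m) (k : ℕ) :
    ∏ i ∈ Finset.range k, (1 + f i) - 1 - ∑ i ∈ Finset.range k, f i ∈
      nLattice K F (plUnder K w) (m + 1) := by
  induction k with
  | zero => simpa using zero_mem_nLattice
  | succ k ih =>
    rw [Finset.prod_range_succ, Finset.sum_range_succ]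
    set P := ∏ i ∈ Finset.range k, (1 + f i)
    set S := ∑ i ∈ Finset.range k, f i
    rw [show P * (1 + f k) - 1 - (S + f k) =
      (P - 1 - S) + ((P - 1 - S) * f k + S * f k) by ring]
    refine add_mem_nLattice ih (add_mem_nLattice (hC.mul_mem hm (nLattice_mono (by omega) ih)
      (hC.2.2 _ _ (hf k))) (hC.mul_mem hm (sum_mem_nLattice _ _ fun i _ => hf i)
      (hC.2.2 _ _ (hf k))))

end Lattice

/-- Units congruent to `1` modulo the lattice. -/
def IsLatticeBound.units {w : Pl F} {C m : ℤ} (hC : IsLatticeBound K F w C)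
    (hm : 3 * C + 1 ≤ m) : Subgroup Fˣ where
  carrier := {u | (u : F) - 1 ∈ nLattice K F (plUnder K w) m}
  one_mem' := by simpa using zero_mem_nLattice
  mul_mem' {a b} ha hb := by
    change ((a * b : Fˣ) : F) - 1 ∈ nLattice K F (plUnder K w) m
    rw [Units.val_mul, show (a : F) * b - 1 = ((a : F) - 1) + (((b : F) - 1) +
      ((a : F) - 1) * ((b : F) - 1)) by ring]
    exact add_mem_nLattice ha (add_mem_nLattice hb
      (nLattice_mono (by omega) (hC.mul_mem hm ha (hC.2.2 _ _ hb))))
  inv_mem' {a} ha := by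
    change ((a⁻¹ : Fˣ) : F) - 1 ∈ nLattice K F (plUnder K w) m
    have h0 := a.ne_zero
    rw [Units.val_inv_eq_inv_val, show (a : F)⁻¹ - 1 =
      -((a : F) - 1) + ((a : F) - 1) * (((a : F) - 1) / (1 + ((a : F) - 1))) by
        rw [add_sub_cancel]; field_simp; ring]
    refine add_mem_nLattice (neg_mem_nLattice ha) (nLattice_mono (by omega) (hC.mul_mem hm ha ?_))
    rcases eq_or_ne ((a : F) - 1) 0 with h | h
    · exact Or.inl (by rw [h, zero_div])
    obtain ⟨h1, h2⟩ := hC.ord_one_add hm ha
    refine Or.inr ?_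
    rw [ord_div w h h1, h2, sub_zero]
    exact (hC.2.2 _ _ ha).resolve_left h

section Herbrand

variable (hF : Module.finrank K F = p) {σ : F ≃ₐ[K] F} (hσ : σ ≠ 1) {w : Pl F} {C m : ℤ}
  (hC : IsLatticeBound K F w C)

include hF hσ hC

/-- One step of successive approximation: a correction by `1 + μ` gains one in the level. -/
lemma IsLatticeBound.approx_step (hm : 3 * C + 1 ≤ m) {u : Fˣ}
    (hu : σ (u : F) / u - 1 ∈ nLattice K F (plUnder K w) m) :
    ∃ μ ∈ nLattice K F (plUnder K w) m,
      σ ((u : F) / (1 + μ)) / ((u : F) / (1 + μ)) - 1 ∈ nLattice K F (plUnder K w) (m + 1) := by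
  classical
  set B := IsGalois.normalBasis K F
  set x := σ (u : F) / u - 1 with hx
  -- the product of the conjugates of `1 + x` is `1`
  have hprod : ∏ i ∈ Finset.range p, (1 + (σ ^ i) x) = 1 := by
    have h1 : ∀ i, 1 + (σ ^ i) x = (σ ^ (i + 1)) (u : F) / (σ ^ i) (u : F) := fun i => by
      rw [hx, map_sub, map_one, add_sub_cancel, map_div₀, pow_succ, AlgEquiv.mul_apply]
    rw [Finset.prod_congr rfl fun i _ => h1 i, Finset.prod_div_distrib, div_eq_one_iff_eq
      (Finset.prod_ne_zero_iff.mpr fun i _ => (_root_.map_ne_zero _).mpr u.ne_zero)]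
    have h2 := Finset.prod_range_succ (fun i => (σ ^ i) (u : F)) p
    rw [Finset.prod_range_succ', ← orderOf_generator hF hσ, pow_orderOf_eq_one, pow_zero,
      orderOf_generator hF hσ] at h2
    exact mul_right_cancel₀ (by simp) h2
  have hsum := hC.prod_one_add hm (fun i => (σ ^ i) x) (fun i => map_mem_nLattice _ hu) p
  rw [hprod, sub_self, zero_sub] at hsum
  -- hence the trace of `x` is small
  set s := ∑ g, B.repr x g with hs
  have hgσ : ∀ g, ∃ i < p, σ ^ i = g := exists_eq_generator_pow hF hσ
  have htr : ∑ i ∈ Finset.range p, (σ ^ i) x = ∑ g : F ≃ₐ[K] F, s • B g := by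
    have h1 : ∑ i ∈ Finset.range p, (σ ^ i) x = ∑ τ : F ≃ₐ[K] F, τ x :=
      Finset.sum_bij (fun i _ => σ ^ i) (fun _ _ => Finset.mem_univ _)
        (fun a ha b hb h =>
          generator_pow_injOn hF hσ (Finset.mem_range.mp ha) (Finset.mem_range.mp hb) h)
        (fun τ _ => by
          obtain ⟨i, hi, rfl⟩ := hgσ τ
          exact ⟨i, Finset.mem_range.mpr hi, rfl⟩) fun _ _ => rfl
    conv_lhs => rw [h1, ← B.sum_repr x]
    simp only [map_sum, algEquiv_map_smul, apply_normalBasis, B]
    rw [Finset.sum_comm]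
    simp only [hs, B, Finset.sum_smul]
    conv_rhs => rw [Finset.sum_comm]
    refine Finset.sum_congr rfl fun g _ => ?_
    exact Fintype.sum_equiv (Equiv.mulRight g) _ _ fun τ => rfl
  have hs' : s = 0 ∨ m + 1 ≤ ord (plUnder K w) s := by
    have h := hsum (1 : F ≃ₐ[K] F)
    rw [htr, map_neg, Finsupp.neg_apply, B.repr_sum_self, neg_eq_zero, ord_neg] at h
    exact h
  -- split `x` as `(σ - 1) μ + s θ`
  choose idx hidx hidx' using hgσ
  set μ := ∑ g : F ≃ₐ[K] F, B.repr x g • ∑ j ∈ Finset.range (idx g), B (σ ^ j) with hμ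
  have hμm : μ ∈ nLattice K F (plUnder K w) m := sum_mem_nLattice _ _ fun g _ => by
    rw [Finset.smul_sum]
    exact sum_mem_nLattice _ _ fun j _ => smul_basis_mem_nLattice _ (hu g)
  have hx' : x = σ μ - μ + s • B 1 := by
    have h1 : ∀ g, σ (∑ j ∈ Finset.range (idx g), B (σ ^ j)) -
        ∑ j ∈ Finset.range (idx g), B (σ ^ j) = B g - B 1 := fun g => by
      rw [map_sum, Finset.sum_congr rfl fun j _ => apply_normalBasis σ (σ ^ j),
        ← Finset.sum_sub_distrib, Finset.sum_congr rfl fun j _ => by rw [← pow_succ'],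
        Finset.sum_range_sub (fun j => B (σ ^ j)), pow_zero, hidx']
    have h2 : σ μ - μ = ∑ g, B.repr x g • (B g - B 1) := by
      rw [hμ, map_sum, ← Finset.sum_sub_distrib]
      exact Finset.sum_congr rfl fun g _ => by rw [algEquiv_map_smul, ← smul_sub, h1]
    rw [h2]
    simp only [smul_sub, Finset.sum_sub_distrib, ← Finset.sum_smul, B.sum_repr, hs, sub_add_cancel]
  refine ⟨μ, hμm, ?_⟩
  obtain ⟨h1, -⟩ := hC.ord_one_add hm hμm
  obtain ⟨h2, -⟩ := hC.ord_one_add hm (map_mem_nLattice σ hμm)
  have hu0 := u.ne_zero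
  have : σ ((u : F) / (1 + μ)) / ((u : F) / (1 + μ)) - 1 =
      (s • B 1 + x * μ) / (1 + σ μ) := by
    have e : σ (u : F) = (1 + x) * u := by rw [hx, add_sub_cancel, div_mul_cancel₀ _ hu0]
    rw [map_div₀, map_add, map_one, e,
      show s • B 1 = x - (σ μ - μ) from eq_sub_of_add_eq' hx'.symm]
    field_simp
    ring
  rw [this]
  exact hC.div_mem hm (add_mem_nLattice (smul_basis_mem_nLattice _ hs')
    (hC.mul_mem hm hu (hC.2.2 _ _ hμm))) (map_mem_nLattice σ hμm)

/-- Successive approximation of a unit by one fixed to any higher level. -/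
lemma IsLatticeBound.exists_approx (hm : 3 * C + 1 ≤ m) {u : Fˣ}
    (hu : σ (u : F) / u - 1 ∈ nLattice K F (plUnder K w) m) (j : ℕ) :
    ∃ u' : Fˣ, u / u' ∈ hC.units hm ∧ σ (u' : F) / u' - 1 ∈ nLattice K F (plUnder K w) (m + j) := by
  induction j with
  | zero => exact ⟨u, by rw [div_self']; exact one_mem _, by simpa using hu⟩
  | succ j ih =>
    obtain ⟨u', h1, h2⟩ := ih
    obtain ⟨μ, hμ, h3⟩ := hC.approx_step hF hσ (m := m + j) (by omega) h2
    obtain ⟨h4, -⟩ := hC.ord_one_add (m := m + j) (by omega) hμ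
    refine ⟨u' / Units.mk0 _ h4, ?_, by
      rw [Units.val_div_eq_div_val, Units.val_mk0, Nat.cast_succ, ← add_assoc]; exact h3⟩
    rw [div_div_eq_mul_div, mul_div_right_comm]
    refine (hC.units hm).mul_mem h1 ?_
    change (1 + μ : F) - 1 ∈ nLattice K F (plUnder K w) m
    rw [add_sub_cancel_left]
    exact nLattice_mono (by omega) hμ

/-- Elements almost fixed by `σ` are almost in `K`. -/
lemma IsLatticeBound.exists_close (hm : 3 * C + 1 ≤ m) {u : Fˣ}
    (hu : σ (u : F) / u - 1 ∈ nLattice K F (plUnder K w) m) :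
    ∃ k : Kˣ, Units.map (algebraMap K F : K →* F) k / u ∈ hC.units hm := by
  classical
  set B := IsGalois.normalBasis K F
  obtain ⟨t, ht⟩ : ∃ t : K, algebraMap K F t = ∑ g, B g := by
    refine ⟨Algebra.trace K F (B 1), ?_⟩
    rw [trace_eq_sum_automorphisms]
    exact Finset.sum_congr rfl fun g _ => by rw [apply_normalBasis, mul_one]
  have ht0 : algebraMap K F t ≠ 0 := by
    rw [ht]
    intro h
    have := Fintype.linearIndependent_iff.mp B.linearIndependent (fun _ => (1 : K))
      (by simpa using h) 1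
    exact one_ne_zero this
  -- an element of trace `1`
  set θ := B 1 / algebraMap K F t with hθ
  have hθ1 : ∑ g : F ≃ₐ[K] F, g θ = 1 := by
    rw [← div_self ht0]
    nth_rw 1 [ht]
    rw [Finset.sum_div]
    exact Finset.sum_congr rfl fun g _ => by
      rw [hθ, map_div₀, AlgEquiv.commutes, apply_normalBasis, mul_one]
  -- a large precision
  set D : ℕ := (∑ g : F ≃ₐ[K] F, |ord w (g θ)| + 2 * C + plRamIdx K w * |m| + 1).toNat with hD
  obtain ⟨u', h1, h2⟩ := hC.exists_approx hF hσ hm hu D
  have hmD : 3 * C + 1 ≤ m + D := by omega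
  have hgu : ∀ g : F ≃ₐ[K] F, g (u' : F) / u' - 1 ∈ nLattice K F (plUnder K w) (m + D) := by
    intro g
    obtain ⟨i, -, rfl⟩ := exists_eq_generator_pow hF hσ g
    induction i with
    | zero => simpa using zero_mem_nLattice
    | succ i ih =>
      have e : (σ ^ (i + 1)) (u' : F) / u' = σ ((σ ^ i) (u' : F) / u') * (σ (u' : F) / u') := by
        rw [pow_succ', AlgEquiv.mul_apply, map_div₀,
          div_mul_div_cancel₀ ((_root_.map_ne_zero σ).mpr u'.ne_zero)]
      rw [e]
      have hmul := (hC.units hmD).mul_mem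
        (x := Units.map (σ : F →* F) (Units.mk0 _ (div_ne_zero
          ((_root_.map_ne_zero (σ ^ i)).mpr u'.ne_zero) u'.ne_zero)))
        (y := Units.mk0 _ (div_ne_zero ((_root_.map_ne_zero σ).mpr u'.ne_zero) u'.ne_zero))
        (by
          change σ ((σ ^ i) (u' : F) / u') - 1 ∈ nLattice K F (plUnder K w) (m + D)
          rw [← map_one σ, ← map_sub]
          exact map_mem_nLattice σ ih) h2
      exact hmul
  -- Hilbert 90 approximately: this trace is close to `u'`
  set k := Algebra.trace K F (θ * u') with hk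
  have hdiff : algebraMap K F k / u' - 1 = ∑ g : F ≃ₐ[K] F, g θ * (g (u' : F) / u' - 1) := by
    simp only [mul_sub, mul_one, Finset.sum_sub_distrib, hθ1]
    rw [hk, trace_eq_sum_automorphisms, Finset.sum_div]
    congr 1
    exact Finset.sum_congr rfl fun g _ => by rw [map_mul, mul_div_assoc]
  have hmem : algebraMap K F k / u' - 1 ∈ nLattice K F (plUnder K w) m := by
    rw [hdiff]
    refine sum_mem_nLattice _ _ fun g _ => hC.2.1 _ _ ?_
    rcases eq_or_ne (g θ * (g (u' : F) / u' - 1)) 0 with h | h
    · exact Or.inl h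
    refine Or.inr ?_
    rw [ord_mul w (left_ne_zero_of_mul h) (right_ne_zero_of_mul h)]
    have h5 := (hC.2.2 _ _ (hgu g)).resolve_left (right_ne_zero_of_mul h)
    have h6 := Finset.single_le_sum (f := fun g : F ≃ₐ[K] F => |ord w (g θ)|)
      (fun g _ => abs_nonneg _) (Finset.mem_univ g)
    have h7 := neg_abs_le (ord w (g θ))
    have he : (1 : ℤ) ≤ plRamIdx K w := by exact_mod_cast plRamIdx_pos (K := K) w
    have hnn : 0 ≤ ∑ g : F ≃ₐ[K] F, |ord w (g θ)| := Finset.sum_nonneg fun g _ => abs_nonneg _
    have hCn := hC.1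
    have hDv : (D : ℤ) = ∑ g : F ≃ₐ[K] F, |ord w (g θ)| + 2 * C + plRamIdx K w * |m| + 1 := by
      rw [hD, Int.toNat_of_nonneg]; nlinarith [abs_nonneg m]
    nlinarith [abs_nonneg m, neg_abs_le m, le_abs_self m]
  have hk0 : k ≠ 0 := fun h => by
    rw [h, map_zero, zero_div, zero_sub] at hmem
    have := (hC.pos hm hmem).resolve_left (by simp)
    simp at this
  refine ⟨Units.mk0 k hk0, ?_⟩
  have h3 : Units.map (algebraMap K F : K →* F) (Units.mk0 k hk0) / u' ∈ hC.units hm := by
    change ((Units.map (algebraMap K F : K →* F) (Units.mk0 k hk0) / u' : Fˣ) : F) - 1 ∈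
      nLattice K F (plUnder K w) m
    rwa [Units.val_div_eq_div_val]
  rw [show Units.map (algebraMap K F : K →* F) (Units.mk0 k hk0) / u =
    Units.map (algebraMap K F : K →* F) (Units.mk0 k hk0) / u' / (u / u') by
      rw [div_div_div_cancel_right]]
  exact (hC.units hm).div_mem h3 h1

end Herbrand

/-- A finite abelian group with an automorphism: if norms exhaust the fixed points, boundaries
exhaust the kernel of the norm. -/
lemma ker_le_range_of_finite {R : Type*} [CommGroup R] [Finite R] (N T : R →* R)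
    (hTN : N.range ≤ T.ker) (hNT : T.range ≤ N.ker) (h : T.ker ≤ N.range) :
    N.ker ≤ T.range := by
  have h1 := Subgroup.card_mul_index N.ker
  have h2 := Subgroup.card_mul_index T.ker
  rw [Subgroup.index_ker] at h1 h2
  have h3 : T.ker = N.range := le_antisymm h hTN
  rw [h3] at h2
  have h4 : Nat.card N.ker = Nat.card T.range := by
    refine Nat.eq_of_mul_eq_mul_left (Nat.card_pos (α := N.range)) ?_
    rw [mul_comm, h1, h2]
  exact (Subgroup.eq_of_le_of_card_ge hNT h4.le).ge

/-- For an endomorphism of period `n` of a finite abelian group: if every fixed point is a norm,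
every element of norm `1` is a boundary. -/
lemma exists_map_div_eq_of_prod_iterate {R : Type*} [CommGroup R] [Finite R] (s : R →* R) (n : ℕ)
    (hs : ∀ x, (s : R → R)^[n] x = x)
    (h : ∀ x, s x = x → ∃ y, ∏ i ∈ Finset.range n, (s : R → R)^[i] y = x) {x : R}
    (hx : ∏ i ∈ Finset.range n, (s : R → R)^[i] x = 1) : ∃ y, s y / y = x := by
  let N : R →* R := MonoidHom.mk' (fun x => ∏ i ∈ Finset.range n, (s : R → R)^[i] x) fun a b => by
    rw [← Finset.prod_mul_distrib]
    exact Finset.prod_congr rfl fun i _ => iterate_map_mul s i a b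
  let T : R →* R := MonoidHom.mk' (fun x => s x / x) fun a b => by
    rw [map_mul, div_mul_div_comm]
  have hsN : ∀ x, s (N x) = N x := fun x => by
    change s (∏ i ∈ Finset.range n, (s : R → R)^[i] x) = ∏ i ∈ Finset.range n, (s : R → R)^[i] x
    rw [map_prod]
    have h := Finset.prod_range_succ (fun i => (s : R → R)^[i] x) n
    rw [Finset.prod_range_succ', hs] at h
    simp only [Function.iterate_succ_apply', Function.iterate_zero_apply] at h
    exact mul_right_cancel h
  have hNs : ∀ x, N (s x) = N x := fun x => by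
    change ∏ i ∈ Finset.range n, (s : R → R)^[i] (s x) = _
    refine Eq.trans ?_ (hsN x)
    change _ = s (∏ i ∈ Finset.range n, _)
    rw [map_prod]
    exact Finset.prod_congr rfl fun i _ => by
      rw [← Function.iterate_succ_apply, Function.iterate_succ_apply']
  exact ker_le_range_of_finite N T
    (by rintro _ ⟨x, rfl⟩; change s (N x) / N x = 1; exact div_eq_one.mpr (hsN x))
    (by rintro _ ⟨x, rfl⟩; change N (s x / x) = 1; rw [map_div, hNs, div_self'])
    (fun x hx' => h x (div_eq_one.mp hx')) hx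

section Main

variable (hF : Module.finrank K F = p) {σ : F ≃ₐ[K] F} (hσ : σ ≠ 1) (hζ : IsPrimitiveRoot ζ p)

include hF hσ

/-- The conjugates of `σ y / y` multiply to `1`. -/
lemma prod_pow_apply_div {y : F} (hy : y ≠ 0) :
    ∏ i ∈ Finset.range p, (σ ^ i) (σ y / y) = 1 := by
  simp only [map_div₀, ← AlgEquiv.mul_apply, ← pow_succ]
  rw [Finset.prod_div_distrib, div_eq_one_iff_eq
    (Finset.prod_ne_zero_iff.mpr fun i _ => (_root_.map_ne_zero _).mpr hy)]
  have h2 := Finset.prod_range_succ (fun i => (σ ^ i) y) p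
  rw [Finset.prod_range_succ', ← orderOf_generator hF hσ, pow_orderOf_eq_one, pow_zero,
    orderOf_generator hF hσ] at h2
  exact mul_right_cancel₀ (by simpa using hy) h2

/-- At a prime above a nonsplit one every automorphism preserves the valuation. -/
lemma ord_apply_of_isNonsplit {w : Pl F} (hns : IsNonsplit σ (plUnder K w)) (g : F ≃ₐ[K] F)
    (y : F) : ord w (g y) = ord w y := by
  obtain ⟨i, -, rfl⟩ := exists_eq_generator_pow hF hσ g
  have h := ord_smul (σ ^ i) w y
  rwa [pow_smul_eq_self (hns w rfl) i, AlgEquiv.smul_def] at h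

/-- At an unramified prime which does not split a uniformiser is not a local norm. -/
lemma localNorms_ne_top_of_unramified {w : Pl F} (hns : IsNonsplit σ (plUnder K w))
    (he1 : plRamIdx K w = 1) : localNorms p ζ F (plUnder K w) ≠ ⊤ := by
  intro htop
  obtain ⟨π, hπ0, hπ⟩ := exists_ord_eq_one (plUnder K w)
  obtain ⟨y, l, hl, hyl⟩ := mem_localNorms.mp
    (htop.ge (Subgroup.mem_top (Units.mk0 π hπ0)) : Units.mk0 π hπ0 ∈ localNorms p ζ F _)
  rw [Units.val_mk0] at hyl
  have hN : Algebra.norm K (y : F) ≠ 0 := Algebra.norm_ne_zero_iff.mpr y.ne_zero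
  have h1 := dvd_ord_norm hF hσ hns he1 y.ne_zero
  have h2 := dvd_ord_of_mem_localPowers hl
  rw [hyl, ord_mul _ hN l.ne_zero] at hπ
  have h3 := dvd_add h1 h2
  rw [hπ] at h3
  have := Int.le_of_dvd one_pos h3
  have := hp.out.two_le
  omega

include hζ

/-- A local norm of valuation zero is the norm of an element of valuation zero up to a factor
arbitrarily close to `1`. -/
lemma exists_norm_mul_closeOne {w : Pl F} (hord : ∀ (g : F ≃ₐ[K] F) (y : F), ord w (g y) = ord w y)
    {k : Kˣ} (hk : k ∈ localNorms p ζ F (plUnder K w)) (hkord : ord w (algebraMap K F (k : K)) = 0)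
    {n : ℕ} (hn : 0 < n) :
    ∃ (Y : F) (r : K), Y ≠ 0 ∧ r ≠ 0 ∧ ord w Y = 0 ∧ CloseOne w n (algebraMap K F r) ∧
      (k : K) = Algebra.norm K Y * r := by
  -- write `k` as a norm times a local power, and that as a `p`th power times `r` close to `1`
  obtain ⟨y, l, hl, hyl⟩ := mem_localNorms.mp hk
  obtain ⟨z, hz⟩ := hl
  obtain ⟨z', hz'0, hz'⟩ := exists_pow_close hζ (plUnder K w)
    (div_ne_zero l.ne_zero (pow_ne_zero _ z.ne_zero)) hz n
  have hzF : algebraMap K F ((z : K) * z') ≠ 0 :=
    (_root_.map_ne_zero _).mpr (mul_ne_zero z.ne_zero hz'0)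
  -- absorb the `p`th power into the argument of the norm
  set Y : F := (y : F) * algebraMap K F ((z : K) * z') with hY
  have hY0 : Y ≠ 0 := mul_ne_zero y.ne_zero hzF
  have hNY : Algebra.norm K Y = Algebra.norm K (y : F) * ((z : K) * z') ^ p := by
    rw [hY, map_mul, Algebra.norm_algebraMap, hF]
  set r : K := (l : K) / (z : K) ^ p / z' ^ p
  have hkr : (k : K) = Algebra.norm K Y * r := by
    rw [hyl, hNY, mul_assoc]
    congr 1
    simp only [r]
    field_simp
    ring
  have hr : CloseOne (plUnder K w) (localLevel p ζ (plUnder K w) + n) r := hz'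
  have hr0 : r ≠ 0 := fun h => k.ne_zero (by rw [hkr, h, mul_zero])
  -- `r` is close to `1` upstairs too
  have hrw : CloseOne w n (algebraMap K F r) := by
    rcases hr with h | h
    · exact Or.inl (by rw [h, map_one])
    · refine Or.inr ?_
      rw [← map_one (algebraMap K F), ← map_sub, ord_algebraMap_eq]
      have := localLevel_pos p ζ (plUnder K w)
      have := plRamIdx_pos (K := K) w
      nlinarith
  refine ⟨Y, r, hY0, hr0, ?_, hrw, hkr⟩
  -- valuations: all conjugates of `Y` have that of `Y`, so it is zero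
  have h := congrArg (ord w) (congrArg (algebraMap K F) hkr)
  rw [hkord, map_mul, ord_mul w ((_root_.map_ne_zero _).mpr (Algebra.norm_ne_zero_iff.mpr hY0))
    ((_root_.map_ne_zero _).mpr hr0), hrw.ord_eq_zero (by exact_mod_cast hn), add_zero,
    algebraMap_norm_eq_prod_pow hF hσ Y,
    ord_prod w _ _ fun i _ => (_root_.map_ne_zero _).mpr hY0,
    Finset.sum_congr rfl fun i _ => hord _ _, Finset.sum_const, Finset.card_range,
    nsmul_eq_mul] at h
  rcases mul_eq_zero.mp h.symm with h | h
  · exact absurd h (by exact_mod_cast hp.out.ne_zero)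
  · exact h

section Ramified

variable {w : Pl F} {C m : ℤ} (hC : IsLatticeBound K F w C) (hm : 3 * C + 1 ≤ m)
  (hord : ∀ (g : F ≃ₐ[K] F) (y : F), ord w (g y) = ord w y)

omit hF hσ hζ [IsGalois K F] in
/-- The action of an automorphism on the local units. -/
def unitsAut (hord : ∀ (g : F ≃ₐ[K] F) (y : F), ord w (g y) = ord w y) (g : F ≃ₐ[K] F) :
    localUnits w →* localUnits w :=
  MonoidHom.mk' (fun u => ⟨Units.map (g : F →* F) u.1, (hord g _).trans u.2⟩)
    fun _ _ => Subtype.ext (map_mul _ _ _)

omit hF hσ hζ in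
/-- Lattice units are local units. -/
lemma IsLatticeBound.units_le (hC : IsLatticeBound K F w C) (hm : 3 * C + 1 ≤ m) :
    hC.units hm ≤ localUnits w := fun u hu => by
  have h := (hC.ord_one_add hm (x := (u : F) - 1) hu).2
  rwa [add_sub_cancel] at h

omit hF hσ hζ in
/-- Units congruent to `1` to high order are lattice units. -/
lemma IsLatticeBound.mem_units_of_closeOne (hC : IsLatticeBound K F w C) (hm : 3 * C + 1 ≤ m)
    {u : Fˣ} (hu : CloseOne w (((plRamIdx K w : ℤ) * m + C).toNat + 1 : ℕ) (u : F)) :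
    u ∈ hC.units hm := by
  refine hC.2.1 _ _ (hu.imp (fun h => by rw [h, sub_self]) fun h => ?_)
  refine le_trans ?_ h
  push_cast
  have := Int.self_le_toNat ((plRamIdx K w : ℤ) * m + C)
  omega

omit hF hσ hζ in
/-- The local units modulo the lattice units are finite. -/
lemma IsLatticeBound.finite_quotient (hC : IsLatticeBound K F w C) (hm : 3 * C + 1 ≤ m) :
    Finite (↥(localUnits w) ⧸ (hC.units hm).subgroupOf (localUnits w)) := by
  set big : ℕ := ((plRamIdx K w : ℤ) * m + C).toNat + 1
  have : Finite (𝓞 F ⧸ w.asIdeal ^ big) :=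
    Ideal.finiteQuotientOfFreeOfNeBot _ (pow_ne_zero _ w.ne_bot)
  have hker : (localReduce w big).ker ≤ (hC.units hm).subgroupOf (localUnits w) := fun u hu =>
    hC.mem_units_of_closeOne hm ((localReduce_eq_one_iff w big u).mp hu)
  have : ((hC.units hm).subgroupOf (localUnits w)).FiniteIndex := by
    refine ⟨fun h0 => ?_⟩
    have h := Subgroup.index_dvd_of_le hker
    rw [h0, Subgroup.index_ker, zero_dvd_iff] at h
    exact Nat.card_pos.ne' h
  exact Subgroup.finite_quotient_of_finiteIndex

omit hF hσ hζ in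
/-- The lattice units are stable under the automorphisms. -/
lemma IsLatticeBound.units_le_comap (hC : IsLatticeBound K F w C) (hm : 3 * C + 1 ≤ m)
    (hord : ∀ (g : F ≃ₐ[K] F) (y : F), ord w (g y) = ord w y) (g : F ≃ₐ[K] F) :
    (hC.units hm).subgroupOf (localUnits w) ≤
      ((hC.units hm).subgroupOf (localUnits w)).comap (unitsAut hord g) := fun u hu => by
  change g ((u.1 : Fˣ) : F) - 1 ∈ nLattice K F (plUnder K w) m
  rw [← map_one g, ← map_sub]
  exact map_mem_nLattice g hu

omit hF hσ hζ in
/-- The iterates of a generator on the quotient by the lattice units. -/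
lemma IsLatticeBound.map_iterate (i : ℕ) (u : localUnits w) :
    (QuotientGroup.map _ _ (unitsAut hord σ) (hC.units_le_comap hm hord σ) :
      ↥(localUnits w) ⧸ (hC.units hm).subgroupOf (localUnits w) → _)^[i] (QuotientGroup.mk u) =
      QuotientGroup.mk (unitsAut hord (σ ^ i) u) := by
  induction i generalizing u with
  | zero => rfl
  | succ i ih =>
    rw [Function.iterate_succ_apply', ih, QuotientGroup.map_mk]
    refine congrArg _ (Subtype.ext (Units.ext ?_))
    change σ ((σ ^ i) ((u.1 : Fˣ) : F)) = (σ ^ (i + 1)) ((u.1 : Fˣ) : F)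
    rw [pow_succ', AlgEquiv.mul_apply]

/-- If everything is a local norm, the classes fixed by a generator are norms of classes. -/
lemma IsLatticeBound.exists_prod_mk_eq (htop : localNorms p ζ F (plUnder K w) = ⊤)
    (u : localUnits w)
    (hu : σ ((u.1 : Fˣ) : F) / (u.1 : Fˣ) - 1 ∈ nLattice K F (plUnder K w) m) :
    ∃ Y : localUnits w, (QuotientGroup.mk (∏ i ∈ Finset.range p, unitsAut hord (σ ^ i) Y) :
      ↥(localUnits w) ⧸ (hC.units hm).subgroupOf (localUnits w)) = QuotientGroup.mk u := by
  obtain ⟨k, hk⟩ := hC.exists_close hF hσ hm hu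
  have hkord : ord w (algebraMap K F (k : K)) = 0 := by
    have h1 : ord w (((Units.map (algebraMap K F : K →* F) k / u.1 : Fˣ)) : F) = 0 :=
      hC.units_le hm hk
    rw [Units.val_div_eq_div_val] at h1
    change ord w (algebraMap K F (k : K) / ((u.1 : Fˣ) : F)) = 0 at h1
    rwa [ord_div w ((_root_.map_ne_zero _).mpr k.ne_zero)
      u.1.ne_zero, show ord w ((u.1 : Fˣ) : F) = 0 from u.2, sub_zero] at h1
  obtain ⟨Y, r, hY0, hr0, hYord, hrw, hkr⟩ := exists_norm_mul_closeOne hF hσ hζ hord
    (htop.ge (Subgroup.mem_top k) : k ∈ localNorms p ζ F _) hkord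
    (Nat.succ_pos ((plRamIdx K w : ℤ) * m + C).toNat)
  let ku : localUnits w := ⟨Units.map (algebraMap K F : K →* F) k, hkord⟩
  let ru : localUnits w := ⟨Units.mk0 _ ((_root_.map_ne_zero (algebraMap K F)).mpr hr0),
    hrw.ord_eq_zero (by simp)⟩
  refine ⟨⟨Units.mk0 Y hY0, hYord⟩, ?_⟩
  have h1 : (QuotientGroup.mk ku : ↥(localUnits w) ⧸ (hC.units hm).subgroupOf (localUnits w)) =
      QuotientGroup.mk u := QuotientGroup.eq_iff_div_mem.mpr hk
  have h2 : (QuotientGroup.mk ru : ↥(localUnits w) ⧸ (hC.units hm).subgroupOf (localUnits w)) = 1 :=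
    (QuotientGroup.eq_one_iff _).mpr (hC.mem_units_of_closeOne hm hrw)
  rw [← h1]
  conv_lhs => rw [← mul_one (QuotientGroup.mk _ :
    ↥(localUnits w) ⧸ (hC.units hm).subgroupOf (localUnits w)), ← h2, ← QuotientGroup.mk_mul]
  refine congrArg _ (Subtype.ext (Units.ext ?_))
  rw [Subgroup.coe_mul, Units.val_mul, SubmonoidClass.coe_finsetProd, Units.coe_prod]
  change (∏ i ∈ Finset.range p, (σ ^ i) Y) * algebraMap K F r = algebraMap K F (k : K)
  rw [← algebraMap_norm_eq_prod_pow hF hσ Y, ← map_mul, ← hkr]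

include hC hord hm in
/-- If everything is a local norm, a unit killed by the norm is a boundary up to lattice units. -/
lemma IsLatticeBound.exists_boundary (htop : localNorms p ζ F (plUnder K w) = ⊤) {π : F}
    (hπ0 : π ≠ 0) :
    ∃ u : Fˣ, ord w (u : F) = 0 ∧
      σ (u : F) / u / (σ π / π) - 1 ∈ nLattice K F (plUnder K w) m := by
  have : Finite (↥(localUnits w) ⧸ (hC.units hm).subgroupOf (localUnits w)) :=
    hC.finite_quotient hm
  let : CommGroup (↥(localUnits w) ⧸ (hC.units hm).subgroupOf (localUnits w)) :=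
    QuotientGroup.Quotient.commGroup _
  have hσπ : ord w (σ π / π) = 0 := by
    rw [ord_div w ((_root_.map_ne_zero σ).mpr hπ0) hπ0, hord, sub_self]
  -- Apply vanishing of the Tate group of units modulo lattice units to `σ π / π`.
  let ρ : localUnits w :=
    ⟨Units.mk0 _ (div_ne_zero ((_root_.map_ne_zero σ).mpr hπ0) hπ0), hσπ⟩
  obtain ⟨x, hx⟩ := exists_map_div_eq_of_prod_iterate
    (QuotientGroup.map _ _ (unitsAut hord σ) (hC.units_le_comap hm hord σ)) p (fun x => by
      induction x using QuotientGroup.induction_on with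
      | H u =>
        rw [hC.map_iterate hm hord]
        refine congrArg _ (Subtype.ext (Units.ext ?_))
        change (σ ^ p) ((u.1 : Fˣ) : F) = _
        rw [← orderOf_generator hF hσ, pow_orderOf_eq_one]
        rfl)
    -- Invariant classes are norms, as everything is a local norm;
    (fun x hx => by
      induction x using QuotientGroup.induction_on with
      | H u =>
        have h0 : unitsAut hord σ u / u ∈ (hC.units hm).subgroupOf (localUnits w) :=
          QuotientGroup.eq_iff_div_mem.mp hx
        have h : ((unitsAut hord σ u / u : localUnits w) : Fˣ) ∈ hC.units hm := h0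
        obtain ⟨Y, hY⟩ := hC.exists_prod_mk_eq hF hσ hζ hm hord htop u
          (by simpa [IsLatticeBound.units, unitsAut, Units.val_div_eq_div_val] using h)
        exact ⟨QuotientGroup.mk Y, by
          rw [Finset.prod_congr rfl fun i _ => hC.map_iterate hm hord i Y,
            ← QuotientGroup.mk_prod]
          exact hY⟩)
    -- and the norm of `σ π / π` is `1`.
    (x := QuotientGroup.mk ρ) (by
      rw [Finset.prod_congr rfl fun i _ => hC.map_iterate hm hord i ρ, ← QuotientGroup.mk_prod]
      refine (QuotientGroup.eq_one_iff _).mpr ?_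
      change _ ∈ hC.units hm
      convert one_mem (hC.units hm) using 1
      refine Units.ext ?_
      rw [map_prod, Units.coe_prod]
      exact prod_pow_apply_div hF hσ hπ0)
  induction x using QuotientGroup.induction_on with
  | H u =>
    have h0 : unitsAut hord σ u / u / ρ ∈ (hC.units hm).subgroupOf (localUnits w) :=
      QuotientGroup.eq_iff_div_mem.mp hx
    have h : ((unitsAut hord σ u / u / ρ : localUnits w) : Fˣ) ∈ hC.units hm := h0
    exact ⟨u.1, u.2,
      by simpa [IsLatticeBound.units, unitsAut, ρ, Units.val_div_eq_div_val] using h⟩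

end Ramified

/-- **Local norm index**: at a prime which does not split, not everything is a norm. -/
theorem localNorms_ne_top {v : Pl K} (hns : IsNonsplit σ v) : localNorms p ζ F v ≠ ⊤ := by
  obtain ⟨w, rfl⟩ := exists_plUnder_eq (F := F) v
  have hfix : ∀ g : F ≃ₐ[K] F, g • w = w := fun g => by
    obtain ⟨i, -, rfl⟩ := exists_eq_generator_pow hF hσ g
    exact pow_smul_eq_self (hns w rfl) i
  rcases eq_or_ne (plRamIdx K w) 1 with he1 | he1
  · exact localNorms_ne_top_of_unramified hF hσ hns he1
  intro htop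
  have hord := ord_apply_of_isNonsplit hF hσ hns
  obtain ⟨C, hC⟩ := exists_isLatticeBound (K := K) w hfix
  have hm : 3 * C + 1 ≤ 3 * C + 1 := le_rfl
  set e : ℤ := (plRamIdx K w : ℤ)
  have he : 1 < e := by
    have := plRamIdx_pos (K := K) w
    simp only [e]; omega
  obtain ⟨π, hπ0, hπ⟩ := exists_ord_eq_one w
  obtain ⟨u, huord, h'⟩ := hC.exists_boundary hF hσ hζ hm hord htop hπ0
  obtain ⟨k, hk⟩ := hC.exists_close hF hσ hm (u := u / Units.mk0 π hπ0) (by
    rw [Units.val_div_eq_div_val, Units.val_mk0]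
    convert h' using 2
    rw [map_div₀, div_div_div_eq, div_div_div_eq, mul_comm (u : F) (σ π)])
  have h : ord w (((Units.map (algebraMap K F : K →* F) k /
      (u / Units.mk0 π hπ0) : Fˣ)) : F) = 0 := hC.units_le hm hk
  rw [Units.val_div_eq_div_val, Units.val_div_eq_div_val, Units.val_mk0,
    ord_div w (Units.ne_zero _) (div_ne_zero u.ne_zero hπ0), ord_div w u.ne_zero hπ0,
    huord, hπ] at h
  rw [show ((Units.map (algebraMap K F : K →* F) k : Fˣ) : F) = algebraMap K F (k : K) from rfl,
    ord_algebraMap_eq] at h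
  have h4 : e ∣ -1 := ⟨ord (plUnder K w) (k : K), by simp only [e] at *; linarith⟩
  have := Int.le_of_dvd one_pos (dvd_neg.mp h4)
  omega

end Main

end Fermat.CFT
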