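import Fermat.Agent.CFT.Kummer.Cyclic

/-!
# Local `p`-th powers without completions

`index_localPowers`, and ramification in Kummer extensions: a local power splits and away from `p`
divisible valuation is unramified (`plRamIdx_eq_one_of_dvd`).
-/

set_option autoImplicit false

noncomputable section

open NumberField IsDedekindDomain HeightOneSpectrum Polynomial
open scoped Pointwise

namespace Fermat.CFT

variable {K : Type} [Field K] [NumberField K] {p : ℕ} [hp : Fact p.Prime] {ζ : K}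

/-- `z ≡ 1` to level `n` at `v`. -/
def CloseOne (v : Pl K) (n : ℤ) (z : K) : Prop := z = 1 ∨ n ≤ ord v (z - 1)

/-- An element close to `1` has valuation zero. -/
lemma CloseOne.ord_eq_zero {v : Pl K} {n : ℤ} {z : K} (hn : 0 < n) (h : CloseOne v n z) :
    ord v z = 0 := by
  rcases h with rfl | h
  · simp
  · have h2 := ord_add_eq_of_lt v (x := (1 : K)) (y := z - 1) one_ne_zero
      (Or.inr (by rw [ord_one]; omega))
    rwa [add_sub_cancel, ord_one] at h2

/-- Closeness to one is stable under products. -/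
lemma CloseOne.mul {v : Pl K} {n : ℤ} {z z' : K} (hn : 0 < n) (hz : CloseOne v n z)
    (hz' : CloseOne v n z') (hz'0 : z' ≠ 0) : CloseOne v n (z * z') := by
  rcases eq_or_ne (z * z') 1 with h | h
  · exact Or.inl h
  refine Or.inr ?_
  have e : z * z' - 1 = (z - 1) * z' + (z' - 1) := by ring
  rw [e]
  refine ord_add_ge v (by rw [← e]; exact sub_ne_zero.mpr h) ?_ ?_
  · rcases eq_or_ne z 1 with rfl | h1
    · exact Or.inl (by simp)
    · refine Or.inr ?_
      rw [ord_mul v (sub_ne_zero.mpr h1) hz'0, hz'.ord_eq_zero hn, add_zero]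
      exact hz.resolve_left h1
  · rcases hz' with rfl | h'
    · exact Or.inl (sub_self _)
    · exact Or.inr h'

/-- Closeness to one is stable under inversion. -/
lemma CloseOne.inv {v : Pl K} {n : ℤ} {z : K} (hn : 0 < n) (hz : CloseOne v n z) (hz0 : z ≠ 0) :
    CloseOne v n z⁻¹ := by
  rcases eq_or_ne z 1 with rfl | h1
  · exact Or.inl inv_one
  refine Or.inr ?_
  rw [show z⁻¹ - 1 = -((z - 1) * z⁻¹) by field_simp; ring, ord_neg,
    ord_mul v (sub_ne_zero.mpr h1) (inv_ne_zero hz0), ord_inv, hz.ord_eq_zero hn]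
  simpa using hz.resolve_left h1

/-- The valuation of `1 - ζ`. -/
def zetaOrd (ζ : K) (v : Pl K) : ℕ := (ord v (1 - ζ)).toNat

/-- The congruence level guaranteeing a `p`-th power. -/
def localLevel (p : ℕ) (ζ : K) (v : Pl K) : ℕ := p * zetaOrd ζ v + 1

/-- The congruence level is positive. -/
lemma localLevel_pos (p : ℕ) (ζ : K) (v : Pl K) : (0 : ℤ) < localLevel p ζ v :=
  Int.natCast_pos.mpr (Nat.succ_pos _)

section Zeta

variable (hζ : IsPrimitiveRoot ζ p)

include hζ

omit [NumberField K] in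
/-- A root of unity is integral. -/
lemma zeta_isIntegral : IsIntegral ℤ ζ := hζ.isIntegral hp.out.pos

/-- `zetaOrd` is the valuation of `1 - ζ`. -/
lemma ord_one_sub_zeta (v : Pl K) : ord v (1 - ζ) = zetaOrd ζ v := by
  rw [zetaOrd, Int.toNat_of_nonneg]
  exact ord_nonneg_of_isIntegral v (IsIntegral.sub isIntegral_one (zeta_isIntegral hζ))

/-- Powers of `ζ` are units. -/
lemma ord_zeta_pow (v : Pl K) (i : ℕ) : ord v (ζ ^ i) = 0 := by
  have h := ord_pow v ζ p
  rw [hζ.pow_eq_one, ord_one] at h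
  rcases mul_eq_zero.mp h.symm with h | h
  · exact absurd h (by exact_mod_cast hp.out.ne_zero)
  · rw [ord_pow, h, mul_zero]

/-- All `1 - ξ` have the same valuation, for `ξ` a primitive `p`-th root of unity. -/
lemma ord_one_sub_of_primitive {ξ : K} (hξ : IsPrimitiveRoot ξ p) (v : Pl K) :
    ord v (1 - ξ) = zetaOrd ζ v := by
  rw [← ord_one_sub_zeta hζ]
  have key : ∀ {a b : K}, IsPrimitiveRoot a p → IsPrimitiveRoot b p →
      ord v (1 - a) ≤ ord v (1 - b) := by
    intro a b ha hb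
    obtain ⟨i, -, rfl⟩ := ha.eq_pow_of_pow_eq_one hb.pow_eq_one
    have hb1 : 1 - a ^ i ≠ 0 := sub_ne_zero.mpr (hb.ne_one hp.out.one_lt).symm
    rw [← mul_neg_geom_sum] at hb1 ⊢
    rw [ord_mul v (left_ne_zero_of_mul hb1) (right_ne_zero_of_mul hb1)]
    linarith [ord_nonneg_of_isIntegral v
        (IsIntegral.sum (R := ℤ) _ fun k (_ : k ∈ Finset.range i) =>
      (ha.isIntegral hp.out.pos).pow k)]
  exact le_antisymm (key hξ hζ) (key hζ hξ)

/-- Differences of distinct powers of `ζ` have the valuation of `1 - ζ`. -/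
lemma ord_zeta_pow_sub (v : Pl K) {i j : ℕ} (hi : i < p) (hj : j < p) (hij : i ≠ j) :
    ord v (ζ ^ i - ζ ^ j) = zetaOrd ζ v := by
  wlog hlt : i < j generalizing i j
  · rw [← ord_neg, neg_sub]; exact this hj hi (Ne.symm hij) (by omega)
  obtain ⟨k, rfl⟩ := Nat.exists_eq_add_of_lt hlt
  have hk : IsPrimitiveRoot (ζ ^ (k + 1)) p := hζ.pow_of_coprime _
    (hp.out.coprime_iff_not_dvd.mpr fun h => by
      have := Nat.le_of_dvd (by omega) h; omega).symm
  have hne : (1 : K) - ζ ^ (k + 1) ≠ 0 := sub_ne_zero.mpr (hk.ne_one hp.out.one_lt).symm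
  rw [show ζ ^ i - ζ ^ (i + k + 1) = ζ ^ i * (1 - ζ ^ (k + 1)) by ring,
    ord_mul v (pow_ne_zero _ (hζ.ne_zero hp.out.ne_zero)) hne, ord_zeta_pow hζ,
    ord_one_sub_of_primitive hζ hk, zero_add]

/-- The valuation of `p` is `p - 1` times that of `1 - ζ`. -/
lemma ord_natCast_prime (v : Pl K) : ord v (p : K) = (p - 1 : ℕ) * zetaOrd ζ v := by
  have h2 := Polynomial.eval_one_cyclotomic_prime (R := K) (p := p)
  rw [cyclotomic_eq_prod_X_sub_primitiveRoots hζ, eval_prod] at h2
  have hterm : ∀ μ ∈ primitiveRoots p K, ((X - C μ : K[X])).eval 1 = 1 - μ := fun μ _ => by simp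
  rw [← h2, Finset.prod_congr rfl hterm, ord_prod]
  · rw [Finset.sum_congr rfl fun μ hμ => ord_one_sub_of_primitive hζ
      ((mem_primitiveRoots hp.out.pos).mp hμ) v, Finset.sum_const, hζ.card_primitiveRoots,
      Nat.totient_prime hp.out, nsmul_eq_mul]
  · exact fun μ hμ => sub_ne_zero.mpr
      (((mem_primitiveRoots hp.out.pos).mp hμ).ne_one hp.out.one_lt).symm

/-- Away from `p` the valuation of `1 - ζ` is zero. -/
lemma zetaOrd_eq_zero_of_ord (v : Pl K) (h : ord v (p : K) = 0) : zetaOrd ζ v = 0 := by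
  rw [ord_natCast_prime hζ] at h
  rcases mul_eq_zero.mp h with h | h
  · have : p - 1 = 0 := by exact_mod_cast h
    have := hp.out.one_lt
    omega
  · exact_mod_cast h

omit [NumberField K] in
/-- The product of all `a - ζ ^ i` is `a ^ p - 1`. -/
lemma prod_sub_zeta_pow (a : K) : ∏ i ∈ Finset.range p, (a - ζ ^ i) = a ^ p - 1 := by
  have h := congrArg (Polynomial.eval a) (X_pow_sub_one_eq_prod hp.out.pos hζ)
  simp only [eval_sub, eval_pow, eval_X, eval_one, eval_prod, eval_C] at h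
  rw [h]
  refine Finset.prod_bij (fun i _ => ζ ^ i) (fun i _ => ?_) (fun i hi j hj h => ?_) (fun b hb => ?_)
    (fun _ _ => rfl)
  · exact (mem_nthRootsFinset hp.out.pos _).mpr (by
      rw [← pow_mul, mul_comm, pow_mul, hζ.pow_eq_one, one_pow])
  · exact hζ.pow_inj (Finset.mem_range.mp hi) (Finset.mem_range.mp hj) h
  · obtain ⟨i, hi, rfl⟩ := hζ.eq_pow_of_pow_eq_one ((mem_nthRootsFinset hp.out.pos _).mp hb)
    exact ⟨i, Finset.mem_range.mpr hi, rfl⟩

end Zeta

variable (p ζ) in
/-- Elements which are `p`-th powers locally at `v`. -/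
def localPowers (v : Pl K) : Subgroup Kˣ where
  carrier := {x | ∃ y : Kˣ, CloseOne v (localLevel p ζ v) ((x : K) / (y : K) ^ p)}
  one_mem' := ⟨1, Or.inl (by simp)⟩
  mul_mem' := fun {a b} ⟨y, hy⟩ ⟨z, hz⟩ => ⟨y * z, by
    have := hy.mul (localLevel_pos p ζ v) hz (div_ne_zero b.ne_zero (pow_ne_zero _ z.ne_zero))
    rwa [div_mul_div_comm, ← mul_pow, ← Units.val_mul, ← Units.val_mul] at this⟩
  inv_mem' := fun {a} ⟨y, hy⟩ => ⟨y⁻¹, by
    have := hy.inv (localLevel_pos p ζ v) (div_ne_zero a.ne_zero (pow_ne_zero _ y.ne_zero))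
    convert this using 1
    rw [Units.val_inv_eq_inv_val, Units.val_inv_eq_inv_val, inv_pow, inv_div, div_inv_eq_mul,
      div_eq_inv_mul]⟩

omit hp in
/-- A `p`-th power is a local `p`-th power. -/
lemma pow_mem_localPowers (v : Pl K) (y : Kˣ) : y ^ p ∈ localPowers p ζ v :=
  ⟨y, Or.inl (by rw [Units.val_pow_eq_pow_val, div_self (pow_ne_zero _ y.ne_zero)])⟩

omit hp in
/-- Local `p`-th powers have valuation divisible by `p`. -/
lemma dvd_ord_of_mem_localPowers {v : Pl K} {x : Kˣ} (hx : x ∈ localPowers p ζ v) :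
    (p : ℤ) ∣ ord v (x : K) := by
  obtain ⟨y, hy⟩ := hx
  have h := hy.ord_eq_zero (localLevel_pos p ζ v)
  rw [ord_div v x.ne_zero (pow_ne_zero _ y.ne_zero), ord_pow] at h
  exact ⟨ord v (y : K), by omega⟩

section Index

variable (v : Pl K) (n : ℕ)

/-- The `v`-units. -/
def localUnits : Subgroup Kˣ where
  carrier := {x | ord v (x : K) = 0}
  one_mem' := by simp
  mul_mem' {a b} ha hb := by simp_all [ord_mul v a.ne_zero b.ne_zero]
  inv_mem' {a} ha := by simp_all [ord_inv]

/-- A local unit is a quotient of two integers prime to `v`. -/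
lemma exists_localUnit_eq_div (x : localUnits v) :
    ∃ a b : 𝓞 K, a ∉ v.asIdeal ∧ b ∉ v.asIdeal ∧ (x.1 : K) * b = a := by
  obtain ⟨a, b, hab⟩ := exists_primeCompl_mul_eq_of_integer v (x.1 : K) (by
    rw [valuation_eq_exp_neg_ord v x.1.ne_zero, show ord v (x.1 : K) = 0 from x.2]; simp)
  refine ⟨a, b, fun ha => ?_, b.2, hab⟩
  have hb0 : (b.1 : 𝓞 K) ≠ 0 := fun h => b.2 (h ▸ zero_mem _)
  have hbK : algebraMap (𝓞 K) K b.1 ≠ 0 := RingOfIntegers.coe_ne_zero_iff.mpr hb0
  have ha0 : a ≠ 0 := by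
    rintro rfl
    rw [map_zero, mul_eq_zero] at hab
    exact hab.elim x.1.ne_zero hbK
  have : 0 < ord v (algebraMap (𝓞 K) K a) := (ord_algebraMap_pos_iff v ha0).mpr ha
  rw [← hab, ord_mul v x.1.ne_zero hbK, show ord v (x.1 : K) = 0 from x.2] at this
  have hb1 : ord v (algebraMap (𝓞 K) K b.1) = 0 := (ord_algebraMap_eq_zero_iff v hb0).mpr b.2
  omega

omit [NumberField K] in
/-- Cross multiplication for a product of two quotients. -/
lemma cross_mul_eq {x y a b a' b' c d : K} (h3 : x * y * d = c) (h1 : x * b = a)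
    (h2 : y * b' = a') : c * (b * b') = d * (a * a') := by
  subst h1 h2 h3; ring

omit [NumberField K] in
/-- Cross multiplication for two forms of one quotient. -/
lemma cross_eq {x a b a' b' : K} (h : x * b = a) (h' : x * b' = a') : a' * b = a * b' := by
  subst h h'; ring

/-- Reduction of `v`-units modulo `vⁿ`. -/
def localReduce : localUnits v →* (𝓞 K ⧸ v.asIdeal ^ n)ˣ :=
  MonoidHom.mk' (fun x =>
    (Ideal.Quotient.isUnit_mk_pow_of_notMem v.asIdeal (n := n)
        (exists_localUnit_eq_div v x).choose_spec.choose_spec.1).unit *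
      (Ideal.Quotient.isUnit_mk_pow_of_notMem v.asIdeal (n := n)
          (exists_localUnit_eq_div v x).choose_spec.choose_spec.2.1).unit⁻¹)
    fun x y => by
      set A := exists_localUnit_eq_div v x
      set B := exists_localUnit_eq_div v y
      set C := exists_localUnit_eq_div v (x * y)
      have hA := A.choose_spec.choose_spec.2.2
      have hB := B.choose_spec.choose_spec.2.2
      have hC := C.choose_spec.choose_spec.2.2
      rw [mul_mul_mul_comm, ← mul_inv, eq_mul_inv_iff_mul_eq, mul_comm _ (_⁻¹ : (𝓞 K ⧸ _)ˣ),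
        mul_assoc, inv_mul_eq_iff_eq_mul]
      apply Units.ext
      simp only [Units.val_mul, IsUnit.unit_spec, ← map_mul]
      congr 1
      apply RingOfIntegers.ext
      push_cast
      exact cross_mul_eq (by simpa using hC) hA hB

/-- The reduction of a local unit from any expression as a quotient. -/
lemma localReduce_eq {x : localUnits v} {a b : 𝓞 K}
    (h : (x.1 : K) * b = a) :
    ((localReduce v n x : (𝓞 K ⧸ v.asIdeal ^ n)ˣ) : 𝓞 K ⧸ v.asIdeal ^ n) *
      Ideal.Quotient.mk _ b = Ideal.Quotient.mk _ a := by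
  set A := exists_localUnit_eq_div v x
  have hA := A.choose_spec.choose_spec.2.2
  set u := (Ideal.Quotient.isUnit_mk_pow_of_notMem v.asIdeal (n := n)
      A.choose_spec.choose_spec.2.1).unit
  change ((_ * u⁻¹ : (𝓞 K ⧸ v.asIdeal ^ n)ˣ) : 𝓞 K ⧸ v.asIdeal ^ n) * _ = _
  rw [Units.val_mul, IsUnit.unit_spec, mul_right_comm, Units.mul_inv_eq_iff_eq_mul,
    IsUnit.unit_spec, ← map_mul, ← map_mul]
  congr 1
  apply RingOfIntegers.ext
  push_cast
  exact cross_eq h hA

/-- Reduction of the local units is surjective. -/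
lemma localReduce_surjective (hn : 0 < n) : Function.Surjective (localReduce v n) := by
  intro g
  obtain ⟨a, ha⟩ := Ideal.Quotient.mk_surjective (g : 𝓞 K ⧸ v.asIdeal ^ n)
  have hav : a ∉ v.asIdeal := by
    intro h
    have hg : IsUnit (Ideal.Quotient.mk (v.asIdeal ^ n) a) := ha ▸ g.isUnit
    have hnil : IsNilpotent (Ideal.Quotient.mk (v.asIdeal ^ n) a) :=
      ⟨n, by rw [← map_pow, Ideal.Quotient.eq_zero_iff_mem]; exact Ideal.pow_mem_pow h n⟩
    have : Nontrivial (𝓞 K ⧸ v.asIdeal ^ n) := Ideal.Quotient.nontrivial_iff.mpr fun h' =>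
      v.isPrime.ne_top (top_le_iff.mp (h' ▸ Ideal.pow_le_self hn.ne'))
    exact hnil.not_isUnit hg
  have ha0 : a ≠ 0 := fun h => hav (h ▸ zero_mem _)
  refine ⟨⟨Units.mk0 (a : K) (fun h => ha0 (RingOfIntegers.ext h)),
    (ord_algebraMap_eq_zero_iff v ha0).mpr hav⟩, Units.ext ?_⟩
  have h := localReduce_eq v n (x := ⟨Units.mk0 (a : K) (fun h => ha0 (RingOfIntegers.ext h)),
    (ord_algebraMap_eq_zero_iff v ha0).mpr hav⟩) (a := a) (b := 1) (by simp)
  rw [map_one, mul_one] at h
  rw [h, ha]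

/-- The kernel of reduction of local units consists of those close to one. -/
lemma localReduce_eq_one_iff (x : localUnits v) :
    localReduce v n x = 1 ↔ CloseOne v n (x.1 : K) := by
  obtain ⟨a, b, -, hb, hab⟩ := exists_localUnit_eq_div v x
  have hb0 : b ≠ 0 := fun h => hb (h ▸ zero_mem _)
  have hbK : (b : K) ≠ 0 := fun h => hb0 (RingOfIntegers.ext h)
  have key : localReduce v n x = 1 ↔ a - b ∈ v.asIdeal ^ n := by
    rw [← Ideal.Quotient.eq, ← localReduce_eq v n hab, Units.ext_iff, Units.val_one]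
    exact ⟨fun h => by rw [h, one_mul], fun h =>
        (Ideal.Quotient.isUnit_mk_pow_of_notMem v.asIdeal (n := n) hb).mul_right_cancel
      (by rw [one_mul]; exact h)⟩
  rw [key]
  rcases eq_or_ne a b with rfl | hne
  · rw [sub_self]
    refine iff_of_true (zero_mem _) (Or.inl ?_)
    exact (mul_eq_right₀ hbK).mp hab
  · have hne' : a - b ≠ 0 := sub_ne_zero.mpr hne
    have hx1 : (x.1 : K) - 1 = ((a - b : 𝓞 K) : K) / (b : K) := by
      push_cast
      rw [sub_div, div_self hbK, (div_eq_iff hbK).mpr hab.symm]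
    rw [← le_ord_algebraMap_iff v hne']
    have hord : ord v ((x.1 : K) - 1) = ord v ((a - b : 𝓞 K) : K) := by
      rw [hx1, ord_div v (fun h => hne' (RingOfIntegers.ext h)) hbK,
        (ord_algebraMap_eq_zero_iff v hb0).mpr hb, sub_zero]
    refine ⟨fun h => Or.inr (hord ▸ h), fun h => ?_⟩
    rcases h with h | h
    · exfalso
      apply hne
      apply RingOfIntegers.ext
      rw [← hab, h, one_mul]
    · rwa [← hord]

variable {v} (hζ : IsPrimitiveRoot ζ p)

include hζ

/-- The root of unity as an integer. -/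
private def zetaInt : 𝓞 K := ⟨ζ, zeta_isIntegral hζ⟩

/-- If `x` is that close to one root of unity, the product over all is close to the level. -/
private lemma le_sum_ord_sub_zeta_pow {a : 𝓞 K} {i : ℕ} (hi : i < p)
    (hai : ((zetaOrd ζ v + 1 : ℕ) : ℤ) ≤ ord v ((a : K) - ζ ^ i)) :
    (localLevel p ζ v : ℤ) ≤ ∑ j ∈ Finset.range p, ord v ((a : K) - ζ ^ j) := by
  set c := zetaOrd ζ v
  have hNc : localLevel p ζ v = p * c + 1 := rfl
  rw [Finset.sum_eq_add_sum_sdiff_singleton_of_mem (Finset.mem_range.mpr hi)]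
  have hrest : ∀ j ∈ Finset.range p \ {i}, ord v ((a : K) - ζ ^ j) = c := by
    intro j hj
    rw [Finset.mem_sdiff, Finset.mem_singleton] at hj
    have hd := ord_zeta_pow_sub hζ v hi (Finset.mem_range.mp hj.1) (Ne.symm hj.2)
    rw [show (a : K) - ζ ^ j = (ζ ^ i - ζ ^ j) + ((a : K) - ζ ^ i) by ring,
      ord_add_eq_of_lt v (sub_ne_zero.mpr fun h =>
        hj.2 (hζ.pow_inj hi (Finset.mem_range.mp hj.1) h).symm) (Or.inr ?_), hd]
    rw [hd]; push_cast at hai; omega
  rw [Finset.sum_congr rfl hrest, Finset.sum_const, Finset.card_sdiff,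
    Finset.singleton_inter_of_mem (Finset.mem_range.mpr hi), Finset.card_range,
    Finset.card_singleton, hNc, nsmul_eq_mul]
  push_cast [Nat.cast_sub hp.out.one_lt.le] at hai ⊢
  nlinarith

/-- The solutions of `x ^ p ≡ 1` modulo `v ^ N` are congruent to a root of unity modulo
`v ^ (c + 1)`, and conversely. -/
private lemma pow_eq_one_iff_exists_zeta (a : 𝓞 K) :
    Ideal.Quotient.mk (v.asIdeal ^ localLevel p ζ v) a ^ p = 1 ↔
      ∃ i < p, a - zetaInt hζ ^ i ∈ v.asIdeal ^ (zetaOrd ζ v + 1) := by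
  set c := zetaOrd ζ v with hc
  set N := localLevel p ζ v with hN
  have hNc : N = p * c + 1 := rfl
  set π := Ideal.Quotient.mk (v.asIdeal ^ N)
  let z : 𝓞 K := zetaInt hζ
  change π a ^ p = 1 ↔ ∃ i < p, a - z ^ i ∈ v.asIdeal ^ (c + 1)
  have hmemN : ∀ r : 𝓞 K, r ∈ v.asIdeal ^ N ↔ r = 0 ∨ (N : ℤ) ≤ ord v (r : K) := fun r => by
    rcases eq_or_ne r 0 with rfl | hr
    · simp
    · simp [le_ord_algebraMap_iff v hr, hr]
  have hmemC : ∀ r : 𝓞 K, r ∈ v.asIdeal ^ (c + 1) ↔ r = 0 ∨ ((c + 1 : ℕ) : ℤ) ≤ ord v (r : K) :=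
    fun r => by
      rcases eq_or_ne r 0 with rfl | hr
      · simp
      · rw [or_iff_right hr]
        exact (le_ord_algebraMap_iff v hr _).symm
  rw [← map_pow, ← map_one π, Ideal.Quotient.eq, hmemN]
  push_cast
  rw [← prod_sub_zeta_pow hζ, sub_eq_zero]
  constructor
  · intro h
    by_contra hno
    push Not at hno
    -- otherwise every factor has order at most `c`, and the product less than `N`
    have hlt : ∀ i ∈ Finset.range p, (a : K) - ζ ^ i ≠ 0 ∧ ord v ((a : K) - ζ ^ i) ≤ c := by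
      intro i hi
      have h1 := hno i (Finset.mem_range.mp hi)
      rw [hmemC, not_or] at h1
      refine ⟨fun h0 => h1.1 (RingOfIntegers.ext (by push_cast; exact h0)), ?_⟩
      have := h1.2
      push_cast at this
      change ¬ (c : ℤ) + 1 ≤ ord v ((a : K) - ζ ^ i) at this
      omega
    rcases h with h | h
    · have h' : (a : K) ^ p - 1 = 0 := by
        rw [sub_eq_zero]; simpa using congrArg (fun r : 𝓞 K => (r : K)) h
      rw [← prod_sub_zeta_pow hζ, Finset.prod_eq_zero_iff] at h'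
      obtain ⟨i, hi, hi0⟩ := h'
      exact (hlt i hi).1 hi0
    · rw [ord_prod v _ _ fun i hi => (hlt i hi).1] at h
      have := Finset.sum_le_sum fun i hi => (hlt i hi).2
      simp only [Finset.sum_const, Finset.card_range, nsmul_eq_mul] at this
      rw [hNc] at h; push_cast at h; omega
  · rintro ⟨i, hi, h⟩
    by_cases h0 : ∏ j ∈ Finset.range p, ((a : K) - ζ ^ j) = 0
    · left
      apply RingOfIntegers.ext
      rw [prod_sub_zeta_pow hζ, sub_eq_zero] at h0
      push_cast
      exact h0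
    refine Or.inr ?_
    -- conversely one close factor forces the others
    have hne := Finset.prod_ne_zero_iff.mp h0
    rw [ord_prod v _ _ hne]
    have hai : ((c + 1 : ℕ) : ℤ) ≤ ord v ((a : K) - ζ ^ i) := by
      rcases (hmemC _).mp h with h' | h'
      · refine absurd ?_ (hne i (Finset.mem_range.mpr hi))
        simpa [z, zetaInt] using congrArg (fun r : 𝓞 K => (r : K)) h'
      · push_cast at h'
        exact_mod_cast h'
    exact le_sum_ord_sub_zeta_pow hζ hi hai

/-- The torsion is in bijection with the roots of unity and the image of `v ^ (c + 1)`. -/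
private lemma card_torsion_eq_mul :
    Nat.card {g : (𝓞 K ⧸ v.asIdeal ^ localLevel p ζ v)ˣ // g ^ p = 1} =
      p * Nat.card ((v.asIdeal ^ (zetaOrd ζ v + 1)).map
        (Ideal.Quotient.mk (v.asIdeal ^ localLevel p ζ v))) := by
  set c := zetaOrd ζ v with hc
  set N := localLevel p ζ v with hN
  have hNc : N = p * c + 1 := rfl
  have hle : c + 1 ≤ N := by rw [hNc]; nlinarith [hp.out.one_lt]
  set π := Ideal.Quotient.mk (v.asIdeal ^ N)
  set J := (v.asIdeal ^ (c + 1)).map π
  let z : 𝓞 K := zetaInt hζ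
  have hz : ∀ i : ℕ, ((z ^ i : 𝓞 K) : K) = ζ ^ i := fun i => by push_cast; rfl
  have hsol : ∀ a : 𝓞 K, π a ^ p = 1 ↔ ∃ i < p, a - z ^ i ∈ v.asIdeal ^ (c + 1) :=
    pow_eq_one_iff_exists_zeta hζ
  have hmemC : ∀ r : 𝓞 K, r ∈ v.asIdeal ^ (c + 1) ↔ r = 0 ∨ ((c + 1 : ℕ) : ℤ) ≤ ord v (r : K) :=
    fun r => by
      rcases eq_or_ne r 0 with rfl | hr
      · simp
      · rw [or_iff_right hr]
        exact (le_ord_algebraMap_iff v hr _).symm
  have hJ : ∀ x ∈ J, ∃ r ∈ v.asIdeal ^ (c + 1), π r = x := fun x hx =>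
    (Ideal.mem_map_iff_of_surjective π Ideal.Quotient.mk_surjective).mp hx
  have hmem : ∀ (i : Fin p) (x : J),
      ((π (z ^ (i : ℕ)) + x.1) ^ p = 1) := by
    intro i x
    obtain ⟨r, hr, hrx⟩ := hJ x.1 x.2
    rw [← hrx, ← map_add]
    exact (hsol _).mpr ⟨i, i.2, by simpa using hr⟩
  -- the bijection is `(i, x) ↦ ζ ^ i + x`
  let φ : Fin p × J → {g : (𝓞 K ⧸ v.asIdeal ^ N)ˣ // g ^ p = 1} := fun x =>
    ⟨(IsUnit.of_pow_eq_one (hmem x.1 x.2) hp.out.ne_zero).unit,
      Units.ext (by rw [Units.val_pow_eq_pow_val, IsUnit.unit_spec]; exact hmem x.1 x.2)⟩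
  have hφ : Function.Bijective φ := by
    constructor
    · rintro ⟨i, x⟩ ⟨j, y⟩ h
      have h' : π (z ^ (i : ℕ)) + x.1 = π (z ^ (j : ℕ)) + y.1 :=
        congrArg (fun g : {g : (𝓞 K ⧸ v.asIdeal ^ N)ˣ // g ^ p = 1} =>
          (g.1 : 𝓞 K ⧸ v.asIdeal ^ N)) h
      have hij : i = j := by
        by_contra hij
        have hd : π (z ^ (i : ℕ) - z ^ (j : ℕ)) ∈ J := by
          rw [map_sub, show π (z ^ (i : ℕ)) - π (z ^ (j : ℕ)) = y.1 - x.1 by linear_combination h']
          exact sub_mem y.2 x.2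
        rw [Ideal.mem_quotient_iff_mem_sup, sup_eq_left.mpr (Ideal.pow_le_pow_right hle),
          hmemC] at hd
        push_cast at hd
        change z ^ (i : ℕ) - z ^ (j : ℕ) = 0 ∨ (c : ℤ) + 1 ≤ ord v (ζ ^ (i : ℕ) - ζ ^ (j : ℕ)) at hd
        have hord := ord_zeta_pow_sub hζ v i.2 j.2 (fun h => hij (Fin.ext h))
        rcases hd with hd | hd
        · have := congrArg (fun r : 𝓞 K => (r : K)) hd
          simp only [map_sub, hz, map_zero, sub_eq_zero] at this
          exact hij (Fin.ext (hζ.pow_inj i.2 j.2 this))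
        · rw [hord] at hd; omega
      subst hij
      rw [Prod.mk.injEq]
      exact ⟨rfl, Subtype.ext (add_left_cancel h')⟩
    · rintro ⟨g, hg⟩
      obtain ⟨a, ha⟩ := Ideal.Quotient.mk_surjective (g : 𝓞 K ⧸ v.asIdeal ^ N)
      have : π a ^ p = 1 := by rw [ha, ← Units.val_pow_eq_pow_val, hg, Units.val_one]
      obtain ⟨i, hi, h⟩ := (hsol a).mp this
      refine ⟨(⟨i, hi⟩, ⟨π (a - z ^ i), Ideal.mem_map_of_mem π h⟩), Subtype.ext (Units.ext ?_)⟩
      change π (z ^ i) + π (a - z ^ i) = _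
      rw [← map_add, add_sub_cancel, ha]
  rw [← Nat.card_eq_of_bijective φ hφ, Nat.card_prod, Nat.card_fin]

/-- The `p`-torsion of the units of `𝓞/v^N`. -/
lemma card_torsion_units :
    Nat.card {g : (𝓞 K ⧸ v.asIdeal ^ localLevel p ζ v)ˣ // g ^ p = 1} =
      p * Ideal.absNorm v.asIdeal ^ ((p - 1) * zetaOrd ζ v) := by
  set c := zetaOrd ζ v with hc
  set N := localLevel p ζ v with hN
  have hNc : N = p * c + 1 := rfl
  have hle : c + 1 ≤ N := by rw [hNc]; nlinarith [hp.out.one_lt]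
  set π := Ideal.Quotient.mk (v.asIdeal ^ N)
  set J := (v.asIdeal ^ (c + 1)).map π
  rw [card_torsion_eq_mul hζ]
  congr 1
  -- the size of `J`
  have hq : 0 < Ideal.absNorm v.asIdeal :=
    Nat.pos_of_ne_zero (Ideal.absNorm_eq_zero_iff.not.mpr v.ne_bot)
  have hcard := AddSubgroup.card_mul_index J.toAddSubgroup
  have hidx : J.toAddSubgroup.index = Ideal.absNorm (v.asIdeal ^ (c + 1)) := by
    rw [Ideal.absNorm_eq_index, ← AddSubgroup.index_comap_of_surjective J.toAddSubgroup
      (f := (π : 𝓞 K →+ 𝓞 K ⧸ v.asIdeal ^ N)) Ideal.Quotient.mk_surjective]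
    congr 1
    ext r
    exact Ideal.mem_quotient_iff_mem_sup.trans
      (by rw [sup_eq_left.mpr (Ideal.pow_le_pow_right hle)]; rfl)
  have hR : Nat.card (𝓞 K ⧸ v.asIdeal ^ N) = Ideal.absNorm (v.asIdeal ^ N) := by
    rw [Ideal.absNorm_apply, Submodule.cardQuot_apply]
  rw [hidx, hR, map_pow, map_pow] at hcard
  have hexp : N = (p - 1) * c + (c + 1) := by
    obtain ⟨q, rfl⟩ : ∃ q, p = q + 1 := ⟨p - 1, (Nat.sub_add_cancel hp.out.pos).symm⟩
    rw [hNc, Nat.add_sub_cancel]; ring
  refine Nat.eq_of_mul_eq_mul_right (pow_pos hq (c + 1)) (hcard.trans ?_)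
  rw [← pow_add, ← hexp]

/-- The index of local `p`-th powers in the local units. -/
theorem relIndex_localPowers_localUnits :
    (localPowers p ζ v).relIndex (localUnits v) =
      p * Ideal.absNorm v.asIdeal ^ ((p - 1) * zetaOrd ζ v) := by
  set N := localLevel p ζ v
  have hN : 0 < N := Nat.succ_pos _
  -- a unit is a local `p`th power iff it is one modulo `v ^ N`
  have h2 : (localPowers p ζ v).subgroupOf (localUnits v) =
      (powMonoidHom p : (𝓞 K ⧸ v.asIdeal ^ N)ˣ →* _).range.comap (localReduce v N) := by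
    ext x
    constructor
    · rintro ⟨y, hy⟩
      have hy0 : y ∈ localUnits v := by
        have h := hy.ord_eq_zero (by exact_mod_cast hN)
        rw [ord_div v (Units.ne_zero _) (pow_ne_zero _ y.ne_zero), ord_pow] at h
        have hx : ord v ((x : Kˣ) : K) = 0 := x.2
        change ord v ((x : Kˣ) : K) - _ = 0 at h
        rw [hx] at h
        rcases mul_eq_zero.mp (by omega : (p : ℤ) * ord v (y : K) = 0) with h' | h'
        · exact absurd h' (by exact_mod_cast hp.out.ne_zero)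
        · exact h'
      refine ⟨localReduce v N ⟨y, hy0⟩, ?_⟩
      rw [powMonoidHom_apply, ← map_pow]
      have : localReduce v N (x * (⟨y, hy0⟩ ^ p)⁻¹) = 1 := by
        rw [localReduce_eq_one_iff v N]
        simpa [div_eq_mul_inv] using hy
      rw [map_mul, map_inv, mul_inv_eq_one] at this
      exact this.symm
    · rintro ⟨g, hg⟩
      obtain ⟨y, rfl⟩ := localReduce_surjective v N hN g
      refine ⟨y.1, ?_⟩
      have : localReduce v N (x * (y ^ p)⁻¹) = 1 := by
        rw [map_mul, map_inv, map_pow, ← hg, powMonoidHom_apply, mul_inv_cancel]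
      rw [localReduce_eq_one_iff v N] at this
      simpa [div_eq_mul_inv] using this
  have : Finite (𝓞 K ⧸ v.asIdeal ^ N) :=
    Ideal.finiteQuotientOfFreeOfNeBot _ (pow_ne_zero _ v.ne_bot)
  -- so the index is that of the `p`th powers in the finite group of units modulo `v ^ N`
  rw [Subgroup.relIndex, h2, Subgroup.index_comap_of_surjective _ (localReduce_surjective v N hN),
    ← card_torsion_units (v := v) hζ]
  -- which equals the number of units killed by `p`
  have h4 := Subgroup.card_mul_index (powMonoidHom p : (𝓞 K ⧸ v.asIdeal ^ N)ˣ →* _).range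
  have h5 := Subgroup.card_mul_index (powMonoidHom p : (𝓞 K ⧸ v.asIdeal ^ N)ˣ →* _).ker
  rw [Subgroup.index_ker] at h5
  refine (Nat.eq_of_mul_eq_mul_left Nat.card_pos (h4.trans (h5.symm.trans (mul_comm _ _)))).trans ?_
  exact Nat.card_congr (Equiv.subtypeEquivRight fun g => MonoidHom.mem_ker)

/-- **The index of local `p`-th powers.** The local `p`-th powers at `v` have index
`p² · N v ^ ((p - 1) zetaOrd ζ v)`. -/
theorem index_localPowers :
    (localPowers p ζ v).index = p * p * Ideal.absNorm v.asIdeal ^ ((p - 1) * zetaOrd ζ v) := by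
  set N := localLevel p ζ v
  -- the valuation modulo `p` is onto
  let θ : Kˣ →* Multiplicative (ZMod p) :=
    MonoidHom.mk' (fun x => Multiplicative.ofAdd ((ord v (x : K) : ℤ) : ZMod p)) fun a b => by
      rw [← ofAdd_add, ← Int.cast_add, ← ord_mul v a.ne_zero b.ne_zero, Units.val_mul]
  obtain ⟨π, hπ0, hπ⟩ := exists_ord_eq_one v
  have hθ : Function.Surjective θ := fun y => ⟨Units.mk0 π hπ0 ^ (Multiplicative.toAdd y).val, by
    have : Multiplicative.toAdd y = ((ord v (((Units.mk0 π hπ0) ^ (Multiplicative.toAdd y).val :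
        Kˣ) : K) : ℤ) : ZMod p) := by
      rw [Units.val_pow_eq_pow_val, Units.val_mk0, ord_pow, hπ]; simp
    exact (congrArg Multiplicative.ofAdd this).symm⟩
  -- its kernel is generated by the units and the local powers
  have hker : θ.ker = localUnits v ⊔ localPowers p ζ v := by
    apply le_antisymm
    · intro x hx
      have hd : (p : ℤ) ∣ ord v (x : K) :=
        (ZMod.intCast_zmod_eq_zero_iff_dvd _ p).mp (Multiplicative.ofAdd.injective hx)
      obtain ⟨k, hk⟩ := hd
      have hu : x * ((Units.mk0 π hπ0 ^ k) ^ p)⁻¹ ∈ localUnits v := by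
        change ord v ((x * ((Units.mk0 π hπ0 ^ k) ^ p)⁻¹ : Kˣ) : K) = 0
        rw [Units.val_mul, Units.val_inv_eq_inv_val, Units.val_pow_eq_pow_val,
          Units.val_zpow_eq_zpow_val, Units.val_mk0,
          ord_mul v x.ne_zero (inv_ne_zero (pow_ne_zero _ (zpow_ne_zero _ hπ0))), ord_inv, ord_pow,
          ord_zpow, hπ, hk]
        ring
      have := mul_mem (Subgroup.mem_sup_left hu)
        (Subgroup.mem_sup_right (pow_mem_localPowers (p := p) (ζ := ζ) v (Units.mk0 π hπ0 ^ k)))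
      rwa [inv_mul_cancel_right] at this
    · refine sup_le (fun x hx => ?_) (fun x hx => ?_)
      · change Multiplicative.ofAdd _ = 1
        rw [show ord v (x : K) = 0 from hx, Int.cast_zero, ofAdd_zero]
      · change Multiplicative.ofAdd _ = 1
        rw [(ZMod.intCast_zmod_eq_zero_iff_dvd _ p).mpr (dvd_ord_of_mem_localPowers hx), ofAdd_zero]
  -- so the index is `p` times the index inside the units
  have h1 : (localPowers p ζ v).index = (localPowers p ζ v).relIndex (localUnits v) * p := by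
    rw [← Subgroup.relIndex_mul_index (le_sup_right.trans hker.ge), hker,
      Subgroup.relIndex_sup_right]
    congr 1
    rw [← hker, Subgroup.index_ker, MonoidHom.range_eq_top.mpr hθ,
      Nat.card_congr Subgroup.topEquiv.toEquiv, Nat.card_congr Multiplicative.toAdd, Nat.card_zmod]
  rw [h1, relIndex_localPowers_localUnits hζ]; ring

end Index

/-- The absolute norm of a nonzero integer is the product of the norms of its prime powers. -/
theorem prod_absNorm_pow_ord {r : 𝓞 K} (hr : r ≠ 0) (S : Finset (Pl K))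
    (hS : ∀ v : Pl K, v ∉ S → ord v (r : K) = 0) :
    ∏ v ∈ S, Ideal.absNorm v.asIdeal ^ (ord v (r : K)).toNat =
      Ideal.absNorm (Ideal.span {r}) := by
  classical
  rw [← Finset.prod_congr rfl fun v _ => map_pow Ideal.absNorm v.asIdeal _, ← map_prod]
  congr 1
  have hn : ∀ v : Pl K, ((ord v (r : K)).toNat : ℤ) = ord v (r : K) := fun v =>
    Int.toNat_of_nonneg (ord_algebraMap_nonneg v r)
  have hdvd : ∏ v ∈ S, v.asIdeal ^ (ord v (r : K)).toNat ∣ Ideal.span {r} := by
    refine Finset.prod_dvd_of_coprime (fun a _ b _ hab => ?_) fun v _ => ?_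
    · refine IsCoprime.pow ((Ideal.isCoprime_iff_sup_eq).mpr ?_)
      exact a.isMaximal.coprime_of_ne b.isMaximal fun h => hab (HeightOneSpectrum.ext h)
    · exact Ideal.dvd_iff_le.mpr ((Ideal.span_singleton_le_iff_mem _).mpr
        ((le_ord_algebraMap_iff v hr _).mp (hn v).le))
  obtain ⟨J, hJ⟩ := hdvd
  suffices J = ⊤ by rw [hJ, this, Ideal.mul_top]
  by_contra hJt
  obtain ⟨m, hm, hle⟩ := Ideal.exists_le_maximal J hJt
  have hm0 : m ≠ ⊥ := fun h => by
    apply hr
    rw [← Ideal.span_singleton_eq_bot, hJ, le_bot_iff.mp (hle.trans h.le), Ideal.mul_bot]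
  let w : Pl K := ⟨m, hm.isPrime, hm0⟩
  have hwJ : w.asIdeal ∣ J := Ideal.dvd_iff_le.mpr hle
  have hdvd' : w.asIdeal ^ ((ord w (r : K)).toNat + 1) ∣ Ideal.span {r} := by
    rw [hJ, pow_succ]
    by_cases hw : w ∈ S
    · exact mul_dvd_mul (Finset.dvd_prod_of_mem (fun v : Pl K =>
        v.asIdeal ^ (ord v (r : K)).toNat) hw) hwJ
    · rw [hS w hw, Int.toNat_zero, pow_zero, one_mul]; exact hwJ.mul_left _
  rw [Ideal.dvd_iff_le, Ideal.span_singleton_le_iff_mem, ← le_ord_algebraMap_iff w hr] at hdvd'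
  push_cast at hdvd'
  rw [hn] at hdvd'
  omega

/-- The product over `S` of the `N v ^ ((p - 1) ord_v (1 - ζ))` is `p ^ [K : ℚ]`. -/
theorem prod_absNorm_zetaOrd (hζ : IsPrimitiveRoot ζ p) (S : Finset (Pl K))
    (hS : ∀ v : Pl K, v ∉ S → ord v (p : K) = 0) :
    ∏ v ∈ S, Ideal.absNorm v.asIdeal ^ ((p - 1) * zetaOrd ζ v) = p ^ Module.finrank ℚ K := by
  rw [← absNorm_span_natCast (K := K) p, ← prod_absNorm_pow_ord (r := (p : 𝓞 K))
    (Nat.cast_ne_zero.mpr hp.out.ne_zero) S (by simpa using hS)]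
  refine Finset.prod_congr rfl fun v _ => ?_
  congr 1
  push_cast
  rw [ord_natCast_prime hζ, ← Nat.cast_mul, Int.toNat_natCast]

/-- A prime number has order one at the place above it. -/
lemma ord_natCast_rat {ℓ : ℕ} (hℓ : ℓ.Prime) (u : Pl ℚ) (hu : (ℓ : 𝓞 ℚ) ∈ u.asIdeal) :
    ord u (ℓ : ℚ) = 1 := by
  have hl0 : (ℓ : 𝓞 ℚ) ≠ 0 := Nat.cast_ne_zero.mpr hℓ.ne_zero
  rw [← map_natCast (algebraMap (𝓞 ℚ) ℚ)]
  refine le_antisymm (not_lt.mp fun h => ?_) ((ord_algebraMap_pos_iff u hl0).mpr hu)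
  have h2 : (ℓ : 𝓞 ℚ) ∈ u.asIdeal ^ 2 :=
    (le_ord_algebraMap_iff u hl0 2).mp (by rw [Nat.cast_ofNat]; exact h)
  have hdvd : Ideal.absNorm u.asIdeal ^ 2 ∣ ℓ ^ Module.finrank ℚ ℚ := by
    rw [← map_pow, ← absNorm_span_natCast (K := ℚ) ℓ]
    exact Ideal.absNorm_dvd_absNorm_of_le ((Ideal.span_singleton_le_iff_mem _).mpr h2)
  rw [Module.finrank_self, pow_one] at hdvd
  have h1 : Ideal.absNorm u.asIdeal ≠ 1 := fun h => u.isPrime.ne_top (Ideal.absNorm_eq_one_iff.mp h)
  rcases (Nat.dvd_prime hℓ).mp ((dvd_pow_self _ two_ne_zero).trans hdvd) with h' | h'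
  · exact h1 h'
  · rw [h', pow_two] at hdvd
    have h3 := Nat.le_of_dvd hℓ.pos hdvd
    have := hℓ.two_le
    nlinarith

/-! ### Kummer extensions -/

section Kummer

variable {F : Type} [Field F] [NumberField F] [Algebra K F] [IsGalois K F]
  (hF : Module.finrank K F = p) {σ : F ≃ₐ[K] F} (hσ : σ ≠ 1) (hζ : IsPrimitiveRoot ζ p)
  {β : F} {a : Kˣ} (hβ : β ^ p = algebraMap K F (a : K)) (hσβ : σ β = algebraMap K F ζ * β)

omit [IsGalois K F] in
include hζ in
/-- A `p`-th root of an element close to `1` is a unit close to a root of unity. -/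
lemma exists_close_root {v : Pl K} {w : Pl F} (hw : plUnder K w = v) {b : F} {z : K} (hz0 : z ≠ 0)
    (hz : CloseOne v (localLevel p ζ v) z) (hbp : b ^ p = algebraMap K F z) :
    ord w b = 0 ∧ b ≠ 0 ∧ ∃ i < p, b - algebraMap K F ζ ^ i = 0 ∨
      (plRamIdx K w : ℤ) * zetaOrd ζ v < ord w (b - algebraMap K F ζ ^ i) := by
  have hζF : IsPrimitiveRoot (algebraMap K F ζ) p := hζ.map_of_injective (algebraMap K F).injective
  have hb0 : b ≠ 0 := by
    intro h
    rw [h, zero_pow hp.out.ne_zero, eq_comm, map_eq_zero] at hbp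
    exact hz0 hbp
  refine ⟨?_, hb0, ?_⟩
  · have h := ord_pow w b p
    rw [hbp, ord_algebraMap_eq, hw, hz.ord_eq_zero (localLevel_pos p ζ v), mul_zero] at h
    rcases mul_eq_zero.mp h.symm with h | h
    · exact absurd h (by exact_mod_cast hp.out.ne_zero)
    · exact h
  by_contra hno
  push Not at hno
  have hne : ∀ i ∈ Finset.range p, b - algebraMap K F ζ ^ i ≠ 0 := fun i hi =>
    (hno i (Finset.mem_range.mp hi)).1
  have hprod : ∏ i ∈ Finset.range p, (b - algebraMap K F ζ ^ i) = algebraMap K F (z - 1) := by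
    rw [prod_sub_zeta_pow hζF, hbp, map_sub, map_one]
  have hne1 : z - 1 ≠ 0 := fun h =>
    Finset.prod_ne_zero_iff.mpr hne (by rw [hprod, h, map_zero])
  have h1 : (localLevel p ζ v : ℤ) ≤ ord v (z - 1) := hz.resolve_left (sub_ne_zero.mp hne1)
  have h2 : ord w (∏ i ∈ Finset.range p, (b - algebraMap K F ζ ^ i)) ≤
      p * ((plRamIdx K w : ℤ) * zetaOrd ζ v) := by
    rw [ord_prod w _ _ hne]
    have := Finset.sum_le_sum (s := Finset.range p) fun i hi =>
      (hno i (Finset.mem_range.mp hi)).2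
    simpa using this
  rw [hprod, ord_algebraMap_eq, hw] at h2
  simp only [localLevel] at h1
  push_cast at h1
  nlinarith [mul_le_mul_of_nonneg_left h1 (Int.natCast_nonneg (plRamIdx K w)),
    plRamIdx_pos (K := K) w]

omit [IsGalois K F] in
include hζ hβ hσβ in
/-- A local `p`-th power splits. -/
theorem not_isNonsplit_of_mem_localPowers {v : Pl K} (hv : a ∈ localPowers p ζ v) :
    ¬ IsNonsplit σ v := by
  intro hns
  obtain ⟨w, hw⟩ := exists_plUnder_eq (F := F) v
  have hsw := hns w hw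
  obtain ⟨y, hy⟩ := hv
  set b := β / algebraMap K F (y : K) with hb
  have hbp : b ^ p = algebraMap K F ((a : K) / (y : K) ^ p) := by
    rw [hb, div_pow, hβ, map_div₀, map_pow]
  -- some conjugate difference has large valuation
  obtain ⟨hbord, hb0, i, hi⟩ :=
    exists_close_root hζ hw (div_ne_zero a.ne_zero (pow_ne_zero _ y.ne_zero)) hy hbp
  set e := (plRamIdx K w : ℤ)
  have hζF : IsPrimitiveRoot (algebraMap K F ζ) p := hζ.map_of_injective (algebraMap K F).injective
  have hσb : σ b = algebraMap K F ζ * b := by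
    rw [hb, map_div₀, hσβ, AlgEquiv.commutes, mul_div_assoc]
  -- apply `σ`
  have hσi : σ (b - algebraMap K F ζ ^ i) = algebraMap K F ζ * b - algebraMap K F ζ ^ i := by
    rw [map_sub, map_pow, hσb, AlgEquiv.commutes]
  have hi' : algebraMap K F ζ * b - algebraMap K F ζ ^ i = 0 ∨
      e * zetaOrd ζ v < ord w (algebraMap K F ζ * b - algebraMap K F ζ ^ i) := by
    rcases hi.2 with h | h
    · left; rw [← hσi, h, map_zero]
    · right
      have h3 := ord_smul σ w (b - algebraMap K F ζ ^ i)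
      rw [hsw, AlgEquiv.smul_def, hσi] at h3
      omega
  have hd : ord w ((algebraMap K F ζ - 1) * b) = e * zetaOrd ζ v := by
    rw [ord_mul w (sub_ne_zero.mpr (hζF.ne_one hp.out.one_lt)) hb0, hbord, add_zero, ← ord_neg,
      neg_sub, ← map_one (algebraMap K F), ← map_sub, ord_algebraMap_eq, hw, ord_one_sub_zeta hζ]
  have hne : (algebraMap K F ζ - 1) * b ≠ 0 :=
    mul_ne_zero (sub_ne_zero.mpr (hζF.ne_one hp.out.one_lt)) hb0
  have e1 : (algebraMap K F ζ - 1) * b = (algebraMap K F ζ * b - algebraMap K F ζ ^ i) +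
      -(b - algebraMap K F ζ ^ i) := by ring
  have := ord_add_ge w (n := e * zetaOrd ζ v + 1) (x := algebraMap K F ζ * b - algebraMap K F ζ ^ i)
    (y := -(b - algebraMap K F ζ ^ i)) (by rw [← e1]; exact hne) ?_ ?_
  · rw [← e1, hd] at this; omega
  · exact hi'.imp id fun h => by omega
  · rcases hi.2 with h | h
    · exact Or.inl (by rw [h, neg_zero])
    · exact Or.inr (by rw [ord_neg]; omega)

omit [NumberField K] [IsGalois K F] in
/-- Elements of inertia fix residues of local units. -/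
lemma ord_sub_pos_of_inertia {w : Pl F} {τ : F ≃ₐ[K] F}
    (hτ : ∀ x : 𝓞 F, τ • x - x ∈ w.asIdeal) {u : F} (hu : u ≠ 0) (hu0 : ord w u = 0) :
    τ u = u ∨ 0 < ord w (τ u - u) := by
  obtain ⟨a', b', ha, hb, hab⟩ := exists_localUnit_eq_div w ⟨Units.mk0 u hu, hu0⟩
  change u * b' = a' at hab
  rcases eq_or_ne (τ u) u with h | hne
  · exact Or.inl h
  refine Or.inr ?_
  have hb0 : (b' : F) ≠ 0 := fun h =>
    hb (by rw [show b' = 0 from RingOfIntegers.ext h]; exact zero_mem _)
  have hτb : τ (b' : F) ≠ 0 := (_root_.map_ne_zero τ).mpr hb0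
  have hnum : (τ u - u) * ((b' : F) * τ (b' : F)) =
      ((τ • a' * b' - a' * τ • b' : 𝓞 F) : F) := by
    push_cast
    rw [AlgEquiv.smul_def, AlgEquiv.smul_def,
      show τ (a' : F) = τ u * τ (b' : F) by rw [← map_mul]; exact congrArg τ hab.symm]
    linear_combination (-τ (b' : F)) * hab
  have hmem : τ • a' * b' - a' * τ • b' ∈ w.asIdeal := by
    rw [show τ • a' * b' - a' * τ • b' = (τ • a' - a') * b' - a' * (τ • b' - b') by ring]
    exact sub_mem (Ideal.mul_mem_right _ _ (hτ a')) (Ideal.mul_mem_left _ _ (hτ b'))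
  have hne0 : τ • a' * b' - a' * τ • b' ≠ 0 := by
    intro h
    rw [h] at hnum
    push_cast at hnum
    exact mul_ne_zero (sub_ne_zero.mpr hne) (mul_ne_zero hb0 hτb) hnum
  have h1 := (ord_algebraMap_pos_iff w hne0).mpr hmem
  rw [← hnum, ord_mul w (sub_ne_zero.mpr hne) (mul_ne_zero hb0 hτb), ord_mul w hb0 hτb,
    (ord_algebraMap_eq_zero_iff w (fun h => hb0 (by rw [h]; exact map_zero _))).mpr hb] at h1
  have hτb' : τ • b' ∉ w.asIdeal := fun h => hb (by simpa using sub_mem h (hτ b'))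
  have h2 : ord w (τ (b' : F)) = 0 := by
    have e : τ (b' : F) = ((τ • b' : 𝓞 F) : F) := rfl
    rw [e] at hτb ⊢
    exact (ord_algebraMap_eq_zero_iff w (fun h => hτb (by rw [h]; exact map_zero _))).mpr hτb'
  omega

include hF hζ hβ hσβ in
/-- Away from `p`, divisibility of the valuation by `p` gives no ramification. -/
theorem plRamIdx_eq_one_of_dvd {w : Pl F} (hp' : ord (plUnder K w) (p : K) = 0)
    (hdvd : (p : ℤ) ∣ ord (plUnder K w) (a : K)) : plRamIdx K w = 1 := by
  refine plRamIdx_eq_one_of_inertia w fun τ hτ => ?_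
  by_contra hne
  -- otherwise inertia contains `σ`
  have hσI : σ ∈ w.asIdeal.inertia (F ≃ₐ[K] F) :=
    (Subgroup.zpowers_le.mpr (show τ ∈ w.asIdeal.inertia (F ≃ₐ[K] F) from hτ))
      (mem_zpowers_generator hF hne σ)
  obtain ⟨π, hπ0, hπ⟩ := exists_ord_eq_one (plUnder K w)
  obtain ⟨k, hk⟩ := hdvd
  -- divide `β` by a power of the uniformiser to get a unit
  set b := β / algebraMap K F (π ^ k) with hb
  have hβ0 : β ≠ 0 := by
    intro h
    rw [h, zero_pow hp.out.ne_zero, eq_comm, map_eq_zero] at hβ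
    exact a.ne_zero hβ
  have hπk : algebraMap K F (π ^ k) ≠ 0 := (_root_.map_ne_zero _).mpr (zpow_ne_zero _ hπ0)
  have hb0 : b ≠ 0 := div_ne_zero hβ0 hπk
  have hbord : ord w b = 0 := by
    have h := ord_pow w β p
    rw [hβ, ord_algebraMap_eq, hk, mul_left_comm] at h
    have hpz : (p : ℤ) ≠ 0 := by exact_mod_cast hp.out.ne_zero
    rw [hb, ord_div w hβ0 hπk, ord_algebraMap_eq, ord_zpow, hπ, mul_one]
    have := mul_left_cancel₀ hpz h
    omega
  have hσb : σ b = algebraMap K F ζ * b := by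
    rw [hb, map_div₀, hσβ, AlgEquiv.commutes, mul_div_assoc]
  have hζF : IsPrimitiveRoot (algebraMap K F ζ) p := hζ.map_of_injective (algebraMap K F).injective
  -- `σ` multiplies it by `ζ`, so `1 - ζ` would have positive valuation
  rcases ord_sub_pos_of_inertia (show ∀ x : 𝓞 F, σ • x - x ∈ w.asIdeal from hσI) hb0 hbord
    with h | h
  · rw [hσb, mul_eq_right₀ hb0] at h
    exact hζF.ne_one hp.out.one_lt h
  · rw [hσb, show algebraMap K F ζ * b - b = -((1 - algebraMap K F ζ) * b) by ring, ord_neg,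
      ord_mul w (sub_ne_zero.mpr (hζF.ne_one hp.out.one_lt).symm) hb0, hbord,
      ← map_one (algebraMap K F), ← map_sub, ord_algebraMap_eq, ord_one_sub_zeta hζ,
      zetaOrd_eq_zero_of_ord hζ _ hp'] at h
    simp at h

end Kummer

end Fermat.CFT
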