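import Fermat.Agent.CFT.Kummer.LocalNorm

/-!
# The norm theorem for cyclic extensions of degree `p`, ramification allowed

`K` contains a primitive `p`-th root of unity; `p` is odd, or `K` is totally complex (primed
versions: any prime `p`, in particular `p = 2`).

`exists_norm_eq_of_localNorms` and `index_localNorms`; `CFT/Local/Symbol` reads them as the norm
residue symbol, `LT` uses them for theta characters.
-/

set_option autoImplicit false

noncomputable section

open NumberField
open scoped Pointwise

namespace Fermat.CFT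

variable {K : Type} [Field K] [NumberField K] {p : ℕ} [hp : Fact p.Prime] {ζ : K}
  {F : Type} [Field F] [NumberField F] [Algebra K F] [IsGalois K F]

omit [IsGalois K F] hp in
/-- An element `localLevel`-close to a norm at `v` is a local norm. -/
lemma mem_localNorms_of_close {v : Pl K} {x : Kˣ} {y : F} (hy : y ≠ 0)
    (h : CloseOne v (localLevel p ζ v) ((x : K) / Algebra.norm K y)) :
    x ∈ localNorms p ζ F v := by
  have hN : Algebra.norm K y ≠ 0 := Algebra.norm_ne_zero_iff.mpr hy
  refine mem_localNorms.mpr ⟨Units.mk0 y hy, x / Units.mk0 _ hN, ⟨1, ?_⟩, ?_⟩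
  · simpa using h
  · simp [mul_div_cancel₀, hN]

variable (p ζ F) in
/-- The local norm residue groups at a set of primes. -/
def LocN (A : Finset (Pl K)) : Type := (v : A) → Additive (Kˣ ⧸ localNorms p ζ F v.1)

/-- The local norm residue groups form a group. -/
instance LocN.instAddCommGroup (A : Finset (Pl K)) : AddCommGroup (LocN p ζ F A) :=
  inferInstanceAs (AddCommGroup ((v : A) → Additive (Kˣ ⧸ localNorms p ζ F v.1)))

variable (p ζ F) in
/-- The norm residue classes of `U`-units at the primes in `A`. -/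
def normResidue (A U : Finset (Pl K)) :
    Additive (sUnits K (U : Set (Pl K))) →+ LocN p ζ F A where
  toFun e _ := Additive.ofMul (QuotientGroup.mk (Additive.toMul e).1)
  map_zero' := rfl
  map_add' _ _ := rfl

omit hp [NumberField F] [IsGalois K F] in
/-- A unit has trivial residues exactly when it is a local norm at each of the primes. -/
lemma mem_ker_normResidue {A U : Finset (Pl K)} {e : Additive (sUnits K (U : Set (Pl K)))} :
    e ∈ (normResidue p ζ F A U).ker ↔ ∀ v ∈ A, (Additive.toMul e).1 ∈ localNorms p ζ F v := by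
  rw [AddMonoidHom.mem_ker]
  exact ⟨fun h v hv => (QuotientGroup.eq_one_iff _).mp (congrFun h ⟨v, hv⟩ :),
    fun h => funext fun v => (QuotientGroup.eq_one_iff _).mpr (h v.1 v.2)⟩

omit [NumberField K] in
/-- Counting: factors at least `p` with product `k r`, where `k ∣ N`, `r ∣ p` and `N p = p ^ #ι`,
are all `p`. -/
lemma index_count {ι : Type} [Fintype ι] (f : ι → ℕ) (hf : ∀ i, p ≤ f i) {k r N : ℕ}
    (h : k * r = ∏ i, f i) (hN : N * p = p ^ Fintype.card ι) (hk : k ∣ N) (hr : r ∣ p) :
    (∀ i, f i = p) ∧ r = p ∧ k = N ∧ 0 < N := by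
  classical
  have hNpos : 0 < N := Nat.pos_of_ne_zero fun h0 => by
    rw [h0, zero_mul] at hN
    exact pow_ne_zero _ hp.out.ne_zero hN.symm
  have hle : ∏ i, f i ≤ ∏ _i : ι, p := by
    rw [Finset.prod_const, Finset.card_univ, ← hN, ← h]
    exact Nat.mul_le_mul (Nat.le_of_dvd hNpos hk) (Nat.le_of_dvd hp.out.pos hr)
  have hall : ∀ i, f i = p := by
    intro i
    by_contra hne
    exact absurd hle (not_le.mpr (Finset.prod_lt_prod (fun _ _ => hp.out.pos) (fun j _ => hf j)
      ⟨i, Finset.mem_univ _, lt_of_le_of_ne (hf i) (Ne.symm hne)⟩))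
  rw [Finset.prod_congr rfl fun i _ => hall i, Finset.prod_const, Finset.card_univ, ← hN] at h
  have h1 : k ≤ N := Nat.le_of_dvd hNpos hk
  have h2 : r = p := by
    rcases (Nat.dvd_prime hp.out).mp hr with rfl | rfl
    · have := hp.out.two_le; nlinarith
    · rfl
  subst h2
  exact ⟨hall, rfl, Nat.eq_of_mul_eq_mul_right hp.out.pos h, hNpos⟩

variable (hF : Module.finrank K F = p) {σ : F ≃ₐ[K] F} (hσ : σ ≠ 1) (hζ : IsPrimitiveRoot ζ p)

include hF hσ hζ in
/-- At a place that does not split the local norms have index at least `p`. -/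
lemma le_index_localNorms {v : Pl K} (hv : IsNonsplit σ v) : p ≤ (localNorms p ζ F v).index := by
  have hle : localPowers p ζ v ≤ localNorms p ζ F v := le_sup_right
  have h0 : (localNorms p ζ F v).index ≠ 0 := fun h => by
    have := Subgroup.index_dvd_of_le hle
    rw [h, zero_dvd_iff, index_localPowers hζ] at this
    exact mul_ne_zero (mul_ne_zero hp.out.ne_zero hp.out.ne_zero)
      (pow_ne_zero _ (Ideal.absNorm_eq_zero_iff.not.mpr v.ne_bot)) this
  obtain ⟨x, hx⟩ : ∃ x : Kˣ, x ∉ localNorms p ζ F v := by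
    by_contra hno
    push Not at hno
    exact localNorms_ne_top hF hσ hζ hv (eq_top_iff.mpr fun x _ => hno x)
  have : Finite (Kˣ ⧸ localNorms p ζ F v) := Nat.finite_of_card_ne_zero h0
  have hord : orderOf (QuotientGroup.mk x : Kˣ ⧸ localNorms p ζ F v) = p :=
    orderOf_eq_prime (by
      rw [← QuotientGroup.mk_pow, QuotientGroup.eq_one_iff]
      exact hle (pow_mem_localPowers v x)) fun h => hx ((QuotientGroup.eq_one_iff _).mp h)
  have hdvd : orderOf (QuotientGroup.mk x : Kˣ ⧸ localNorms p ζ F v) ∣
      Nat.card (Kˣ ⧸ localNorms p ζ F v) := orderOf_dvd_natCard _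
  rw [hord] at hdvd
  exact Nat.le_of_dvd (Nat.pos_of_ne_zero h0) hdvd

open Classical in
/-- Every one of the separating primes separates. -/
private lemma exists_not_mem_localAt (hζ : IsPrimitiveRoot ζ p) {S T : Finset (Pl K)}
    (hSp : ∀ v : Pl K, v ∉ S → ord v (p : K) = 0) (hTS : ∀ v ∈ T, v ∉ S)
    (hTi : (localKer p ζ S T).index = p ^ T.card) {v : Pl K} (hv : v ∈ T) :
    ∃ e : Additive (sUnits K (S : Set (Pl K))), e ∉ localAt p ζ S v := by
  by_contra hno
  push Not at hno
  have htop : localAt p ζ S v = ⊤ := eq_top_iff.mpr fun e _ => hno e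
  have h1 := index_localKer_union_dvd hζ hSp ∅ (T.erase v)
    fun w hw => hTS w (Finset.mem_of_mem_erase hw)
  have h2 : localKer p ζ S T = localKer p ζ S (T.erase v) := by
    conv_lhs => rw [← Finset.insert_erase hv]
    rw [localKer, Finset.inf_insert, ← localKer, htop, top_inf_eq]
  rw [Finset.empty_union, show (localKer p ζ S (∅ : Finset (Pl K))).index = 1 by simp [localKer],
    one_mul, ← h2, hTi, Finset.card_erase_of_mem hv] at h1
  have h3 := (Nat.pow_dvd_pow_iff_le_right hp.out.one_lt).mp h1
  have h4 : 0 < T.card := Finset.card_pos.mpr ⟨v, hv⟩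
  omega

variable (F) in
/-- From the classes modulo `p`-th powers to the norm residue classes at some of the primes. -/
private def locQToLocN (p : ℕ) [Fact p.Prime] (ζ : K) {S A : Finset (Pl K)} (hA : A ⊆ S) :
    LocQ p ζ S →+ LocN p ζ F A where
  toFun f u := MonoidHom.toAdditive (QuotientGroup.map _ (localNorms p ζ F u.1) (MonoidHom.id Kˣ)
    (le_sup_right : localPowers p ζ u.1 ≤ localNorms p ζ F u.1)) (f ⟨u.1, hA u.2⟩)
  map_zero' := funext fun u => map_zero (MonoidHom.toAdditive (QuotientGroup.map _
    (localNorms p ζ F u.1) (MonoidHom.id Kˣ)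
    (le_sup_right : localPowers p ζ u.1 ≤ localNorms p ζ F u.1)))
  map_add' _ _ := funext fun u => map_add (MonoidHom.toAdditive (QuotientGroup.map _
    (localNorms p ζ F u.1) (MonoidHom.id Kˣ)
    (le_sup_right : localPowers p ζ u.1 ≤ localNorms p ζ F u.1))) _ _

omit [NumberField F] [IsGalois K F] in
/-- The projection to the norm residue groups is surjective. -/
private lemma surjective_locQToLocN {S A : Finset (Pl K)} (hA : A ⊆ S) :
    Function.Surjective (locQToLocN F p ζ hA) := by
  classical
  intro g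
  choose r hr using fun u : A => QuotientGroup.mk_surjective (Additive.toMul (g u))
  refine ⟨fun v => if h : v.1 ∈ A then Additive.ofMul (QuotientGroup.mk (r ⟨v.1, h⟩)) else 0,
    funext fun u => ?_⟩
  change MonoidHom.toAdditive _ _ = _
  rw [show (fun v : S => _) ⟨u.1, hA u.2⟩ = _ from dif_pos u.2]
  exact congrArg Additive.ofMul (hr u)

section Gen

variable [IsTotallyComplex K]

include hF hσ hζ

open Classical in
/-- Residues of units at the non-split primes, for a given set containing the bad primes: some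
split primes, at each of which some `S`-unit is not a local power, bring the index down to `p`. -/
theorem normResidue_data {S : Finset (Pl K)} (hgen : GeneratesClassGroup (S : Set (Pl K)))
    (hSp : ∀ v : Pl K, v ∉ S → ord v (p : K) = 0) {a₀ : Kˣ}
    (hSa : a₀ ∈ sUnits K (S : Set (Pl K))) {α : F} (hα : α ^ p = algebraMap K F (a₀ : K))
    (hσα : σ α = algebraMap K F ζ * α) :
    ∃ T : Finset (Pl K),
      (∀ v ∈ T, v ∉ S ∧ ¬ IsNonsplit σ v ∧
        ∃ e : Additive (sUnits K (S : Set (Pl K))), e ∉ localAt p ζ S v) ∧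
      (∀ v ∈ (S ∪ T).filter (IsNonsplit σ), (localNorms p ζ F v).index = p) ∧
      (normResidue p ζ F ((S ∪ T).filter (IsNonsplit σ)) (S ∪ T)).range.index = p ∧
      (normResidue p ζ F ((S ∪ T).filter (IsNonsplit σ)) (S ∪ T)).ker = normSubgroup F (S ∪ T) := by
  have hunr : ∀ w : Pl F, plUnder K w ∉ S → plRamIdx K w = 1 := fun w hw =>
    plRamIdx_eq_one_of_dvd hF hζ hα hσα (hSp _ hw) (by rw [hSa _ hw]; exact dvd_zero _)
  set n := Fintype.card (InfinitePlace K) + S.card with hn
  have hnpos : 0 < n := Nat.add_pos_left Fintype.card_pos _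
  obtain ⟨T, hTc, hT, hTi⟩ := exists_separating_primes hF hσ hζ hSp
    (a₀ := Additive.ofMul (⟨a₀, hSa⟩ : sUnits K (S : Set (Pl K)))) hα hσα (n - 1) (by omega)
  set U := S ∪ T with hU
  refine ⟨T, fun v hv => ⟨(hT v hv).1, (hT v hv).2, ?_⟩, ?_⟩
  · exact exists_not_mem_localAt hζ hSp (fun v hv => (hT v hv).1) (hTc ▸ hTi) hv
  set E := Additive (sUnits K (U : Set (Pl K)))
  have hnsU : U.filter (IsNonsplit σ) = S.filter (IsNonsplit σ) := by
    rw [hU, Finset.filter_union, Finset.filter_eq_empty_iff.mpr fun v hv => (hT v hv).2,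
      Finset.union_empty]
  rw [hnsU]
  set ns := S.filter (IsNonsplit σ)
  have hfinQ : ∀ v : S, Finite (Additive (Kˣ ⧸ localPowers p ζ v.1)) := fun v =>
    finite_locQ_factor hζ v.1
  let Λ : E →+ LocQ p ζ S := sUnitsLocQ p ζ S U
  have : Finite (LocQ p ζ S) :=
    inferInstanceAs (Finite ((v : S) → Additive (Kˣ ⧸ localPowers p ζ v.1)))
  have hΛ : Λ.range.index ∣ p :=
    index_range_sUnitsLocQ_dvd hζ hSp hgen (fun v hv => (hT v hv).1) (hTc ▸ hTi) (by omega)
  -- projection to the norm residue groups
  have hns : ns ⊆ S := Finset.filter_subset _ _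
  let π : LocQ p ζ S →+ LocN p ζ F ns := locQToLocN F p ζ hns
  have hπ : Function.Surjective π := surjective_locQToLocN hns
  set θ := normResidue p ζ F ns U
  have hθeq : θ = π.comp Λ := rfl
  have hθdvd : θ.range.index ∣ p := by
    rw [hθeq, show (π.comp Λ).range = Λ.range.map π from (AddMonoidHom.map_range π Λ).symm]
    exact (AddSubgroup.index_map_dvd _ hπ).trans hΛ
  have hN : normSubgroup F U ≤ θ.ker := fun e ⟨y, hy⟩ =>
    mem_ker_normResidue.mpr fun v _ =>
      norm_mem_localNorms (y := ((Additive.toMul y).1 : Fˣ)) hy.symm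
  -- compare with the index of the global norms: all inequalities are equalities
  have key := index_normSubgroup_mul' (F := F) (σ := σ) U hF hσ (hgen.mono (by simp [hU]))
    fun w hw => hunr w fun h => hw (by simp [hU, h])
  rw [hnsU] at key
  have hge : ∀ v : ns, p ≤ (localNorms p ζ F v.1).index := fun v =>
    le_index_localNorms hF hσ hζ (Finset.mem_filter.mp v.2).2
  have hcardN : Nat.card (LocN p ζ F ns) = ∏ v : ns, (localNorms p ζ F v.1).index := by
    rw [show Nat.card (LocN p ζ F ns) = _ from Nat.card_pi]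
    exact Finset.prod_congr rfl fun v _ => Nat.card_congr Additive.toMul
  have h3 := AddSubgroup.card_mul_index θ.range
  rw [hcardN, ← AddSubgroup.index_ker] at h3
  obtain ⟨hall, hrp, hkN, hNpos⟩ := index_count (fun v : ns => (localNorms p ζ F v.1).index) hge
    h3 (by rw [Fintype.card_coe]; exact key) (AddSubgroup.index_dvd_of_le hN) hθdvd
  refine ⟨fun v hv => hall ⟨v, hv⟩, hrp, (le_antisymm hN ?_).symm⟩
  rw [← AddSubgroup.relIndex_eq_one]
  have h5 := AddSubgroup.relIndex_mul_index hN
  rw [hkN] at h5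
  exact Nat.eq_of_mul_eq_mul_right hNpos (h5.trans (one_mul _).symm)

open Classical in
/-- The norm theorem, with the index of the residues of units at the non-split primes: every
finite set of primes lies in a set `U` for which the residues of the `U`-units at the non-split
primes of `U` have index `p` and detect norms. -/
theorem exists_normResidue_set' (S₀ : Finset (Pl K)) :
    ∃ U : Finset (Pl K), S₀ ⊆ U ∧
      (∀ w : Pl F, plUnder K w ∉ U → plRamIdx K w = 1) ∧
      (∀ v ∈ U.filter (IsNonsplit σ), (localNorms p ζ F v).index = p) ∧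
      (normResidue p ζ F (U.filter (IsNonsplit σ)) U).range.index = p ∧
      (normResidue p ζ F (U.filter (IsNonsplit σ)) U).ker = normSubgroup F U := by
  obtain ⟨α, a₀, -, hα, hσα⟩ := exists_kummer_generator hF hσ hζ
  obtain ⟨S₁, hS₁⟩ := exists_finset_generatesClassGroup K
  set S := S₁ ∪ (finite_ord_ne_zero (p : K)).toFinset ∪ (finite_ord_ne_zero (a₀ : K)).toFinset ∪
    S₀ with hSdef
  have hgen : GeneratesClassGroup (S : Set (Pl K)) := hS₁.mono (by intro v hv; simp [hSdef]; tauto)
  have hSp : ∀ v : Pl K, v ∉ S → ord v (p : K) = 0 := fun v hv => by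
    simp [hSdef] at hv; tauto
  have hSa : a₀ ∈ sUnits K (S : Set (Pl K)) := fun v hv => by
    simp [hSdef] at hv; tauto
  have hunr : ∀ w : Pl F, plUnder K w ∉ S → plRamIdx K w = 1 := fun w hw =>
    plRamIdx_eq_one_of_dvd hF hζ hα hσα (hSp _ hw) (by rw [hSa _ hw]; exact dvd_zero _)
  obtain ⟨T, -, h1, h2', h3⟩ := normResidue_data hF hσ hζ hgen hSp hSa hα hσα
  exact ⟨S ∪ T, fun v hv => by simp [hSdef, hv], fun w hw => hunr w fun h => hw (by simp [h]),
    h1, h2', h3⟩

/-- The local norm index at a prime which does not split. -/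
theorem index_localNorms' {v : Pl K} (hv : IsNonsplit σ v) : (localNorms p ζ F v).index = p := by
  classical
  obtain ⟨U, hU, -, h, -⟩ := exists_normResidue_set' hF hσ hζ {v}
  exact h v (Finset.mem_filter.mpr ⟨hU (Finset.mem_singleton_self v), hv⟩)

/-- **The norm theorem.** An element which is a local norm at every nonsplit prime is a global
norm. -/
theorem exists_norm_eq_of_localNorms' {x : K} (hx0 : x ≠ 0)
    (hx : ∀ v : Pl K, IsNonsplit σ v → Units.mk0 x hx0 ∈ localNorms p ζ F v) :
    ∃ y : F, Algebra.norm K y = x := by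
  classical
  obtain ⟨U, hU, -, -, -, hker⟩ := exists_normResidue_set' hF hσ hζ
    (finite_ord_ne_zero x).toFinset
  have hxU : Units.mk0 x hx0 ∈ sUnits K (U : Set (Pl K)) := fun v hv => by
    by_contra h
    exact hv (hU ((finite_ord_ne_zero x).mem_toFinset.mpr h))
  have hmem : Additive.ofMul (⟨_, hxU⟩ : sUnits K (U : Set (Pl K))) ∈
      (normResidue p ζ F (U.filter (IsNonsplit σ)) U).ker :=
    mem_ker_normResidue.mpr fun v hv => hx v (Finset.mem_filter.mp hv).2
  obtain ⟨y, hy⟩ := hker.le hmem
  exact ⟨_, hy⟩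

end Gen

variable (h2 : 2 < p)

include hF hσ hζ h2

/-- The local norm index at a prime which does not split, for odd `p`. -/
theorem index_localNorms {v : Pl K} (hv : IsNonsplit σ v) : (localNorms p ζ F v).index = p :=
  have := isTotallyComplex_of_primitiveRoot hζ h2
  index_localNorms' hF hσ hζ hv

/-- The norm theorem for odd `p`. -/
theorem exists_norm_eq_of_localNorms {x : K} (hx0 : x ≠ 0)
    (hx : ∀ v : Pl K, IsNonsplit σ v → Units.mk0 x hx0 ∈ localNorms p ζ F v) :
    ∃ y : F, Algebra.norm K y = x :=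
  have := isTotallyComplex_of_primitiveRoot hζ h2
  exists_norm_eq_of_localNorms' hF hσ hζ hx0 hx

end Fermat.CFT
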