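import Fermat.Agent.CFT.Kummer.Ord
import Fermat.Agent.CFT.Kummer.Herbrand

/-!
# `S`-units of a number field: finite generation and rank

`finrank_sUnits` and `index_range_nsmul_sUnits`: the counts behind the norm index (`Cyclic`,
`Hasse`) and `CFT/Global/KUnits`; the finite generation also serves the weak Mordell–Weil theorem
(`HT/MW`).
-/

set_option autoImplicit false

noncomputable section

open NumberField IsDedekindDomain HeightOneSpectrum
open scoped nonZeroDivisors

namespace Fermat.CFT

variable (K : Type*) [Field K] [NumberField K]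

/-- The group of `S`-units. -/
def sUnits (S : Set (Pl K)) : Subgroup Kˣ where
  carrier := {x | ∀ v ∉ S, ord v (x : K) = 0}
  one_mem' v _ := by simp
  mul_mem' {x y} hx hy v hv := by
    simp [ord_mul v x.ne_zero y.ne_zero, hx v hv, hy v hv]
  inv_mem' {x} hx v hv := by simp [ord_inv, hx v hv]

variable {K}

/-- A larger set of primes gives more units. -/
lemma sUnits_mono {S T : Set (Pl K)} (h : S ⊆ T) : sUnits K S ≤ sUnits K T :=
  fun _ hx v hv => hx v fun hv' => hv (h hv')

/-- Some positive multiple of a prime is the divisor of an element. -/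
lemma exists_ord_pow_single (v : Pl K) :
    ∃ (x : K) (h : ℕ), 0 < h ∧ x ≠ 0 ∧ ord v x = h ∧ ∀ w : Pl K, w ≠ v → ord w x = 0 := by
  classical
  set h := Fintype.card (ClassGroup (𝓞 K))
  have hprin : (v.asIdeal ^ h).IsPrincipal := by
    refine (ClassGroup.mk0_eq_one_iff
      (pow_mem (mem_nonZeroDivisors_iff_ne_zero.mpr v.ne_bot) h)).mp ?_
    have h2 : ClassGroup.mk0
        ((⟨v.asIdeal, mem_nonZeroDivisors_iff_ne_zero.mpr v.ne_bot⟩ : (Ideal (𝓞 K))⁰) ^ h) = 1 := by
      rw [map_pow, pow_card_eq_one]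
    exact h2
  obtain ⟨g, hg⟩ := hprin
  rw [Ideal.submodule_span_eq] at hg
  have hg0 : g ≠ 0 := by
    rintro rfl
    rw [Ideal.span_singleton_eq_bot.mpr rfl] at hg
    exact pow_ne_zero h v.ne_bot hg
  have hmem : ∀ (w : Pl K) (k : ℕ), g ∈ w.asIdeal ^ k ↔ w.asIdeal ^ k ∣
      v.asIdeal ^ h := fun w k => by
    rw [← Ideal.span_singleton_le_iff_mem, ← Ideal.dvd_iff_le, hg]
  refine ⟨(g : K), h, Fintype.card_pos, by simpa using hg0, le_antisymm ?_ ?_, fun w hw => ?_⟩
  · by_contra hlt
    have h2 : ((h + 1 : ℕ) : ℤ) ≤ ord v (g : K) := by push_cast; omega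
    have h3 := (hmem v (h + 1)).mp ((le_ord_algebraMap_iff v hg0 _).mp h2)
    have h4 := (pow_dvd_pow_iff v.prime.ne_zero v.prime.not_isUnit).mp h3
    omega
  · exact (le_ord_algebraMap_iff v hg0 h).mpr ((hmem v h).mpr dvd_rfl)
  · rw [ord_algebraMap_eq_zero_iff w hg0, ← pow_one w.asIdeal, hmem, pow_one]
    intro h'
    exact hw (HeightOneSpectrum.ext (v.isMaximal.eq_of_le w.isPrime.ne_top
      (Ideal.dvd_iff_le.mp (w.prime.dvd_of_dvd_pow h'))).symm)

section Finite

variable (S : Finset (Pl K))

/-- The valuation map on `S`-units. -/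
def sUnitsOrd : Additive (sUnits K (S : Set (Pl K))) →ₗ[ℤ] (S → ℤ) :=
  (AddMonoidHom.mk' (fun x v => ord v.1 ((Additive.toMul x).1 : K)) fun x y => by
    ext v
    exact ord_mul v.1 (Units.ne_zero _) (Units.ne_zero _)).toIntLinearMap

/-- The inclusion of the units in the `S`-units. -/
def unitsToSUnits : Additive (𝓞 K)ˣ →ₗ[ℤ] Additive (sUnits K (S : Set (Pl K))) :=
  (MonoidHom.toAdditive ((Units.map (algebraMap (𝓞 K) K : 𝓞 K →* K)).codRestrict
    (sUnits K (S : Set (Pl K))) fun u _ _ => ord_unit _ u)).toIntLinearMap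

/-- The units inject into the `S`-units. -/
lemma unitsToSUnits_injective : Function.Injective (unitsToSUnits S) := by
  intro a b h
  have h' := congrArg (fun z => ((Additive.toMul z : sUnits K (S : Set (Pl K))).1 : K)) h
  exact Units.ext (RingOfIntegers.ext h')

/-- The `S`-units with all orders zero are the units. -/
lemma ker_sUnitsOrd : LinearMap.ker (sUnitsOrd S) = LinearMap.range (unitsToSUnits S) := by
  ext x
  constructor
  · intro hx
    obtain ⟨u, hu⟩ := exists_unit_of_ord_eq_zero (Units.ne_zero (Additive.toMul x).1) fun v => by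
      by_cases hv : v ∈ S
      · exact congrFun (LinearMap.mem_ker.mp hx) ⟨v, hv⟩
      · exact (Additive.toMul x).2 v (Finset.mem_coe.not.mpr hv)
    exact ⟨Additive.ofMul u, Additive.toMul.injective (Subtype.ext (Units.ext hu))⟩
  · rintro ⟨u, rfl⟩
    exact funext fun v => ord_unit v.1 (Additive.toMul u)

/-- The `S`-units are finitely generated. -/
instance sUnits_moduleFinite : Module.Finite ℤ (Additive (sUnits K (S : Set (Pl K)))) := by
  have : Module.Finite ℤ (LinearMap.ker (sUnitsOrd S)) := by
    rw [ker_sUnitsOrd]; exact Module.Finite.range _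
  have : Module.Finite ℤ (Additive (sUnits K (S : Set (Pl K))) ⧸ LinearMap.ker (sUnitsOrd S)) :=
    Module.Finite.equiv (sUnitsOrd S).quotKerEquivRange.symm
  exact Module.Finite.of_submodule_quotient (LinearMap.ker (sUnitsOrd S))

/-- Dirichlet's theorem for `S`-units: the rank is `r₁ + r₂ + #S - 1`. -/
theorem finrank_sUnits :
    Module.finrank ℤ (Additive (sUnits K (S : Set (Pl K)))) + 1 =
      Fintype.card (InfinitePlace K) + S.card := by
  classical
  have hr : Module.finrank ℤ (LinearMap.range (sUnitsOrd S)) = S.card := by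
    refine le_antisymm ((Submodule.finrank_le _).trans (by simp)) ?_
    choose x h hpos hx0 hxv hxw using exists_ord_pow_single (K := K)
    let e : S → LinearMap.range (sUnitsOrd S) := fun v => ⟨Pi.single v (h v.1 : ℤ),
      Additive.ofMul ⟨Units.mk0 (x v.1) (hx0 v.1), fun w hw => hxw v.1 w fun he =>
        hw (he ▸ v.2)⟩, by
      ext w
      change ord w.1 (x v.1) = _
      rcases eq_or_ne w v with rfl | hne
      · rw [Pi.single_eq_same]; exact hxv w.1
      · rw [Pi.single_eq_of_ne hne]; exact hxw v.1 w.1 fun he => hne (Subtype.ext he)⟩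
    have hli : LinearIndependent ℤ e := by
      refine LinearIndependent.of_comp (LinearMap.range (sUnitsOrd S)).subtype ?_
      refine Fintype.linearIndependent_iff.mpr fun g hg v => ?_
      have h2 := congrFun hg v
      simp only [Finset.sum_apply, Function.comp_apply, Submodule.subtype_apply, Pi.smul_apply,
        e, Pi.single_apply, smul_eq_mul, mul_ite, mul_zero, Finset.sum_ite_eq, Finset.mem_univ,
        if_true, Pi.zero_apply] at h2
      rcases mul_eq_zero.mp h2 with h3 | h3
      · exact h3
      · exact absurd h3 (by exact_mod_cast (hpos v.1).ne')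
    simpa using hli.fintype_card_le_finrank
  have hk : Module.finrank ℤ (LinearMap.ker (sUnitsOrd S)) = Units.rank K := by
    rw [ker_sUnitsOrd, LinearMap.finrank_range_of_inj (unitsToSUnits_injective S),
      Units.finrank_eq]
  rw [← Submodule.finrank_quotient_add_finrank (LinearMap.ker (sUnitsOrd S)),
    (sUnitsOrd S).quotKerEquivRange.finrank_eq, hr, hk, Units.rank]
  have : 0 < Fintype.card (InfinitePlace K) := Fintype.card_pos
  omega

end Finite

variable {p : ℕ} [hp : Fact p.Prime]

omit hp in
/-- A field with a primitive `p`-th root of unity, `p > 2`, is totally complex. -/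
lemma isTotallyComplex_of_primitiveRoot {ζ : K} (hζ : IsPrimitiveRoot ζ p) (h2 : 2 < p) :
    IsTotallyComplex K :=
  nrRealPlaces_eq_zero_iff.mp
    (NumberField.InfinitePlace.IsPrimitiveRoot.nrRealPlaces_eq_zero_of_two_lt h2 hζ)

/-- A totally complex field has half as many infinite places as its degree. -/
lemma two_mul_card_infinitePlace [IsTotallyComplex K] :
    2 * Fintype.card (InfinitePlace K) = Module.finrank ℚ K := by
  rw [InfinitePlace.card_eq_nrRealPlaces_add_nrComplexPlaces,
    ← InfinitePlace.card_add_two_mul_card_eq_rank, IsTotallyComplex.nrRealPlaces_eq_zero]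
  ring

/-- The `S`-units modulo `p`-th powers. -/
theorem index_range_nsmul_sUnits (S : Finset (Pl K)) {ζ : K} (hζ : IsPrimitiveRoot ζ p) :
    (nsmulAddMonoidHom p : Additive (sUnits K (S : Set (Pl K))) →+ _).range.index =
      p ^ (Fintype.card (InfinitePlace K) + S.card) := by
  rw [index_range_nsmul p hp.out.ne_zero, ← finrank_sUnits S, pow_succ]
  congr 1
  have hζ0 : ζ ≠ 0 := hζ.ne_zero hp.out.ne_zero
  have hmem : ∀ z : K, (hz : z ≠ 0) → z ^ p = 1 → Units.mk0 z hz ∈ sUnits K (S : Set (Pl K)) := by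
    intro z hz hzp v _
    have := ord_pow v z p
    rw [hzp, ord_one] at this
    rcases mul_eq_zero.mp this.symm with h | h
    · exact absurd h (by exact_mod_cast hp.out.ne_zero)
    · exact h
  have hpow : ∀ i : ℕ, (ζ ^ i) ^ p = 1 := fun i => by
    rw [← pow_mul, mul_comm, pow_mul, hζ.pow_eq_one, one_pow]
  let φ : Fin p → (nsmulAddMonoidHom p : Additive (sUnits K (S : Set (Pl K))) →+ _).ker := fun i =>
    ⟨Additive.ofMul ⟨Units.mk0 (ζ ^ (i : ℕ)) (pow_ne_zero _ hζ0), hmem _ _ (hpow i)⟩,
      Additive.toMul.injective (Subtype.ext (Units.ext (by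
        change (ζ ^ (i : ℕ)) ^ p = 1
        exact hpow i)))⟩
  refine (Nat.card_eq_of_bijective φ ⟨fun a b h => ?_, fun y => ?_⟩).symm.trans (Nat.card_fin p)
  · have h' := congrArg (fun z => ((Additive.toMul z.1 : sUnits K (S : Set (Pl K))).1 : K)) h
    exact Fin.ext (hζ.pow_inj a.2 b.2 h')
  · have hy : ((Additive.toMul y.1 : sUnits K (S : Set (Pl K))).1 : K) ^ p = 1 :=
      congrArg (fun z => ((Additive.toMul z : sUnits K (S : Set (Pl K))).1 : K))
        (AddMonoidHom.mem_ker.mp y.2)
    obtain ⟨i, hi, hi'⟩ := hζ.eq_pow_of_pow_eq_one hy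
    exact ⟨⟨i, hi⟩, Subtype.ext (Additive.toMul.injective (Subtype.ext (Units.ext hi')))⟩

end Fermat.CFT
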